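import Fermat.Agent.S36.RC.Chain

/-!
# S36/RC: upper bounds for the graded pieces

`imOO ≤ L(E_oo)`, `imZR ≤ L(E_zr - DD)`, `imMID i ≤ L(E_mid - Bd i)`.
-/

set_option autoImplicit false

noncomputable section

namespace Fermat.Agent.S36.RC

open AlgebraicCurve Fermat.Agent.Lib.RR Fermat.Agent.GAL.RED

variable {K0 F0 k Fb : Type*} [Field K0] [Field F0] [Algebra K0 F0]
  [Field k] [Field Fb] [Algebra k Fb]

/-- LEAF RC-B0. `u ^ r ∈ L(r D) → u ∈ L(D)` (`mem_riemannRochSpace_iff`, `Place.ord_pow`). -/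
theorem mem_L_of_pow_mem {D : Divisor k Fb} {u : Fb} {r : ℕ} (hr : 0 < r)
    (h : u ^ r ∈ riemannRochSpace ((r : ℤ) • D)) : u ∈ riemannRochSpace D := by
  rw [mem_riemannRochSpace_iff] at h ⊢
  intro v
  rcases h v with h0 | h0
  · exact Or.inl (pow_eq_zero_iff hr.ne' |>.1 h0)
  · right
    have h1 := v.ord_zpow u (r : ℤ)
    rw [zpow_natCast] at h1
    rw [h1, Finsupp.smul_apply, smul_eq_mul] at h0
    have hr' : (0 : ℤ) < r := by exact_mod_cast hr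
    nlinarith

namespace Poles

variable {T : Tri K0 F0 k Fb} (S : Poles T)

/-- LEAF RC-B0. `DD P = ⌈m P / M⌉`. -/
theorem le_DD_iff (P : Place k Fb) (x : ℤ) : S.DD P ≤ x ↔ S.m P ≤ (S.M : ℤ) * x := by
  have hM : (0 : ℤ) < S.M := by exact_mod_cast S.M_pos
  have h1 : S.DD P = -((-(S.m P)) / (S.M : ℤ)) := by
    unfold DD
    rw [Finsupp.mapRange_apply]
  rw [h1, neg_le, Int.le_ediv_iff_mul_le hM]
  constructor <;> intro h <;> nlinarith

/-- LEAF RC-B0. -/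
theorem mem_L_sub_DD {D : Divisor k Fb} {u : Fb}
    (h : u ^ S.M ∈ riemannRochSpace ((S.M : ℤ) • D - S.m)) : u ∈ riemannRochSpace (D - S.DD) := by
  rw [mem_riemannRochSpace_iff] at h ⊢
  intro v
  rcases h v with h0 | h0
  · exact Or.inl (pow_eq_zero_iff S.M_pos.ne' |>.1 h0)
  · right
    have h1 := v.ord_zpow u (S.M : ℤ)
    rw [zpow_natCast] at h1
    rw [h1, Finsupp.sub_apply, Finsupp.smul_apply, smul_eq_mul] at h0
    have h2 : S.DD v ≤ v.ord u + D v := by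
      rw [le_DD_iff]
      linarith
    rw [Finsupp.sub_apply]
    linarith

/-- LEAF RC-B0. `Bd i P = ⌈(2 (e - i) m P - i M ord_P G) / (e M)⌉`. -/
theorem le_Bd_iff [HasPrincipalDivisors k Fb] (i : ℕ) (P : Place k Fb) (x : ℤ) :
    S.Bd i P ≤ x ↔
      2 * ((T.e : ℤ) - i) * S.m P - (i : ℤ) * S.M * P.ord T.G ≤ (T.e : ℤ) * S.M * x := by
  have hM : (0 : ℤ) < S.M := by exact_mod_cast S.M_pos
  have he : (0 : ℤ) < T.e := by
    have h1 := T.q_prime.two_le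
    have h2 := T.he
    have h3 : 0 < T.e := by omega
    exact_mod_cast h3
  have heM : (0 : ℤ) < (T.e : ℤ) * S.M := mul_pos he hM
  have h1 : S.Bd i P = -(((i : ℤ) * S.M * P.ord T.G - 2 * ((T.e : ℤ) - i) * S.m P) /
      ((T.e : ℤ) * S.M)) := by
    unfold Bd
    rw [Finsupp.zipWith_apply, divOf_apply]
  rw [h1, neg_le, Int.le_ediv_iff_mul_le heM]
  constructor <;> intro h <;> linarith

theorem E_apply (i : Cp) (a c : ℕ) (P : Place k Fb) :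
    S.E i a c P = (a : ℤ) * S.X i P + (c : ℤ) * S.Y i P := by
  simp [E]

theorem E_mul (i : Cp) (r a c : ℕ) : S.E i (r * a) (r * c) = (r : ℤ) • S.E i a c := by
  ext P
  simp only [E_apply, Finsupp.smul_apply, smul_eq_mul]
  push_cast
  ring

end Poles

namespace Kum

variable {T : Tri K0 F0 k Fb} {S : Poles T} {n : ℕ} (κ : Kum S n)

/-- LEAF RC-B1. `z = y ^ n f ∈ L (n a) (n c)` is integral and `red_i z = (red_i y) ^ n`; `S.int`;
`mem_L_of_pow_mem`. -/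
theorem red_mem_E {a c : ℕ} {y : F0} (hy : y ∈ κ.Lam a c) (i : Cp) :
    T.red i y ∈ riemannRochSpace (S.E i a c) := by
  obtain ⟨hyM, hyI⟩ := hy
  have hz : y ^ n * κ.f ∈ S.L (n * a) (n * c) := (κ.mem_Mf a c y).1 hyM
  have hzI : T.Int (y ^ n * κ.f) := (hyI.pow n).mul κ.int_f
  have h1 := S.int (n * a) (n * c) _ hz hzI i
  have h2 : T.red i (y ^ n * κ.f) = T.red i y ^ n := by
    rw [Tri.red, (T.R i).red_mul ((hyI.pow n) i) (κ.int_f i)]
    have h3 := κ.red_f i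
    have h4 := T.red_pow (hyI i) n
    rw [Tri.red] at h3 h4
    rw [h3, h4, mul_one]
  rw [h2] at h1
  have h3 : ((n * a : ℕ) : ℤ) • S.X i + ((n * c : ℕ) : ℤ) • S.Y i = (n : ℤ) • S.E i a c := by
    rw [← S.E_mul]
    rfl
  rw [h3] at h1
  exact mem_L_of_pow_mem κ.n_pos h1

theorem imOO_le (a c : ℕ) : κ.imOO a c ≤ riemannRochSpace (S.E Cp.oo a c) := by
  rintro _ ⟨y, hy, -, rfl⟩
  rw [div_one]
  exact κ.red_mem_E hy _

theorem Bound_z_mem {a c : ℕ} {y : F0} (hy : y ∈ κ.Lam a c) :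
    y ^ n * κ.f ∈ S.L (n * a) (n * c) ∧ T.Int (y ^ n * κ.f) ∧
      ∀ i, T.red i (y ^ n * κ.f) = T.red i y ^ n := by
  refine ⟨(κ.mem_Mf a c y).mp hy.1, (hy.2.pow n).mul κ.int_f, fun i => ?_⟩
  have h1 := T.red_pow (hy.2 i) n
  have h2 := κ.red_f i
  rw [Tri.red] at h1 h2 ⊢
  rw [(T.R i).red_mul ((hy.2.pow n) i) (κ.int_f i), h1, h2, mul_one]

theorem Bound_z_div {y : F0} {i : Cp} (hyq : y / (T.q : F0) ∈ (T.R i).O) :
    y ^ n * κ.f / (T.q : F0) ^ n ∈ (T.R i).O := by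
  have h1 : y ^ n * κ.f / (T.q : F0) ^ n = (y / (T.q : F0)) ^ n * κ.f := by
    rw [div_pow]
    ring
  rw [h1]
  exact (T.R i).O.mul_mem _ _ ((T.R i).O.pow_mem hyq n) (κ.int_f i)

theorem Bound_smul_E (i : Cp) (a c : ℕ) (x : ℤ) :
    (S.M : ℤ) • (((n * a : ℕ) : ℤ) • S.X i + ((n * c : ℕ) : ℤ) • S.Y i) - ((n : ℤ) + x) • S.m
      = (n : ℤ) • ((S.M : ℤ) • S.E i a c - S.m) - x • S.m := by
  have h1 := S.E_mul i n a c
  have h2 : ((n * a : ℕ) : ℤ) • S.X i + ((n * c : ℕ) : ℤ) • S.Y i = S.E i (n * a) (n * c) := rfl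
  rw [h2, h1, smul_sub, smul_comm, add_smul]
  abel

/-- LEAF RC-B2. `z = y ^ n f`, `z / q ^ n ∈ O_oo`; `S.van_zr` with `α = n`:
`(red_zr y) ^ (n M) ∈ L(n (M E - m))`; `mem_L_of_pow_mem`, `mem_L_sub_DD`. -/
theorem red_zr_mem_of_mem_Lam1 {a c : ℕ} {y : F0} (hy : y ∈ κ.Lam1 a c) :
    T.red Cp.zr y ∈ riemannRochSpace (S.E Cp.zr a c - S.DD) := by
  obtain ⟨hL, hInt, hred⟩ := κ.Bound_z_mem hy.1
  have h1 := S.van_zr (n * a) (n * c) n _ hL hInt (κ.Bound_z_div hy.2)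
  rw [hred] at h1
  apply S.mem_L_sub_DD
  apply mem_L_of_pow_mem κ.n_pos
  have h2 : (T.red Cp.zr y ^ S.M) ^ n = (T.red Cp.zr y ^ n) ^ S.M := by
    rw [← pow_mul, ← pow_mul, mul_comm]
  have h3 := Bound_smul_E (S := S) (n := n) Cp.zr a c 0
  rw [add_zero, zero_smul, sub_zero] at h3
  rw [h2, ← h3]
  exact h1

/-- LEAF RC-B2. The same with `S.van_mid`, `α = n`, `γ = 0`. -/
theorem red_mid_mem_of_mem_Lam1 {a c : ℕ} {y : F0} (hy : y ∈ κ.Lam1 a c) :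
    T.red Cp.mid y ∈ riemannRochSpace (S.E Cp.mid a c - S.DD) := by
  obtain ⟨hL, hInt, hred⟩ := κ.Bound_z_mem hy.1
  have h1 := S.van_mid (n * a) (n * c) n 0 _ hL hInt (κ.Bound_z_div hy.2)
    (by rw [pow_zero, div_one]; exact hInt Cp.zr)
  rw [hred] at h1
  apply S.mem_L_sub_DD
  apply mem_L_of_pow_mem κ.n_pos
  have h2 : (T.red Cp.mid y ^ S.M) ^ n = (T.red Cp.mid y ^ n) ^ S.M := by
    rw [← pow_mul, ← pow_mul, mul_comm]
  have h3 := Bound_smul_E (S := S) (n := n) Cp.mid a c 0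
  rw [zero_smul, sub_zero] at h3
  rw [h2, ← h3]
  simpa using h1

theorem imZR_le (a c : ℕ) : κ.imZR a c ≤ riemannRochSpace (S.E Cp.zr a c - S.DD) := by
  rintro _ ⟨y, hy, -, rfl⟩
  rw [div_one]
  exact κ.red_zr_mem_of_mem_Lam1 hy

/-- LEAF RC-B3. For `y ∈ Λ²ᵢ`, `i ≤ e`, put `z = y ^ n f`, `z' = z ^ e / q ^ (n i) ∈ L (n e a) (n e c)`.
`z'` is integral, `z' / q ^ (n (e - i))` is integral at `oo` and `zr`, and
`red_mid z' = u ^ (n e) G ^ (n i)`, `u = red_mid (y / b ^ i)`.  `S.van_mid` with `α = γ = n (e - i)`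
gives `M (n e ord_P u + n i ord_P G) ≥ 2 n (e - i) m P - M n e E P`; conclude with `le_Bd_iff`. -/
theorem imMID_le [HasPrincipalDivisors k Fb] (a c i : ℕ) (hi : i ≤ T.e) :
    κ.imMID a c i ≤ riemannRochSpace (S.E Cp.mid a c - S.Bd i) := by
  rintro _ ⟨y, hy, hyb, rfl⟩
  obtain ⟨hyL, hyoo, hyzr, -⟩ := hy
  obtain ⟨hL, hInt, hred⟩ := κ.Bound_z_mem hyL
  have hq := T.q_ne'
  have hb := T.b_ne
  set z := y ^ n * κ.f with hz
  set u := T.red Cp.mid (y / T.b ^ i) with hu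
  set z' := z ^ T.e / (T.q : F0) ^ (n * i) with hz'
  have hzpow : ∀ r : ℕ, z ^ r ∈ S.L (r * (n * a)) (r * (n * c)) := by
    intro r
    induction r with
    | zero => simpa using S.one_mem
    | succ r ih =>
      rw [pow_succ, Nat.succ_mul, Nat.succ_mul]
      exact S.L_mul ih hL
  have hL' : z' ∈ S.L (T.e * (n * a)) (T.e * (n * c)) := by
    have h1 : z' = ((T.q : K0) ^ (n * i))⁻¹ • z ^ T.e := by
      rw [hz', Algebra.smul_def, map_inv₀, map_pow, map_natCast, div_eq_inv_mul]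
    rw [h1]
    exact Submodule.smul_mem _ _ (hzpow T.e)
  have hdiv : ∀ j : Cp, y / (T.q : F0) ∈ (T.R j).O →
      z' / (T.q : F0) ^ (n * (T.e - i)) ∈ (T.R j).O := by
    intro j hj
    have h1 : z' / (T.q : F0) ^ (n * (T.e - i)) = (z / (T.q : F0) ^ n) ^ T.e := by
      rw [hz', div_div, ← pow_add, ← Nat.mul_add, Nat.add_sub_cancel' hi, div_pow, ← pow_mul]
    rw [h1]
    exact (T.R j).O.pow_mem (κ.Bound_z_div hj) _
  have hint_of : ∀ j : Cp, z' / (T.q : F0) ^ (n * (T.e - i)) ∈ (T.R j).O → z' ∈ (T.R j).O := by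
    intro j hj
    have h1 := (T.R j).O.mul_mem _ _ hj ((T.R j).O.pow_mem (T.q_mem j) (n * (T.e - i)))
    rwa [div_mul_cancel₀ _ (pow_ne_zero _ hq)] at h1
  have hG : T.b ^ T.e / (T.q : F0) ∈ (T.R Cp.mid).O := (T.R Cp.mid).mem_of_red_ne_zero T.b_pow
  have hmid : z' = (y / T.b ^ i) ^ (n * T.e) * κ.f ^ T.e * (T.b ^ T.e / (T.q : F0)) ^ (n * i) := by
    rw [hz', hz, div_pow, div_pow, mul_pow, ← pow_mul, ← pow_mul, ← pow_mul]
    have h1 : T.b ^ (i * (n * T.e)) = T.b ^ (T.e * (n * i)) := by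
      congr 1
      ring
    rw [h1]
    have h2 : T.b ^ (T.e * (n * i)) ≠ 0 := pow_ne_zero _ hb
    have h3 : (T.q : F0) ^ (n * i) ≠ 0 := pow_ne_zero _ hq
    field_simp
  have hm1 : (y / T.b ^ i) ^ (n * T.e) ∈ (T.R Cp.mid).O := (T.R Cp.mid).O.pow_mem hyb _
  have hm2 : κ.f ^ T.e ∈ (T.R Cp.mid).O := (T.R Cp.mid).O.pow_mem (κ.int_f _) _
  have hm3 : (T.b ^ T.e / (T.q : F0)) ^ (n * i) ∈ (T.R Cp.mid).O := (T.R Cp.mid).O.pow_mem hG _
  have hmid_mem : z' ∈ (T.R Cp.mid).O := by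
    rw [hmid]
    exact (T.R Cp.mid).O.mul_mem _ _ ((T.R Cp.mid).O.mul_mem _ _ hm1 hm2) hm3
  have hmid_red : T.red Cp.mid z' = u ^ (n * T.e) * T.G ^ (n * i) := by
    have e1 := T.red_pow hyb (n * T.e)
    have e2 := T.red_pow (κ.int_f Cp.mid) T.e
    have e3 := T.red_pow hG (n * i)
    have e4 := κ.red_f Cp.mid
    rw [hmid, hu, Tri.G]
    rw [Tri.red] at e1 e2 e3 ⊢
    rw [(T.R Cp.mid).red_mul ((T.R Cp.mid).O.mul_mem _ _ hm1 hm2) hm3,
      (T.R Cp.mid).red_mul hm1 hm2, e1, e2, e3, e4, one_pow, mul_one]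
  have hInt' : T.Int z' := by
    intro j
    cases j
    · exact hint_of _ (hdiv _ hyoo)
    · exact hmid_mem
    · exact hint_of _ (hdiv _ hyzr)
  have h1 := S.van_mid _ _ (n * (T.e - i)) (n * (T.e - i)) z' hL' hInt' (hdiv _ hyoo)
    (hdiv _ hyzr)
  rw [hmid_red] at h1
  rw [mem_riemannRochSpace_iff] at h1 ⊢
  intro P
  by_cases hu0 : u = 0
  · exact Or.inl hu0
  right
  have hG0 : T.G ≠ 0 := T.b_pow
  rcases h1 P with h2 | h2
  · exact absurd h2 (pow_ne_zero _ (mul_ne_zero (pow_ne_zero _ hu0) (pow_ne_zero _ hG0)))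
  rw [ord_pow, P.ord_mul (pow_ne_zero _ hu0) (pow_ne_zero _ hG0), ord_pow, ord_pow] at h2
  simp only [Finsupp.coe_sub, Finsupp.coe_add, Finsupp.coe_smul, Pi.sub_apply, Pi.add_apply,
    Pi.smul_apply, smul_eq_mul] at h2 ⊢
  have h3 : S.Bd i P ≤ P.ord u + S.E Cp.mid a c P := by
    rw [S.le_Bd_iff, S.E_apply]
    have hn : (0 : ℤ) < n := by exact_mod_cast κ.n_pos
    push_cast [Nat.cast_sub hi] at h2
    have h4 : (n : ℤ) * (2 * ((T.e : ℤ) - i) * S.m P - (i : ℤ) * S.M * P.ord T.G)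
        ≤ (n : ℤ) * ((T.e : ℤ) * S.M * (P.ord u + ((a : ℤ) * S.X Cp.mid P + (c : ℤ) * S.Y Cp.mid P))) := by
      linarith
    exact le_of_mul_le_mul_left h4 hn
  linarith

end Kum

end Fermat.Agent.S36.RC
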