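import Fermat.Agent.S36.RC.Pieces
import Fermat.Agent.GAL.RED.Basic

/-!
# S36/RC: the chain is exhaustive; Nakayama; `rank Λ ≤ Σ dim (pieces)`
-/

set_option autoImplicit false

noncomputable section

namespace Fermat.Agent.S36.RC

open AlgebraicCurve Fermat.Agent.Lib.RR Fermat.Agent.GAL.RED

variable {K0 F0 k Fb : Type*} [Field K0] [Field F0] [Algebra K0 F0]
  [Field k] [Field Fb] [Algebra k Fb]

namespace Tri

variable (T : Tri K0 F0 k Fb)

/-- LEAF RC-A1. `q ∈ A` (else `redA q = 0` and `ker_A` are vacuous: use `q = 1 + ... + 1`). -/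
theorem q_mem_A : (T.q : K0) ∈ T.A := by
  exact natCast_mem _ _

/-- LEAF RC-A1. -/
theorem q_mem (i : Cp) : (T.q : F0) ∈ (T.R i).O := by
  exact natCast_mem _ _

/-- LEAF RC-A1. -/
theorem red_q (i : Cp) : T.red i (T.q : F0) = 0 := by
  have h := T.red_algebraMap i ⟨(T.q : K0), T.q_mem_A⟩
  rw [T.redA_q, map_zero] at h
  rwa [map_natCast] at h

/-- LEAF RC-A1. -/
theorem q_ne' : (T.q : F0) ≠ 0 := by
  intro h
  apply T.q_ne
  apply (algebraMap K0 F0).injective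
  rw [map_natCast, h, map_zero]

/-- LEAF RC-A1. `red z ≠ 0` means that `z` is a unit of the valuation ring. -/
theorem inv_mem_of_red_ne_zero {i : Cp} {z : F0} (h : T.red i z ≠ 0) : z⁻¹ ∈ (T.R i).O := by
  exact (T.R i).inv_mem_of_red_ne_zero h

/-- LEAF RC-A1. -/
theorem red_inv {i : Cp} {z : F0} (h : T.red i z ≠ 0) : T.red i z⁻¹ = (T.red i z)⁻¹ := by
  exact (T.R i).red_inv z

/-- LEAF RC-A1. -/
theorem red_pow {i : Cp} {z : F0} (h : z ∈ (T.R i).O) (r : ℕ) :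
    T.red i (z ^ r) = T.red i z ^ r := by
  exact (T.R i).red_pow z r

/-- LEAF RC-A1. -/
theorem b_ne : T.b ≠ 0 := by
  intro h
  apply T.b_oo
  rw [h]
  exact (T.R Cp.oo).red_zero

/-- LEAF RC-A1. `q` lies in the Jacobson radical of `A`. -/
theorem span_q_le_jacobson :
    Ideal.span {(⟨(T.q : K0), T.q_mem_A⟩ : T.A)} ≤ (⊥ : Ideal T.A).jacobson := by
  rw [IsLocalRing.jacobson_eq_maximalIdeal _ bot_ne_top, Ideal.span_le, Set.singleton_subset_iff,
    SetLike.mem_coe, IsLocalRing.mem_maximalIdeal, mem_nonunits_iff]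
  intro hu
  have h1 := hu.map (T.R Cp.oo).resA
  have h2 : (T.R Cp.oo).resA ⟨(T.q : K0), T.q_mem_A⟩ = 0 := by
    rw [← (T.R Cp.oo).redA_of_mem T.q_mem_A]
    exact T.redA_q
  rw [h2] at h1
  exact not_isUnit_zero h1

namespace Int

variable {T}

theorem add {y z : F0} (hy : T.Int y) (hz : T.Int z) : T.Int (y + z) :=
  fun i => (T.R i).O.add_mem _ _ (hy i) (hz i)

theorem mul {y z : F0} (hy : T.Int y) (hz : T.Int z) : T.Int (y * z) :=
  fun i => (T.R i).O.mul_mem _ _ (hy i) (hz i)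

theorem neg {y : F0} (hy : T.Int y) : T.Int (-y) :=
  fun i => (T.R i).O.neg_mem _ (hy i)

theorem sub {y z : F0} (hy : T.Int y) (hz : T.Int z) : T.Int (y - z) :=
  fun i => (T.R i).O.sub_mem (hy i) (hz i)

theorem pow {y : F0} (hy : T.Int y) (r : ℕ) : T.Int (y ^ r) :=
  fun i => (T.R i).O.pow_mem (hy i) r

theorem one : T.Int (1 : F0) := fun i => (T.R i).O.one_mem

end Int

end Tri

namespace Kum

variable {T : Tri K0 F0 k Fb} {S : Poles T} {n : ℕ} (κ : Kum S n)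

/-- `f` is integral. -/
theorem int_f : T.Int κ.f := fun i =>
  (T.R i).mem_of_red_ne_zero (by rw [show (T.R i).red κ.f = 1 from κ.red_f i]; exact one_ne_zero)

/-- LEAF RC-A2. -/
theorem mem_Lam1_of_red_eq_zero {a c : ℕ} {y : F0} (hy : y ∈ κ.Lam a c)
    (h : T.red Cp.oo (y / 1) = 0) : y ∈ κ.Lam1 a c := by
  rw [div_one] at h
  exact ⟨hy, T.ker_oo y (hy.2 Cp.oo) h⟩

/-- LEAF RC-A2. -/
theorem mem_Lam2_zero_of_red_eq_zero {a c : ℕ} {y : F0} (hy : y ∈ κ.Lam1 a c)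
    (h : T.red Cp.zr (y / 1) = 0) : y ∈ κ.Lam2 a c 0 := by
  rw [div_one] at h
  refine ⟨hy.1, hy.2, T.ker_zr y (hy.1.2 Cp.zr) h, ?_⟩
  rw [pow_zero, div_one]
  exact hy.1.2 Cp.mid

/-- LEAF RC-A2. -/
theorem mem_Lam2_succ_of_red_eq_zero {a c i : ℕ} {y : F0} (hy : y ∈ κ.Lam2 a c i)
    (h : T.red Cp.mid (y / T.b ^ i) = 0) : y ∈ κ.Lam2 a c (i + 1) := by
  refine ⟨hy.1, hy.2.1, hy.2.2.1, ?_⟩
  have h1 := T.ker_mid _ hy.2.2.2 h
  rwa [div_div, ← pow_succ] at h1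

/-- LEAF RC-A2. `Λ²ₑ = q Λ`: `y / q = (y / b ^ e) * (b ^ e / q)`. -/
theorem exists_of_mem_Lam2_e {a c : ℕ} {y : F0} (hy : y ∈ κ.Lam2 a c T.e) :
    ∃ y' ∈ κ.Lam a c, y = (T.q : F0) * y' := by
  have hq : (T.q : F0) ≠ 0 := T.q_ne'
  have hb : T.b ^ T.e ≠ 0 := pow_ne_zero _ T.b_ne
  refine ⟨y / (T.q : F0), ⟨?_, fun i => ?_⟩, by field_simp⟩
  · have e : y / (T.q : F0) = ((T.q : K0))⁻¹ • y := by
      rw [Algebra.smul_def, map_inv₀, map_natCast, div_eq_inv_mul]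
    rw [e]
    exact Submodule.smul_mem _ _ hy.1.1
  · cases i with
    | oo => exact hy.2.1
    | zr => exact hy.2.2.1
    | mid =>
      have e : y / (T.q : F0) = (y / T.b ^ T.e) * (T.b ^ T.e / (T.q : F0)) := by
        field_simp
      rw [e]
      exact (T.R Cp.mid).O.mul_mem _ _ hy.2.2.2 ((T.R Cp.mid).mem_of_red_ne_zero T.b_pow)

/-- LEAF RC-A3. `Λ` is a submodule of a finitely generated module over the noetherian ring `A`. -/
theorem Lam_fg (a c : ℕ) : (κ.Lam a c).FG := by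
  obtain ⟨B, hB⟩ := κ.bdd a c
  have := T.noeth
  have hle : κ.Lam a c ≤ Submodule.span T.A (B : Set F0) := fun y hy => hB y hy.1 hy.2
  have hN : IsNoetherian T.A (Submodule.span T.A (B : Set F0)) :=
    isNoetherian_span_of_finite T.A B.finite_toSet
  exact (isNoetherian_submodule.1 hN) _ hle

/-- LEAF RC-A3. -/
theorem exists_pow_mul_mem_Lam {a c : ℕ} {y : F0} (hy : y ∈ κ.Mf a c) :
    ∃ N : ℕ, (T.q : F0) ^ N * y ∈ κ.Lam a c := by
  obtain ⟨N1, h1⟩ := T.scale Cp.oo y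
  obtain ⟨N2, h2⟩ := T.scale Cp.mid y
  obtain ⟨N3, h3⟩ := T.scale Cp.zr y
  refine ⟨N1 + N2 + N3, ?_, fun i => ?_⟩
  · have e : (T.q : F0) ^ (N1 + N2 + N3) * y = ((T.q : K0) ^ (N1 + N2 + N3)) • y := by
      rw [Algebra.smul_def, map_pow, map_natCast]
    rw [e]
    exact Submodule.smul_mem _ _ hy
  · cases i with
    | oo =>
      have e : (T.q : F0) ^ (N1 + N2 + N3) * y = (T.q : F0) ^ (N2 + N3) * ((T.q : F0) ^ N1 * y) := by
        rw [← mul_assoc, ← pow_add]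
        congr 2
        omega
      rw [e]
      exact (T.R Cp.oo).O.mul_mem _ _ ((T.R Cp.oo).O.pow_mem (T.q_mem Cp.oo) _) h1
    | mid =>
      have e : (T.q : F0) ^ (N1 + N2 + N3) * y = (T.q : F0) ^ (N1 + N3) * ((T.q : F0) ^ N2 * y) := by
        rw [← mul_assoc, ← pow_add]
        congr 2
        omega
      rw [e]
      exact (T.R Cp.mid).O.mul_mem _ _ ((T.R Cp.mid).O.pow_mem (T.q_mem Cp.mid) _) h2
    | zr =>
      have e : (T.q : F0) ^ (N1 + N2 + N3) * y = (T.q : F0) ^ (N1 + N2) * ((T.q : F0) ^ N3 * y) := by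
        rw [← mul_assoc, ← pow_add]
      rw [e]
      exact (T.R Cp.zr).O.mul_mem _ _ ((T.R Cp.zr).O.pow_mem (T.q_mem Cp.zr) _) h3

/-- one step of the chain. -/
theorem Chain_step (i : Cp) (t : F0) (N M : Submodule T.A F0)
    (hM : ∀ y ∈ M, y / t ∈ (T.R i).O) (h : T.img i t M ≤ T.img i t (N ⊓ M)) {y : F0}
    (hy : y ∈ M) : ∃ ν ∈ N, y - ν ∈ M ∧ T.red i ((y - ν) / t) = 0 := by
  have h0 : T.red i (y / t) ∈ T.img i t M := ⟨y, hy, hM y hy, rfl⟩
  obtain ⟨ν, ⟨hνN, hνM⟩, hνO, hνred⟩ := h h0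
  refine ⟨ν, hνN, M.sub_mem hy hνM, ?_⟩
  have h1 : (y - ν) / t + ν / t = y / t := by rw [← add_div, sub_add_cancel]
  have h2 : (y - ν) / t ∈ (T.R i).O := hM _ (M.sub_mem hy hνM)
  have h3 := (T.R i).red_add h2 hνO
  rw [h1] at h3
  have h4 : T.red i (y / t) = T.red i ((y - ν) / t) + T.red i (ν / t) := h3
  rw [hνred] at h4
  exact (right_eq_add.mp h4)

/-- LEAF RC-A4 (Nakayama). If `N ≤ Λ` is an `A`-submodule which surjects onto all the pieces (in the
sense: `N ⊓ Λ`, `N ⊓ Λ¹`, `N ⊓ Λ²ᵢ` have the same images as `Λ`, `Λ¹`, `Λ²ᵢ`), then `N = Λ`.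
Proof: for `y ∈ Λ` subtract successively elements of `N` to land in `Λ¹`, `Λ²₀`, ..., `Λ²ₑ = q Λ`;
so `Λ ≤ N ⊔ q Λ`; `Submodule.le_of_le_smul_of_le_jacobson_bot`. -/
theorem Lam_le_of_img_le (a c : ℕ) (N : Submodule T.A F0)
    (h1 : κ.imOO a c ≤ T.img Cp.oo 1 (N ⊓ κ.Lam a c))
    (h2 : κ.imZR a c ≤ T.img Cp.zr 1 (N ⊓ κ.Lam1 a c))
    (h3 : ∀ i < T.e, κ.imMID a c i ≤ T.img Cp.mid (T.b ^ i) (N ⊓ κ.Lam2 a c i)) :
    κ.Lam a c ≤ N := by
  refine Submodule.le_of_le_smul_of_le_jacobson_bot (κ.Lam_fg a c) T.span_q_le_jacobson ?_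
  intro y hy
  -- first step
  obtain ⟨ν₁, hν₁, hy₁, hr₁⟩ := Chain_step Cp.oo 1 N (κ.Lam a c)
    (fun z hz => by rw [div_one]; exact hz.2 Cp.oo) h1 hy
  have hy₁' := κ.mem_Lam1_of_red_eq_zero hy₁ hr₁
  -- second step
  obtain ⟨ν₂, hν₂, hy₂, hr₂⟩ := Chain_step Cp.zr 1 N (κ.Lam1 a c)
    (fun z hz => by rw [div_one]; exact hz.1.2 Cp.zr) h2 hy₁'
  have hy₂' := κ.mem_Lam2_zero_of_red_eq_zero hy₂ hr₂
  -- the middle component
  have key : ∀ i, i ≤ T.e → ∃ ν ∈ N, y - ν ∈ κ.Lam2 a c i := by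
    intro i
    induction i with
    | zero =>
      intro _
      exact ⟨ν₁ + ν₂, N.add_mem hν₁ hν₂, by rw [← sub_sub]; exact hy₂'⟩
    | succ i ih =>
      intro hi
      obtain ⟨ν, hν, hyν⟩ := ih (by omega)
      obtain ⟨ν', hν', hy', hr'⟩ := Chain_step Cp.mid (T.b ^ i) N (κ.Lam2 a c i)
        (fun z hz => hz.2.2.2) (h3 i (by omega)) hyν
      exact ⟨ν + ν', N.add_mem hν hν', by
        rw [← sub_sub]; exact κ.mem_Lam2_succ_of_red_eq_zero hy' hr'⟩
  obtain ⟨ν, hν, hyν⟩ := key T.e le_rfl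
  obtain ⟨y', hy', he⟩ := κ.exists_of_mem_Lam2_e hyν
  have h4 : y = ν + (⟨(T.q : K0), T.q_mem_A⟩ : T.A) • y' := by
    rw [T.smul_eq, map_natCast, ← he, add_sub_cancel]
  rw [h4]
  exact Submodule.add_mem_sup hν
    (Submodule.smul_mem_smul (Ideal.subset_span (Set.mem_singleton _)) hy')

omit κ in
/-- lifting a basis of a piece. -/
theorem Chain_exists_lift (T : Tri K0 F0 k Fb) (i : Cp) (t : F0) (M : Submodule T.A F0)
    (h : Module.Finite k (T.img i t M)) :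
    ∃ B : Finset F0, B.card ≤ Module.finrank k (T.img i t M) ∧
      ∀ N : Submodule T.A F0, (B : Set F0) ⊆ N → T.img i t M ≤ T.img i t (N ⊓ M) := by
  classical
  have hv : ∀ j, ∃ y ∈ M, y / t ∈ (T.R i).O ∧
      T.red i (y / t) = (Module.finBasis k (T.img i t M) j : Fb) :=
    fun j => (Module.finBasis k (T.img i t M) j).2
  choose y hyM hyO hyr using hv
  refine ⟨Finset.univ.image y, ?_, fun N hN u hu => ?_⟩
  · refine Finset.card_image_le.trans ?_
    rw [Finset.card_univ, Fintype.card_fin]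
  · have hmem : ∀ j, (Module.finBasis k (T.img i t M) j : Fb) ∈ T.img i t (N ⊓ M) := fun j =>
      ⟨y j, ⟨hN (by simp), hyM j⟩, hyO j, hyr j⟩
    have hsum := congrArg Subtype.val ((Module.finBasis k (T.img i t M)).sum_repr ⟨u, hu⟩)
    have hsum' : u = ∑ j, (Module.finBasis k (T.img i t M)).repr ⟨u, hu⟩ j •
        (Module.finBasis k (T.img i t M) j : Fb) := by
      rw [Submodule.coe_sum] at hsum
      exact hsum.symm
    rw [hsum']
    exact Submodule.sum_mem _ fun j _ => Submodule.smul_mem _ _ (hmem j)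

omit κ in
/-- the `A`-span is contained in the `K0`-span. -/
theorem Chain_span_le (T : Tri K0 F0 k Fb) (B : Set F0) {x : F0}
    (hx : x ∈ Submodule.span T.A B) : x ∈ Submodule.span K0 B := by
  induction hx using Submodule.span_induction with
  | mem x hx => exact Submodule.subset_span hx
  | zero => exact Submodule.zero_mem _
  | add x y _ _ hx hy => exact Submodule.add_mem _ hx hy
  | smul a x _ hx =>
    have h : a • x = (a : K0) • x := rfl
    rw [h]
    exact Submodule.smul_mem _ _ hx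

/-- LEAF RC-A5. `rank Λ ≤ Σ dim (pieces)`: lift bases of the pieces, apply `Lam_le_of_img_le` to
their `A`-span `N`; then they span `Mf a c` over `K0` (`exists_pow_mul_mem_Lam`), and
`finrank_span_le_card`. -/
theorem finrank_Mf_le (a c : ℕ) (h1 : Module.Finite k (κ.imOO a c))
    (h2 : Module.Finite k (κ.imZR a c)) (h3 : ∀ i < T.e, Module.Finite k (κ.imMID a c i)) :
    Module.finrank K0 (κ.Mf a c) ≤ Module.finrank k (κ.imOO a c) + Module.finrank k (κ.imZR a c) +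
      ∑ i ∈ Finset.range T.e, Module.finrank k (κ.imMID a c i) := by
  classical
  obtain ⟨B1, hB1c, hB1⟩ := Chain_exists_lift T Cp.oo 1 (κ.Lam a c) h1
  obtain ⟨B2, hB2c, hB2⟩ := Chain_exists_lift T Cp.zr 1 (κ.Lam1 a c) h2
  have h3' : ∀ i, ∃ B : Finset F0, B.card ≤ Module.finrank k (κ.imMID a c i) ∧
      (i < T.e → ∀ N : Submodule T.A F0, (B : Set F0) ⊆ N →
        κ.imMID a c i ≤ T.img Cp.mid (T.b ^ i) (N ⊓ κ.Lam2 a c i)) := by
    intro i
    by_cases hi : i < T.e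
    · obtain ⟨B, hc, hB⟩ := Chain_exists_lift T Cp.mid (T.b ^ i) (κ.Lam2 a c i) (h3 i hi)
      exact ⟨B, hc, fun _ => hB⟩
    · exact ⟨∅, by simp, fun h => absurd h hi⟩
  choose B3 hB3c hB3 using h3'
  have hB1c' : B1.card ≤ Module.finrank k (κ.imOO a c) := hB1c
  have hB2c' : B2.card ≤ Module.finrank k (κ.imZR a c) := hB2c
  have hLam : κ.Lam a c ≤
      Submodule.span T.A ((B1 ∪ B2 ∪ (Finset.range T.e).biUnion B3 : Finset F0) : Set F0) := by
    apply κ.Lam_le_of_img_le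
    · refine hB1 _ fun x hx => Submodule.subset_span ?_
      exact Finset.mem_coe.mpr (Finset.mem_union_left _ (Finset.mem_union_left _ hx))
    · refine hB2 _ fun x hx => Submodule.subset_span ?_
      exact Finset.mem_coe.mpr (Finset.mem_union_left _ (Finset.mem_union_right _ hx))
    · intro i hi
      refine hB3 i hi _ fun x hx => Submodule.subset_span ?_
      exact Finset.mem_coe.mpr (Finset.mem_union_right _
        (Finset.mem_biUnion.mpr ⟨i, Finset.mem_range.mpr hi, hx⟩))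
  have hMf : κ.Mf a c ≤
      Submodule.span K0 ((B1 ∪ B2 ∪ (Finset.range T.e).biUnion B3 : Finset F0) : Set F0) := by
    intro y hy
    obtain ⟨N, hN⟩ := κ.exists_pow_mul_mem_Lam hy
    have h4 := Chain_span_le T _ (hLam hN)
    have h5 : (T.q : F0) ^ N * y = ((T.q : K0) ^ N) • y := by
      rw [Algebra.smul_def, map_pow, map_natCast]
    rw [h5] at h4
    exact (Submodule.smul_mem_iff _ (pow_ne_zero N T.q_ne)).mp h4
  calc Module.finrank K0 (κ.Mf a c)
      ≤ Module.finrank K0 (Submodule.span K0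
          ((B1 ∪ B2 ∪ (Finset.range T.e).biUnion B3 : Finset F0) : Set F0)) :=
        Submodule.finrank_mono hMf
    _ ≤ (B1 ∪ B2 ∪ (Finset.range T.e).biUnion B3).card := finrank_span_finset_le_card _
    _ ≤ (B1 ∪ B2).card + ((Finset.range T.e).biUnion B3).card := Finset.card_union_le _ _
    _ ≤ (B1.card + B2.card) + ∑ i ∈ Finset.range T.e, (B3 i).card :=
        Nat.add_le_add (Finset.card_union_le _ _) Finset.card_biUnion_le
    _ ≤ Module.finrank k (κ.imOO a c) + Module.finrank k (κ.imZR a c) +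
        ∑ i ∈ Finset.range T.e, Module.finrank k (κ.imMID a c i) :=
        Nat.add_le_add (Nat.add_le_add hB1c' hB2c') (Finset.sum_le_sum fun i _ => hB3c i)

end Kum

end Fermat.Agent.S36.RC
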