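import Fermat.Agent.GAL.Igusa.Final
import Fermat.Agent.GAL.Igusa.CuspProd
import Fermat.Agent.Lib.Gamma0Cosets
import Fermat.Agent.DR.Conc.Level
import Fermat.Agent.DR.Conc.Basis

/-!
# S36, route RC: numerics

`N = M q q`, `q ∤ M`, `M` neat: `g(N) - 1 = (q + 1) (g(M) - 1 + s)`, `12 s = (q - 1) ψ(M)`.
-/

set_option autoImplicit false

namespace Fermat.Agent.S36.RC

open ModularCurve AlgebraicCurve Fermat.Agent.GAL Fermat.Agent.GAL.Igusa Fermat.Agent.Lib.RR Fermat.Agent.S24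

theorem dedekindPsi_sq {M q : ℕ} (hq : q.Prime) (hqM : ¬ q ∣ M) :
    dedekindPsi (M * q * q) = q * (q + 1) * dedekindPsi M := by
  have hc : M.Coprime (q ^ 2) := Nat.Coprime.pow_right 2 ((Nat.Prime.coprime_iff_not_dvd hq).2 hqM).symm
  rw [mul_assoc, ← pow_two, Fermat.Agent.Lib.Gamma0Cosets.dedekindPsi_mul hc,
    Fermat.Agent.Lib.Gamma0Cosets.dedekindPsi_prime_pow hq 1]
  ring

theorem cuspCount_sq {M q : ℕ} (hq : q.Prime) (hqM : ¬ q ∣ M) :
    cuspCount (M * q * q) = (q + 1) * cuspCount M := by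
  have hc : M.Coprime (q ^ 2) := Nat.Coprime.pow_right 2 ((Nat.Prime.coprime_iff_not_dvd hq).2 hqM).symm
  rw [mul_assoc, ← pow_two, cuspCount_mul hc, cuspCount_prime_pow hq 2 (by norm_num)]
  norm_num
  ring

/-- `g(M q q) - 1 = (q + 1) (g(M) - 1 + (q - 1) ψ(M) / 12)`. -/
theorem genusFormula_sq {M q : ℕ} (hq : q.Prime) (hqM : ¬ q ∣ M) (hneat : 4 ∣ M ∨ 9 ∣ M) :
    genusFormula (M * q * q) - 1
      = ((q : ℚ) + 1) * (genusFormula M - 1 + ((q : ℚ) - 1) * dedekindPsi M / 12) := by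
  have hneat' : 4 ∣ M * q * q ∨ 9 ∣ M * q * q := by
    rcases hneat with h | h
    · exact Or.inl (Dvd.dvd.mul_right (Dvd.dvd.mul_right h q) q)
    · exact Or.inr (Dvd.dvd.mul_right (Dvd.dvd.mul_right h q) q)
  rw [genusFormula_of_neat hneat, genusFormula_of_neat hneat', dedekindPsi_sq hq hqM,
    cuspCount_sq hq hqM]
  push_cast
  ring

/-- The same for the genera of the function fields: `F = FN (M q q)` over `Kbar`, `Fb = E k M` over the
residue field `k` of a place over `q`. -/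
theorem genusFF_sq (A : ValuationSubring Kbar) (M q : ℕ) [NeZero M] [NeZero q] (hq : q.Prime)
    (hqM : ¬ q ∣ M) (hA : A.LiesOverPrime q) (hneat : 4 ∣ M ∨ 9 ∣ M) :
    (genusFF Kbar (FN (M * q * q)) : ℚ) - 1
      = ((q : ℚ) + 1) * ((genusFF (IsLocalRing.ResidueField ↥A) (E (IsLocalRing.ResidueField ↥A) M) : ℚ)
          - 1 + ((q : ℚ) - 1) * dedekindPsi M / 12) := by
  have hM := DR.Conc.natCast_M_ne_zero A M q hq hqM hA
  rw [DR.Conc.genusFF_FN_eq, genusFF_char_zero, genusFF_eq cuspUpper cuspLower A M hM hneat,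
    genusFF_char_zero, genusFormula_sq hq hqM hneat]

end Fermat.Agent.S36.RC
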