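import Fermat.Agent.S36.RC.Main
import Fermat.Agent.S36R.End.Roots

/-!
# S36/RC: route RC on top of the contracts of route R

`D : S36R.Lvl K F FA` with `D.Good O q` and `S36R.ResF D` (contracts VAL + NORM-C of route R, file
`S36R/Contracts.lean`), `T : Tri K F k Fb` whose three valuation rings are `D.W 0, D.W 1, D.W 2` (`Link`).

* `normalise` : step (2) of report 269 (from `S36R.New.exists_unit`, `S36R.New.exists_roots` and weak
  approximation `S36R.Inj.exists_residue_approx`);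
* `norms_of_new` : the structure `Norms κ` from `S36R.New D q n κ.f`;
* `abstract_RC` : the final abstract statement.
-/

set_option autoImplicit false

noncomputable section

namespace Fermat.Agent.S36.RC

open AlgebraicCurve Fermat.Agent.Lib.RR Fermat.Agent.GAL.RED Fermat.Agent.Lib.PlaceEval
  Fermat.Agent.S36R

variable {O K F FA k Fb : Type*} [CommRing O] [Field K] [Field F] [Field FA] [Algebra K F]
  [Algebra K FA] [Algebra O F] [Field k] [Field Fb] [Algebra k Fb]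

/-- `T` is a system of residue maps for the three vertical valuation rings of `D`. -/
structure Link (D : Lvl K F FA) (T : Tri K F k Fb) : Prop where
  O_oo : (T.R Cp.oo).O = D.W 0
  O_mid : (T.R Cp.mid).O = D.W 1
  O_zr : (T.R Cp.zr).O = D.W 2
  /-- the residue maps of `W 0` and `W 1` agree on `α (V 0)`. -/
  al_compat : ∀ w : FA, w ∈ D.V 0 → T.red Cp.oo (D.al w) = T.red Cp.mid (D.al w)
  /-- the residue maps of `W 2` and `W 1` agree on `β (V 1)`. -/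
  be_compat : ∀ w : FA, w ∈ D.V 1 → T.red Cp.zr (D.be w) = T.red Cp.mid (D.be w)

/-- the index of route R. -/
def Cp.idx : Cp → Fin 3
  | Cp.oo => 0
  | Cp.mid => 1
  | Cp.zr => 2

namespace Link

variable {D : Lvl K F FA} {T : Tri K F k Fb} (Lk : Link D T)

include Lk in
theorem O_eq (i : Cp) : (T.R i).O = D.W i.idx := by
  cases i
  · exact Lk.O_oo
  · exact Lk.O_mid
  · exact Lk.O_zr

include Lk in
/-- LEAF RC-F1. `red z ≠ 0 ↔ z` is a unit of the valuation ring (`Tri.inv_mem_of_red_ne_zero`,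
`mem_of_red_ne_zero`; conversely `red z * red z⁻¹ = red 1 = 1`); `ValuationSubring.valuation_eq_one_iff`-type
lemmas / `S36R.isU_of_mem_of_not_lt`. -/
theorem isU_iff (i : Cp) (z : F) : IsU (D.W i.idx) z ↔ T.red i z ≠ 0 := by
  constructor
  · intro h h0
    have hz : z ∈ (T.R i).O := by rw [Lk.O_eq i]; exact h.mem
    have hz' : z⁻¹ ∈ (T.R i).O := by rw [Lk.O_eq i]; exact h.inv.mem
    have h1 : (T.R i).red (z * z⁻¹) = (T.R i).red z * (T.R i).red z⁻¹ := (T.R i).red_mul hz hz'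
    rw [mul_inv_cancel₀ h.ne_zero, (T.R i).red_one, show (T.R i).red z = 0 from h0, zero_mul] at h1
    exact one_ne_zero h1
  · intro h
    have hz : z ∈ D.W i.idx := by rw [← Lk.O_eq i]; exact (T.R i).mem_of_red_ne_zero h
    have hz' : z⁻¹ ∈ D.W i.idx := by rw [← Lk.O_eq i]; exact (T.R i).inv_mem_of_red_ne_zero h
    refine isU_of_mem_of_not_lt hz (fun hlt => ?_)
    have h1 := (ValuationSubring.valuation_le_one_iff _ _).2 hz'
    have hz0 : z ≠ 0 := by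
      rintro rfl
      exact h (T.R i).red_zero
    rw [map_inv₀, inv_le_one₀ ((Valuation.pos_iff _).2 hz0)] at h1
    exact absurd hlt (not_lt.2 h1)

include Lk in
/-- LEAF RC-F1. For `x, y` in the valuation ring: `x ≡ y ↔ red x = red y` (`red (x - y) = 0` iff `x - y` is not a
unit, `isU_iff`). -/
theorem cg_iff (i : Cp) {x y : F} (hx : x ∈ D.W i.idx) (hy : y ∈ D.W i.idx) :
    Cg (D.W i.idx) x y ↔ T.red i x = T.red i y := by
  have hxO : x ∈ (T.R i).O := by rw [Lk.O_eq i]; exact hx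
  have hyO : y ∈ (T.R i).O := by rw [Lk.O_eq i]; exact hy
  have hsub : T.red i (x - y) = T.red i x - T.red i y := (T.R i).red_sub hxO hyO
  have hmem : x - y ∈ D.W i.idx := (D.W i.idx).sub_mem hx hy
  have hU := Lk.isU_iff i (x - y)
  rw [← sub_eq_zero, ← hsub]
  constructor
  · intro h
    by_contra h0
    have h1 : (D.W i.idx).valuation (x - y) = 1 := hU.2 h0
    rw [Cg, h1] at h
    exact lt_irrefl _ h
  · intro h
    by_contra h0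
    exact hU.1 (isU_of_mem_of_not_lt hmem h0) h

include Lk in
theorem int_iff (z : F) : T.Int z ↔ ∀ i : Cp, z ∈ D.W i.idx := by
  constructor
  · intro h i; rw [← Lk.O_eq i]; exact h i
  · intro h i; rw [Lk.O_eq i]; exact h i

end Link

variable {D : Lvl K F FA} {T : Tri K F k Fb} {n : ℕ}

/-- LEAF RC-F2 (**normalisation**, step (2)).  `q = T.q`.
1. `New.exists_unit hG` : `f₁ = f ^ ((q+1)(q-1)) q ^ x φ ^ n` is a unit of the three `W i`; it is `New`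
   (`New.pow`, `New.mul hG`, `new_q_zpow hG`, `new_pow`).
2. `New.exists_roots hG hR hqn hn` for `f₁` : `Roots D q n f₁ yA yB w w'`.  Put `f₂ = f₁ ^ (q-1)`,
   `h 0 = α w ^ (q-1)`, `h 1 = α (yA / w)`, `h 2 = β w' ^ (q-1)`; then `h i ^ n ≡ f₂` along `W i`
   (`r0`, `r1`, `r2`, `Cg.pow`), so `h i` is a unit of `W i` (`Cg.isU_left`, `IsU.of_pow`).
3. `Inj.exists_residue_approx D.W hG.incomp h` : `G ≡ h i` along `W i` for all `i`; `G` is a unit of all `W i`, `G ≠ 0`.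
4. `f₃ = f₂ * (G⁻¹) ^ n ≡ 1` along all `W i` (`Cg.pow`, `Cg.div`/`cg_div_iff`); `Link.cg_iff`, `red 1 = 1`.
Collect: `f₃ = f ^ ((q+1)(q-1)(q-1)) * q ^ (x (q-1)) * (φ ^ (q-1) G⁻¹) ^ n`. -/
theorem normalise (Lk : Link D T) (hG : D.Good O T.q) (hR : ResF D) (hqn : n.Coprime T.q)
    (hn : 0 < n) {f : F} (hf : New D T.q n f) :
    ∃ (x : ℤ) (φ : F), φ ≠ 0 ∧
      New D T.q n (f ^ ((T.q + 1) * (T.q - 1) * (T.q - 1)) * (T.q : F) ^ x * φ ^ n) ∧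
      ∀ i, T.red i (f ^ ((T.q + 1) * (T.q - 1) * (T.q - 1)) * (T.q : F) ^ x * φ ^ n) = 1 := by
  have hq2 : 2 ≤ T.q := T.q_prime.two_le
  obtain ⟨x, φ, hφ, hu⟩ := New.exists_unit hG hq2 hf
  have hf₁ : New D T.q n (f ^ ((T.q + 1) * (T.q - 1)) * (T.q : F) ^ x * φ ^ n) :=
    ((hf.pow _).mul hG (new_q_zpow hG x)).mul hG (new_pow hφ)
  obtain ⟨f₁, hf₁def⟩ : ∃ f₁ : F, f₁ = f ^ ((T.q + 1) * (T.q - 1)) * (T.q : F) ^ x * φ ^ n :=
    ⟨_, rfl⟩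
  rw [← hf₁def] at hf₁ hu
  obtain ⟨yA, yB, w, w', hr⟩ := New.exists_roots hG hR hqn hn hf₁ hu
  -- the local roots of `f₂ = f₁ ^ (q - 1)`
  have hroot : ∀ i : Fin 3, ∃ h : F, Cg (D.W i) (h ^ n) (f₁ ^ (T.q - 1)) := by
    intro i
    fin_cases i
    · refine ⟨D.al w ^ (T.q - 1), ?_⟩
      have := hr.r0.pow (hu 0).mem (T.q - 1)
      rwa [← pow_mul, mul_comm, pow_mul] at this
    · exact ⟨D.al (yA / w), hr.r1⟩
    · refine ⟨D.be w' ^ (T.q - 1), ?_⟩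
      have := hr.r2.pow (hu 2).mem (T.q - 1)
      rwa [← pow_mul, mul_comm, pow_mul] at this
  choose h hh using hroot
  have hhu : ∀ i, IsU (D.W i) (h i) := fun i =>
    IsU.of_pow hn ((hh i).isU_left ((hu i).pow _))
  obtain ⟨G, hG'⟩ := Inj.exists_residue_approx D.W hG.incomp h (fun i => (hhu i).mem)
  have hGc : ∀ i, Cg (D.W i) G (h i) := hG'
  have hGu : ∀ i, IsU (D.W i) G := fun i => (hGc i).isU_left (hhu i)
  have hG0 : G ≠ 0 := (hGu 0).ne_zero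
  have hGn : ∀ i, Cg (D.W i) (G ^ n) (f₁ ^ (T.q - 1)) := fun i =>
    ((hGc i).pow (hhu i).mem n).trans (hh i)
  have hone : ∀ i, Cg (D.W i) (f₁ ^ (T.q - 1) * (G⁻¹) ^ n) 1 := by
    intro i
    have h1 := ((hGn i).symm).mul_right (z := (G⁻¹) ^ n) ((hGu i).inv.pow n).mem
    rwa [← mul_pow, mul_inv_cancel₀ hG0, one_pow] at h1
  have hid : f ^ ((T.q + 1) * (T.q - 1) * (T.q - 1)) * (T.q : F) ^ (x * ((T.q - 1 : ℕ) : ℤ)) *
      (φ ^ (T.q - 1) * G⁻¹) ^ n = f₁ ^ (T.q - 1) * (G⁻¹) ^ n := by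
    rw [hf₁def, mul_pow, mul_pow, mul_pow, ← pow_mul, ← pow_mul, ← pow_mul, zpow_mul,
      zpow_natCast, mul_comm n (T.q - 1)]
    simp only [mul_assoc]
  refine ⟨x * ((T.q - 1 : ℕ) : ℤ), φ ^ (T.q - 1) * G⁻¹,
    mul_ne_zero (pow_ne_zero _ hφ) (inv_ne_zero hG0), ?_, ?_⟩
  · rw [hid]
    exact (hf₁.pow _).mul hG (new_pow (inv_ne_zero hG0))
  · intro i
    rw [hid]
    have h1 := hone i.idx
    have h2 := (Lk.cg_iff i (h1.mem_left (D.W i.idx).one_mem) (D.W i.idx).one_mem).1 h1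
    rw [h2]
    exact (T.R i).red_one

/-- LEAF RC-F3. `u ^ n = 1` in `Fb` implies that `u` is a non zero constant
(`GAL.FF.exists_algebraMap_eq_of_isAlgebraic'`). -/
theorem exists_const_of_pow_eq_one [IsAlgClosed k] {u : Fb} (hn : 0 < n) (h : u ^ n = 1) :
    ∃ c : k, c ≠ 0 ∧ u = algebraMap k Fb c := by
  have halg : IsAlgebraic k u := by
    refine ⟨Polynomial.X ^ n - 1, ?_, by simp [h]⟩
    exact Polynomial.X_pow_sub_C_ne_zero hn (1 : k)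
  have hA : Algebra.IsAlgebraic k (IntermediateField.adjoin k {u}) :=
    IntermediateField.isAlgebraic_adjoin_simple halg.isIntegral
  have hbot := IntermediateField.eq_bot_of_isAlgClosed_of_isAlgebraic (IntermediateField.adjoin k {u})
  have hmem : u ∈ IntermediateField.adjoin k {u} := IntermediateField.mem_adjoin_simple_self k u
  rw [hbot, IntermediateField.mem_bot] at hmem
  obtain ⟨c, rfl⟩ := hmem
  refine ⟨c, ?_, rfl⟩
  rintro rfl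
  rw [map_zero, zero_pow hn.ne'] at h
  exact zero_ne_one h

/-- LEAF RC-F4 (integrality and reduction of `α (N_α z)`).  `hR.al0`, `hR.al1` give `w₁, w₂` with `z ≡ α w₁` (`W 0`),
`z ≡ α w₂` (`W 1`); `hG.NRA1` : `N_α z ≡ w₁ w₂ ^ (q-1)` (`V 0`); transport by `cg_comap hG.al0`, `cg_comap hG.al1`;
`hG.NRA2` : `α (N_α z) ≡ z ^ q` (`W 2`).  `Link.cg_iff`, `Lk.al_compat` (`w₂ ∈ V 0` by `mem_of_comap hG.al1`), `T.he`. -/
theorem red_normA (Lk : Link D T) (hG : D.Good O T.q) (hR : ResF D) {z : F} (hz : T.Int z) :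
    T.Int (D.al (D.NA z)) ∧
    T.red Cp.oo (D.al (D.NA z)) = T.red Cp.oo z * T.red Cp.mid z ^ T.e ∧
    T.red Cp.zr (D.al (D.NA z)) = T.red Cp.zr z ^ T.q := by
  have hqe : T.q - 1 = T.e := by have := T.he; omega
  have mO : ∀ (i : Cp) (x : F), x ∈ D.W i.idx → x ∈ (T.R i).O := fun i x h => by
    rw [Lk.O_eq i]; exact h
  have hz' := (Lk.int_iff z).1 hz
  have hz0 : z ∈ D.W 0 := hz' Cp.oo
  have hz1 : z ∈ D.W 1 := hz' Cp.mid
  have hz2 : z ∈ D.W 2 := hz' Cp.zr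
  obtain ⟨w₁, h1⟩ := hR.al0 z hz0
  obtain ⟨w₂, h2⟩ := hR.al1 z hz1
  have hN := hG.NRA1 z w₁ w₂ hz0 hz1 h1 h2
  rw [hqe] at hN
  have hN0 : Cg (D.W 0) (D.al (D.NA z)) (D.al (w₁ * w₂ ^ T.e)) :=
    (cg_comap (φ := (D.al : FA →+* F)) hG.al0).1 hN
  have hN1 : Cg (D.W 1) (D.al (D.NA z)) (D.al (w₁ * w₂ ^ T.e)) :=
    (cg_comap (φ := (D.al : FA →+* F)) hG.al1).1 hN
  have hN2 := hG.NRA2 z hz2
  have hw₁0 : D.al w₁ ∈ D.W 0 := h1.mem_right hz0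
  have hw₁V : w₁ ∈ D.V 0 := (mem_of_comap (φ := (D.al : FA →+* F)) hG.al0).2 hw₁0
  have hw₂1 : D.al w₂ ∈ D.W 1 := h2.mem_right hz1
  have hw₂V : w₂ ∈ D.V 0 := (mem_of_comap (φ := (D.al : FA →+* F)) hG.al1).2 hw₂1
  have hw₂0 : D.al w₂ ∈ D.W 0 := (mem_of_comap (φ := (D.al : FA →+* F)) hG.al0).1 hw₂V
  have hwV : w₁ * w₂ ^ T.e ∈ D.V 0 := (D.V 0).mul_mem _ _ hw₁V ((D.V 0).pow_mem hw₂V _)
  have hw0 : D.al (w₁ * w₂ ^ T.e) ∈ D.W 0 := (mem_of_comap (φ := (D.al : FA →+* F)) hG.al0).1 hwV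
  have hw1 : D.al (w₁ * w₂ ^ T.e) ∈ D.W 1 := (mem_of_comap (φ := (D.al : FA →+* F)) hG.al1).1 hwV
  have hq2 : z ^ T.q ∈ D.W 2 := (D.W 2).pow_mem hz2 _
  have hA0 : D.al (D.NA z) ∈ D.W 0 := hN0.mem_left hw0
  have hA1 : D.al (D.NA z) ∈ D.W 1 := hN1.mem_left hw1
  have hA2 : D.al (D.NA z) ∈ D.W 2 := hN2.mem_left hq2
  refine ⟨(Lk.int_iff _).2 (fun i => by cases i <;> assumption), ?_, ?_⟩
  · have e1 : T.red Cp.oo (D.al (D.NA z)) = T.red Cp.oo (D.al (w₁ * w₂ ^ T.e)) :=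
      (Lk.cg_iff Cp.oo hA0 hw0).1 hN0
    have e2 : T.red Cp.oo z = T.red Cp.oo (D.al w₁) := (Lk.cg_iff Cp.oo hz0 hw₁0).1 h1
    have e3 : T.red Cp.mid z = T.red Cp.mid (D.al w₂) := (Lk.cg_iff Cp.mid hz1 hw₂1).1 h2
    have e4 : T.red Cp.oo (D.al w₁ * D.al w₂ ^ T.e)
        = T.red Cp.oo (D.al w₁) * T.red Cp.oo (D.al w₂ ^ T.e) :=
      (T.R Cp.oo).red_mul (mO Cp.oo _ hw₁0) (mO Cp.oo _ ((D.W 0).pow_mem hw₂0 _))
    rw [e1, map_mul, map_pow, e4, T.red_pow (mO Cp.oo _ hw₂0), Lk.al_compat w₂ hw₂V, e2, e3]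
  · have e1 : T.red Cp.zr (D.al (D.NA z)) = T.red Cp.zr (z ^ T.q) :=
      (Lk.cg_iff Cp.zr hA2 hq2).1 hN2
    rw [e1, T.red_pow (mO Cp.zr _ hz2)]

/-- LEAF RC-F4 (the same for `β`). -/
theorem red_normB (Lk : Link D T) (hG : D.Good O T.q) (hR : ResF D) {z : F} (hz : T.Int z) :
    T.Int (D.be (D.NB z)) ∧
    T.red Cp.oo (D.be (D.NB z)) = T.red Cp.oo z ^ T.q ∧
    T.red Cp.zr (D.be (D.NB z)) = T.red Cp.zr z * T.red Cp.mid z ^ T.e := by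
  have hqe : T.q - 1 = T.e := by have := T.he; omega
  have mO : ∀ (i : Cp) (x : F), x ∈ D.W i.idx → x ∈ (T.R i).O := fun i x h => by
    rw [Lk.O_eq i]; exact h
  have hz' := (Lk.int_iff z).1 hz
  have hz0 : z ∈ D.W 0 := hz' Cp.oo
  have hz1 : z ∈ D.W 1 := hz' Cp.mid
  have hz2 : z ∈ D.W 2 := hz' Cp.zr
  obtain ⟨w₁, h1⟩ := hR.be2 z hz2
  obtain ⟨w₂, h2⟩ := hR.be1 z hz1
  have hN := hG.NRB1 z w₁ w₂ hz2 hz1 h1 h2
  rw [hqe] at hN
  have hN2 : Cg (D.W 2) (D.be (D.NB z)) (D.be (w₁ * w₂ ^ T.e)) :=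
    (cg_comap (φ := (D.be : FA →+* F)) hG.be2).1 hN
  have hN1 : Cg (D.W 1) (D.be (D.NB z)) (D.be (w₁ * w₂ ^ T.e)) :=
    (cg_comap (φ := (D.be : FA →+* F)) hG.be1).1 hN
  have hN0 := hG.NRB2 z hz0
  have hw₁2 : D.be w₁ ∈ D.W 2 := h1.mem_right hz2
  have hw₁V : w₁ ∈ D.V 1 := (mem_of_comap (φ := (D.be : FA →+* F)) hG.be2).2 hw₁2
  have hw₂1 : D.be w₂ ∈ D.W 1 := h2.mem_right hz1
  have hw₂V : w₂ ∈ D.V 1 := (mem_of_comap (φ := (D.be : FA →+* F)) hG.be1).2 hw₂1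
  have hw₂2 : D.be w₂ ∈ D.W 2 := (mem_of_comap (φ := (D.be : FA →+* F)) hG.be2).1 hw₂V
  have hwV : w₁ * w₂ ^ T.e ∈ D.V 1 := (D.V 1).mul_mem _ _ hw₁V ((D.V 1).pow_mem hw₂V _)
  have hw2 : D.be (w₁ * w₂ ^ T.e) ∈ D.W 2 := (mem_of_comap (φ := (D.be : FA →+* F)) hG.be2).1 hwV
  have hw1 : D.be (w₁ * w₂ ^ T.e) ∈ D.W 1 := (mem_of_comap (φ := (D.be : FA →+* F)) hG.be1).1 hwV
  have hq0 : z ^ T.q ∈ D.W 0 := (D.W 0).pow_mem hz0 _
  have hA2 : D.be (D.NB z) ∈ D.W 2 := hN2.mem_left hw2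
  have hA1 : D.be (D.NB z) ∈ D.W 1 := hN1.mem_left hw1
  have hA0 : D.be (D.NB z) ∈ D.W 0 := hN0.mem_left hq0
  refine ⟨(Lk.int_iff _).2 (fun i => by cases i <;> assumption), ?_, ?_⟩
  · have e1 : T.red Cp.oo (D.be (D.NB z)) = T.red Cp.oo (z ^ T.q) :=
      (Lk.cg_iff Cp.oo hA0 hq0).1 hN0
    rw [e1, T.red_pow (mO Cp.oo _ hz0)]
  · have e1 : T.red Cp.zr (D.be (D.NB z)) = T.red Cp.zr (D.be (w₁ * w₂ ^ T.e)) :=
      (Lk.cg_iff Cp.zr hA2 hw2).1 hN2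
    have e2 : T.red Cp.zr z = T.red Cp.zr (D.be w₁) := (Lk.cg_iff Cp.zr hz2 hw₁2).1 h1
    have e3 : T.red Cp.mid z = T.red Cp.mid (D.be w₂) := (Lk.cg_iff Cp.mid hz1 hw₂1).1 h2
    have e4 : T.red Cp.zr (D.be w₁ * D.be w₂ ^ T.e)
        = T.red Cp.zr (D.be w₁) * T.red Cp.zr (D.be w₂ ^ T.e) :=
      (T.R Cp.zr).red_mul (mO Cp.zr _ hw₁2) (mO Cp.zr _ ((D.W 2).pow_mem hw₂2 _))
    rw [e1, map_mul, map_pow, e4, T.red_pow (mO Cp.zr _ hw₂2), Lk.be_compat w₂ hw₂V, e2, e3]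

variable {S : Poles T}

/-- the pole bound for `φ (N y * yy)`. -/
theorem FromLvl_mem_L (κ : Kum S n) (φ : FA →ₐ[K] F) (N : F →* FA) {yy : FA}
    (hN : N κ.f = yy ^ n) (stab : ∀ (a : ℕ) (z : F), z ∈ S.L a 0 → ∃ a', φ (N z) ∈ S.L a' 0)
    {a : ℕ} {y : F} (hy : y ∈ κ.Lam a 0) : ∃ a', φ (N y * yy) ∈ S.L a' 0 := by
  obtain ⟨hL, -, -⟩ := κ.pow_mul_f hy
  rw [Nat.mul_zero] at hL
  obtain ⟨a', ha'⟩ := stab _ _ hL
  refine ⟨a', S.L_root n a' 0 _ κ.n_pos ?_⟩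
  have h1 : φ (N y * yy) ^ n = φ (N (y ^ n * κ.f)) := by
    rw [← map_pow, mul_pow, ← hN, ← map_pow, ← map_mul]
  rw [h1]
  exact S.L_mono (Nat.le_mul_of_pos_left a' κ.n_pos) (Nat.zero_le _) ha'

/-- the reduction of `φ yy` is a non zero constant. -/
theorem FromLvl_const [IsAlgClosed k] (κ : Kum S n) (φ : FA →ₐ[K] F) (N : F →* FA) {yy : FA}
    (hN : N κ.f = yy ^ n) (hInt : T.Int (φ yy)) (i : Cp) (h1 : T.red i (φ (N κ.f)) = 1) :
    ∃ c : k, c ≠ 0 ∧ T.red i (φ yy) = algebraMap k Fb c := by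
  apply exists_const_of_pow_eq_one κ.n_pos
  rw [← T.red_pow (hInt i), ← map_pow, ← hN, h1]

/-- LEAF RC-F5 (**norm elements**).  `κ.f` is a unit of the three `W i` (`red_f`, `Link.isU_iff`);
`New.exists_norm_roots hG` : `N_α f = yA ^ n`, `N_β f = yB ^ n`, `yA`, `yB` units of `V 0`, `V 1`.  For `y ∈ Λ(a, 0)` put
`Y = α (N_α y * yA)`.  `Y ^ n = α (N_α (y ^ n f))`, `y ^ n f ∈ L (n a) 0` (`Kum.pow_mul_f`), so `Y ^ n ∈ L a' 0 ≤ L (n a') (n 0)`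
(`stabA`, `L_mono`) and `Y ∈ L a' 0` (`L_root`).  `α yA` is integral (`isU_comap hG.al0/al1/al2`), and
`(red_i (α yA)) ^ n = red_i (α (N_α f)) = 1` by `red_normA` for `z = f`, so `red_i (α yA)` is a non zero constant
(`exists_const_of_pow_eq_one`).  `red_normA` for `z = y`.  `Algebra.smul_def`.  The same for `β`. -/
theorem norms_of_new [IsAlgClosed k] (Lk : Link D T) (hG : D.Good O T.q) (hR : ResF D)
    (stabA : ∀ (a : ℕ) (z : F), z ∈ S.L a 0 → ∃ a', D.al (D.NA z) ∈ S.L a' 0)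
    (stabB : ∀ (a : ℕ) (z : F), z ∈ S.L a 0 → ∃ a', D.be (D.NB z) ∈ S.L a' 0)
    (κ : Kum S n) (hf : New D T.q n κ.f) : Norms κ := by
  have hu : ∀ i : Fin 3, IsU (D.W i) κ.f := by
    have h : ∀ i : Cp, IsU (D.W i.idx) κ.f := fun i =>
      (Lk.isU_iff i κ.f).2 (by rw [κ.red_f i]; exact one_ne_zero)
    intro i
    fin_cases i
    · exact h Cp.oo
    · exact h Cp.mid
    · exact h Cp.zr
  obtain ⟨yA, yB, hNA, hNB, huA, huB⟩ := New.exists_norm_roots hG κ.n_pos hf hu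
  have hIntA : T.Int (D.al yA) := by
    rw [Lk.int_iff]
    intro i
    cases i
    · exact ((isU_comap hG.al0).1 (huA 0)).mem
    · exact ((isU_comap hG.al1).1 (huA 0)).mem
    · exact ((isU_comap hG.al2).1 (huA 1)).mem
  have hIntB : T.Int (D.be yB) := by
    rw [Lk.int_iff]
    intro i
    cases i
    · exact ((isU_comap hG.be0).1 (huB 0)).mem
    · exact ((isU_comap hG.be1).1 (huB 1)).mem
    · exact ((isU_comap hG.be2).1 (huB 1)).mem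
  obtain ⟨-, hfA1, hfA2⟩ := red_normA Lk hG hR κ.int_f
  obtain ⟨-, hfB1, hfB2⟩ := red_normB Lk hG hR κ.int_f
  simp only [κ.red_f, one_pow, mul_one] at hfA1 hfA2 hfB1 hfB2
  obtain ⟨cA, hcA, ecA⟩ := FromLvl_const κ D.al D.NA hNA hIntA Cp.oo hfA1
  obtain ⟨cA', hcA', ecA'⟩ := FromLvl_const κ D.al D.NA hNA hIntA Cp.zr hfA2
  obtain ⟨cB, hcB, ecB⟩ := FromLvl_const κ D.be D.NB hNB hIntB Cp.oo hfB1
  obtain ⟨cB', hcB', ecB'⟩ := FromLvl_const κ D.be D.NB hNB hIntB Cp.zr hfB2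
  constructor
  · intro a y hy
    obtain ⟨a', ha'⟩ := FromLvl_mem_L κ D.al D.NA hNA stabA hy
    obtain ⟨hI, h1, h2⟩ := red_normA Lk hG hR hy.2
    refine ⟨a', D.al (D.NA y * yA), cA, cA', hcA, hcA', ha', ?_, ?_, ?_⟩
    · rw [map_mul]; exact hI.mul hIntA
    · rw [map_mul, Tri.red, (T.R Cp.oo).red_mul (hI _) (hIntA _)]
      show T.red Cp.oo _ * T.red Cp.oo _ = _
      rw [h1, ecA, Algebra.smul_def, mul_comm]
    · rw [map_mul, Tri.red, (T.R Cp.zr).red_mul (hI _) (hIntA _)]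
      show T.red Cp.zr _ * T.red Cp.zr _ = _
      rw [h2, ecA', Algebra.smul_def, mul_comm]
  · intro a y hy
    obtain ⟨a', ha'⟩ := FromLvl_mem_L κ D.be D.NB hNB stabB hy
    obtain ⟨hI, h1, h2⟩ := red_normB Lk hG hR hy.2
    refine ⟨a', D.be (D.NB y * yB), cB, cB', hcB, hcB', ha', ?_, ?_, ?_⟩
    · rw [map_mul]; exact hI.mul hIntB
    · rw [map_mul, Tri.red, (T.R Cp.oo).red_mul (hI _) (hIntB _)]
      show T.red Cp.oo _ * T.red Cp.oo _ = _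
      rw [h1, ecB, Algebra.smul_def, mul_comm]
    · rw [map_mul, Tri.red, (T.R Cp.zr).red_mul (hI _) (hIntB _)]
      show T.red Cp.zr _ * T.red Cp.zr _ = _
      rw [h2, ecB', Algebra.smul_def, mul_comm]

/-- **Route RC, final abstract form**, on top of the contracts `Lvl.Good`, `ResF` of route R. -/
theorem abstract_RC [IsAlgClosed k] [IsFF k Fb] (Lk : Link D T) (hG : D.Good O T.q) (hR : ResF D)
    (Od : Old S)
    (stabA : ∀ (a : ℕ) (z : F), z ∈ S.L a 0 → ∃ a', D.al (D.NA z) ∈ S.L a' 0)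
    (stabB : ∀ (a : ℕ) (z : F), z ∈ S.L a 0 → ∃ a', D.be (D.NB z) ∈ S.L a' 0)
    (hqn : n.Coprime T.q) (hn : 0 < n)
    (mk : ∀ f : F, f ≠ 0 → (∀ P : Place K F, (n : ℤ) ∣ P.ord f) → (∀ i, T.red i f = 1) →
      ∃ κ : Kum S n, κ.f = f)
    {f : F} (hf : New D T.q n f) (hord : ∀ P : Place K F, (n : ℤ) ∣ P.ord f) :
    ∃ (g : F) (c : K), g ≠ 0 ∧ c ≠ 0 ∧
      f ^ ((T.q + 1) * (T.q - 1) * (T.q - 1) * (T.q ^ 2 - 1)) = algebraMap K F c * g ^ n := by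
  obtain ⟨x, φ, hφ, hnew, hred⟩ := normalise Lk hG hR hqn hn hf
  set f₃ := f ^ ((T.q + 1) * (T.q - 1) * (T.q - 1)) * (T.q : F) ^ x * φ ^ n with hf₃
  have hq0 : (T.q : F) ≠ 0 := T.q_ne'
  have hqK : (T.q : F) = algebraMap K F (T.q : K) := (map_natCast _ _).symm
  have hord₃ : ∀ P : Place K F, (n : ℤ) ∣ P.ord f₃ := by
    intro P
    have h1 : P.ord ((T.q : F) ^ x) = 0 := by
      rw [hqK, ← map_zpow₀]
      exact ord_algebraMap P _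
    have hfe : f ^ ((T.q + 1) * (T.q - 1) * (T.q - 1)) ≠ 0 := pow_ne_zero _ hf.ne_zero
    rw [hf₃, P.ord_mul (mul_ne_zero hfe (zpow_ne_zero _ hq0)) (pow_ne_zero _ hφ),
      P.ord_mul hfe (zpow_ne_zero _ hq0), h1, add_zero, ord_pow, ord_pow]
    exact dvd_add (Dvd.dvd.mul_left (hord P) _) (Dvd.intro _ rfl)
  obtain ⟨κ, hκ⟩ := mk f₃ hnew.ne_zero hord₃ hred
  have hord₄ : ∀ P : Place K F, (n : ℤ) ∣ P.ord (f₃ ^ (T.q ^ 2 - 1)) := fun P => by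
    rw [ord_pow]; exact Dvd.dvd.mul_left (hord₃ P) _
  have hInt₃ : T.Int f₃ := fun i =>
    (T.R i).mem_of_red_ne_zero (by rw [show (T.R i).red f₃ = 1 from hred i]; exact one_ne_zero)
  obtain ⟨κ', hκ'⟩ := mk (f₃ ^ (T.q ^ 2 - 1)) (pow_ne_zero _ hnew.ne_zero) hord₄
    (fun i => by rw [T.red_pow (hInt₃ i), hred i, one_pow])
  have Nm : Norms κ := norms_of_new Lk hG hR stabA stabB κ (by rw [hκ]; exact hnew)
  obtain ⟨g, c, hg, hc, e⟩ := main' Od κ κ' (by rw [hκ', hκ]) Nm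
  rw [hκ] at e
  -- unfold `f₃`
  refine ⟨g * (φ ^ (T.q ^ 2 - 1))⁻¹, c * ((T.q : K) ^ x)⁻¹ ^ (T.q ^ 2 - 1),
    mul_ne_zero hg (inv_ne_zero (pow_ne_zero _ hφ)),
    mul_ne_zero hc (pow_ne_zero _ (inv_ne_zero (zpow_ne_zero _ T.q_ne))), ?_⟩
  have h2 : f₃ ^ (T.q ^ 2 - 1) = f ^ ((T.q + 1) * (T.q - 1) * (T.q - 1) * (T.q ^ 2 - 1)) *
      ((T.q : F) ^ x) ^ (T.q ^ 2 - 1) * (φ ^ (T.q ^ 2 - 1)) ^ n := by
    rw [hf₃, mul_pow, mul_pow, ← pow_mul, ← pow_mul, ← pow_mul, mul_comm n]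
  rw [h2] at e
  have h3 : ((T.q : F) ^ x) ^ (T.q ^ 2 - 1) ≠ 0 := pow_ne_zero _ (zpow_ne_zero _ hq0)
  have h4 : (φ ^ (T.q ^ 2 - 1)) ^ n ≠ 0 := pow_ne_zero _ (pow_ne_zero _ hφ)
  rw [map_mul, map_pow, map_inv₀, map_zpow₀, ← hqK, mul_pow, inv_pow, inv_pow]
  field_simp
  rw [← e]

end Fermat.Agent.S36.RC
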