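import Fermat.Agent.S36.RC.Section

/-!
# S36/RC: the gluing values of `(q² - 1) x` are constant (old functions + norm elements)
-/

set_option autoImplicit false

noncomputable section

namespace Fermat.Agent.S36.RC

open AlgebraicCurve Fermat.Agent.Lib.RR Fermat.Agent.GAL.RED Fermat.Agent.Lib.PlaceEval

variable {K0 F0 k Fb : Type*} [Field K0] [Field F0] [Algebra K0 F0]
  [Field k] [Field Fb] [Algebra k Fb] [IsAlgClosed k] [IsFF k Fb]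

variable {T : Tri K0 F0 k Fb} {S : Poles T}

namespace Old

variable (Od : Old S)

/-- LEAF RC-K1. `oldB a u` gives `U_B = (Φ u, u, *) ∈ L a₁ 0`; by `S.int`, `Φ u ∈ L(a₁ X_oo)`
(`E oo a₁ 0 = a₁ X_oo`); `oldA a₁ (Φ u)` gives `U_A = (Φ u, Φ u, *)`; `ev_eq_of_red_oo_eq` (mid). -/
theorem ev_Φ {a : ℕ} {u : Fb} (hu : u ∈ riemannRochSpace ((a : ℤ) • S.X Cp.oo))
    {P : Place k Fb} (hP : P ∈ S.SS) : ev P (Od.Φ u) = ev P u := by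
  obtain ⟨a₁, UB, hUB, hIB, hoo, hmid⟩ := Od.oldB a u hu
  have h1 := S.int a₁ 0 UB hUB hIB Cp.oo
  rw [Nat.cast_zero, zero_smul, add_zero, hoo] at h1
  obtain ⟨a₂, UA, hUA, hIA, hoo', hmid', -⟩ := Od.oldA a₁ (Od.Φ u) h1
  have h2 := (Poles.ev_eq_of_red_oo_eq hUA hIA hUB hIB (hoo'.trans hoo.symm) hP).2
  rwa [hmid', hmid] at h2

include Od in
/-- LEAF RC-K1. `u = red_oo Z ∈ L(a X_oo)`; `oldA a u` gives `U = (u, u, Φ u)`;
`ev_eq_of_red_oo_eq` (zr) and `ev_Φ`. -/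
theorem ev_zr_eq_oo {a : ℕ} {Z : F0} (hZ : Z ∈ S.L a 0) (hI : T.Int Z)
    {P : Place k Fb} (hP : P ∈ S.SS) : ev P (T.red Cp.zr Z) = ev P (T.red Cp.oo Z) := by
  have h1 := S.int a 0 Z hZ hI Cp.oo
  rw [Nat.cast_zero, zero_smul, add_zero] at h1
  obtain ⟨a', U, hU, hIU, hoo, -, hzr⟩ := Od.oldA a _ h1
  have h2 := (Poles.ev_eq_of_red_oo_eq hZ hI hU hIU hoo.symm hP).1
  rw [h2, hzr, Od.ev_Φ h1 hP]

end Old

/-- LEAF RC-K2 (field arithmetic). -/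
theorem const_arith {k : Type*} [Field k] {e q : ℕ} (he : e + 1 = q) {c c' b b' : k} (hc : c ≠ 0)
    (hc' : c' ≠ 0) (hb : b ≠ 0) (hb' : b' ≠ 0) {d₀ d₁ : k} (hd₀ : d₀ ≠ 0) (hd₁ : d₁ ≠ 0)
    (hA : c' * d₀ ^ q = c * d₁ ^ e) (hB : b' * (d₀ * d₁ ^ e) = b) :
    d₀ ^ (q ^ 2 - 1) = (b * c / (b' * c')) ^ e ∧
    d₁ ^ (q ^ 2 - 1) = (b / b') ^ (q + 1) / (b * c / (b' * c')) := by
  subst he
  have hq : (e + 1) ^ 2 - 1 = (e + 1 + 1) * e := by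
    have : (e + 1) ^ 2 = (e + 1 + 1) * e + 1 := by ring
    omega
  have h1 : d₁ ^ e = b / (b' * d₀) := by
    rw [eq_div_iff (mul_ne_zero hb' hd₀), ← hB]
    ring
  have h0 : d₀ ^ (e + 1 + 1) = b * c / (b' * c') := by
    rw [eq_div_iff (mul_ne_zero hb' hc')]
    have : d₀ ^ (e + 1 + 1) * (b' * c') = b' * d₀ * (c' * d₀ ^ (e + 1)) := by ring
    rw [this, hA, h1]
    field_simp
  constructor
  · rw [hq, pow_mul, h0]
  · rw [hq, mul_comm, pow_mul, h1, ← h0, ← div_div, div_pow]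

namespace Kum

variable {n : ℕ} (κ : Kum S n)

/-- LEAF RC-K3. `normA`, `normB` for `y`, `Old.ev_zr_eq_oo` for `Y_A`, `Y_B`, `ev_smul`, `ev_mul`, `ev_pow`
(regularity: `red_mem_E`, `Poles.ord_nonneg`), `ev_pow_eq_one` (so `d₀, d₁ ≠ 0`), `const_arith`. -/
theorem const_data (Od : Old S) (Nm : Norms κ) {a : ℕ} {y : F0} (hy : y ∈ κ.Lam a 0)
    (h1 : T.red Cp.oo y = 1) :
    ∃ ζ₀ ζ₁ : k, ∀ P ∈ S.SS, ev P (T.red Cp.zr y) ^ (T.q ^ 2 - 1) = ζ₀ ∧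
      ev P (T.red Cp.mid y) ^ (T.q ^ 2 - 1) = ζ₁ := by
  obtain ⟨aA, YA, c, c', hc, hc', hYA, hIA, hAoo, hAzr⟩ := Nm.normA a y hy
  obtain ⟨aB, YB, b, b', hb, hb', hYB, hIB, hBoo, hBzr⟩ := Nm.normB a y hy
  refine ⟨(b * c / (b' * c')) ^ T.e, (b / b') ^ (T.q + 1) / (b * c / (b' * c')), fun P hP => ?_⟩
  have hreg : ∀ i, 0 ≤ P.ord (T.red i y) := fun i => Poles.ord_nonneg hP (κ.red_mem_E hy i)
  have hpow : ∀ i (N : ℕ), 0 ≤ P.ord (T.red i y ^ N) := fun i N => by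
    rw [← mem_iff]
    exact pow_mem ((mem_iff P).mpr (hreg i)) N
  obtain ⟨h0n, h1n⟩ := κ.ev_pow_eq_one hy h1 hP
  have hn0 : n ≠ 0 := κ.n_pos.ne'
  have hd₀ : ev P (T.red Cp.zr y) ≠ 0 := by
    intro h
    rw [h, zero_pow hn0] at h0n
    exact zero_ne_one h0n
  have hd₁ : ev P (T.red Cp.mid y) ≠ 0 := by
    intro h
    rw [h, zero_pow hn0] at h1n
    exact zero_ne_one h1n
  have hA : c' * ev P (T.red Cp.zr y) ^ T.q = c * ev P (T.red Cp.mid y) ^ T.e := by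
    have h := Od.ev_zr_eq_oo hYA hIA hP
    rw [hAoo, hAzr, h1, one_mul, ev_smul, ev_smul, ev_pow P (hreg _), ev_pow P (hreg _)] at h
    exact h
  have hB : b' * (ev P (T.red Cp.zr y) * ev P (T.red Cp.mid y) ^ T.e) = b := by
    have h := Od.ev_zr_eq_oo hYB hIB hP
    rw [hBoo, hBzr, h1, one_pow, ev_smul, ev_smul, ev_mul P (hreg _) (hpow _ _),
      ev_pow P (hreg _), ev_one, mul_one] at h
    exact h
  exact const_arith T.he hc hc' hb hb' hd₀ hd₁ hA hB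

omit [IsAlgClosed k] [IsFF k Fb] in
/-- LEAF RC-K4. `(y ^ D) ^ n f ^ D = (y ^ n f) ^ D`, `Kum.L_pow`. -/
theorem pow_mem_Lam {κ κ' : Kum S n} {D : ℕ} (hf : κ'.f = κ.f ^ D) {a c : ℕ} {y : F0}
    (hy : y ∈ κ.Lam a c) : y ^ D ∈ κ'.Lam (D * a) (D * c) := by
  refine ⟨?_, hy.2.pow D⟩
  rw [κ'.mem_Mf, hf]
  have h1 : (y ^ D) ^ n * κ.f ^ D = (y ^ n * κ.f) ^ D := by ring
  rw [h1, Nat.mul_left_comm n D a, Nat.mul_left_comm n D c]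
  exact L_pow ((κ.mem_Mf a c y).mp hy.1) D

end Kum

end Fermat.Agent.S36.RC
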