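import Fermat.Agent.S36.RC.Chain
import Fermat.Agent.Lib.RR.Main

/-!
# S36/RC, step (5) of report 269: lifting over the discrete valuation ring

Input: all the pieces of the chain are full Riemann-Roch spaces (`Full`, output of the count), and two sections
`y₁ ∈ Λ(a, 0)`, `y₂ ∈ Λ(0, a)` with the same reductions on the three components, `red_oo y₁ = 1`.
Output: a nonzero element of `Mf 0 0 = L(D)`, hence `f = c w ^ n`.

* (L0) `L(D₁) + L(D₂) = L(D₁ ⊔ D₂)` on `C` if `h¹(D₁ ⊓ D₂) = 0`;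
* (L1) `Λ(A, C) ≤ Λ(A, 0) + Λ(0, C) + Λ(a₂, a₂)` (Nakayama, `Kum.Lam_le_of_img_le`);
* (L2) the torsion of `Λ(a₂, a₂) / (⋃ Λ(A, 0) + Λ(0, A))` is killed by a fixed power of `q` (noetherian);
* (L3) `u - v ∈ rad ⟹ u ^ (q ^ r) - v ^ (q ^ r) ∈ q ^ r rad`;
* (L4) assembly.
-/

set_option autoImplicit false

noncomputable section

namespace Fermat.Agent.S36.RC

open AlgebraicCurve Fermat.Agent.Lib.RR Fermat.Agent.GAL.RED

section L0

variable {k Fb : Type*} [Field k] [Field Fb] [Algebra k Fb] [IsFF k Fb] [IsAlgClosed k]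

/-- LEAF RC-E0. `L(D₁) ∩ L(D₂) = L(D₁ ⊓ D₂)` (`mem_riemannRochSpace_iff`, `Finsupp.inf_apply`, `le_min_iff`-type
bookkeeping place by place). -/
theorem L_inf_eq (D₁ D₂ : Divisor k Fb) :
    riemannRochSpace D₁ ⊓ riemannRochSpace D₂ = riemannRochSpace (D₁ ⊓ D₂) := by
  ext f
  rw [Submodule.mem_inf, mem_riemannRochSpace_iff, mem_riemannRochSpace_iff,
    mem_riemannRochSpace_iff]
  constructor
  · rintro ⟨h1, h2⟩ v
    rcases h1 v with h | h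
    · exact Or.inl h
    rcases h2 v with h' | h'
    · exact Or.inl h'
    right
    rw [Finsupp.inf_apply]
    rcases le_total (D₁ v) (D₂ v) with hm | hm
    · rw [inf_eq_left.mpr hm]; exact h
    · rw [inf_eq_right.mpr hm]; exact h'
  · intro h
    refine ⟨fun v => ?_, fun v => ?_⟩
    · rcases h v with h | h
      · exact Or.inl h
      · right
        rw [Finsupp.inf_apply] at h
        have : D₁ v ⊓ D₂ v ≤ D₁ v := inf_le_left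
        omega
    · rcases h v with h | h
      · exact Or.inl h
      · right
        rw [Finsupp.inf_apply] at h
        have : D₁ v ⊓ D₂ v ≤ D₂ v := inf_le_right
        omega

/-- LEAF RC-E0. `L(D₁) + L(D₂) = L(D₁ ⊔ D₂)` if `h¹(D₁ ⊓ D₂) = 0`.
PROOF. `≤` by `L_mono`.  Equality of dimensions: `h1_antitone` gives `h¹ = 0` for `D₁`, `D₂`, `D₁ ⊔ D₂`;
`riemann_roch_h1` gives `ℓ(D) = deg D + ℓ(0) - g` for the four divisors; `D₁ ⊓ D₂ + D₁ ⊔ D₂ = D₁ + D₂`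
(`inf_add_sup`); `Submodule.finrank_sup_add_finrank_inf_eq`, `L_inf_eq`; conclude with
`Submodule.eq_of_le_of_finrank_le` (finite dimensionality of `riemannRochSpace`: instance of `IsPreFF`). -/
theorem L_sup_eq {D₁ D₂ : Divisor k Fb} (h : h1 (D₁ ⊓ D₂) = 0) :
    riemannRochSpace D₁ ⊔ riemannRochSpace D₂ = riemannRochSpace (D₁ ⊔ D₂) := by
  have hle : riemannRochSpace D₁ ⊔ riemannRochSpace D₂ ≤ riemannRochSpace (D₁ ⊔ D₂) :=
    sup_le (L_mono le_sup_left) (L_mono le_sup_right)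
  refine Submodule.eq_of_le_of_finrank_le hle ?_
  have z1 : h1 D₁ = 0 := Nat.le_zero.mp (h ▸ h1_antitone (inf_le_left : D₁ ⊓ D₂ ≤ D₁))
  have z2 : h1 D₂ = 0 := Nat.le_zero.mp (h ▸ h1_antitone (inf_le_right : D₁ ⊓ D₂ ≤ D₂))
  have z3 : h1 (D₁ ⊔ D₂) = 0 :=
    Nat.le_zero.mp (h ▸ h1_antitone (inf_le_sup : D₁ ⊓ D₂ ≤ D₁ ⊔ D₂))
  have r0 := riemann_roch_h1 (D₁ ⊓ D₂)
  have r1 := riemann_roch_h1 D₁
  have r2 := riemann_roch_h1 D₂
  have r3 := riemann_roch_h1 (D₁ ⊔ D₂)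
  rw [h] at r0
  rw [z1] at r1
  rw [z2] at r2
  rw [z3] at r3
  have hdeg : Divisor.degree (D₁ ⊓ D₂) + Divisor.degree (D₁ ⊔ D₂) =
      Divisor.degree D₁ + Divisor.degree D₂ := by
    rw [← map_add, ← map_add, inf_add_sup]
  have hdim := Submodule.finrank_sup_add_finrank_inf_eq (riemannRochSpace D₁) (riemannRochSpace D₂)
  rw [L_inf_eq] at hdim
  have e0 : Module.finrank k (riemannRochSpace (D₁ ⊓ D₂)) = ell (D₁ ⊓ D₂) := rfl
  have e1 : Module.finrank k (riemannRochSpace D₁) = ell D₁ := rfl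
  have e2 : Module.finrank k (riemannRochSpace D₂) = ell D₂ := rfl
  have e3 : Module.finrank k (riemannRochSpace (D₁ ⊔ D₂)) = ell (D₁ ⊔ D₂) := rfl
  rw [e0, e1, e2] at hdim
  rw [e3]
  have : (ell (D₁ ⊔ D₂) : ℤ) ≤
      (Module.finrank k ↥(riemannRochSpace D₁ ⊔ riemannRochSpace D₂) : ℤ) := by
    have hdim' : ((Module.finrank k ↥(riemannRochSpace D₁ ⊔ riemannRochSpace D₂) : ℕ) : ℤ) +
        ell (D₁ ⊓ D₂) = ell D₁ + ell D₂ := by exact_mod_cast hdim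
    push_cast at r0 r1 r2 r3
    linarith
  exact_mod_cast this

end L0

variable {K0 F0 k Fb : Type*} [Field K0] [Field F0] [Algebra K0 F0]
  [Field k] [Field Fb] [Algebra k Fb]

namespace Poles

variable {T : Tri K0 F0 k Fb} (S : Poles T)

theorem End_E_apply (i : Cp) (a c : ℕ) (P : Place k Fb) :
    S.E i a c P = (a : ℤ) * S.X i P + (c : ℤ) * S.Y i P := by
  rw [Poles.E, Finsupp.add_apply, Finsupp.smul_apply, Finsupp.smul_apply, smul_eq_mul,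
    smul_eq_mul]

/-- LEAF RC-E1. `(A X + c Y - B) ⊔ (a X + C Y - B) = A X + C Y - B` for `a ≤ A`, `c ≤ C`
(place by place: `XY_disj`, `X_nonneg`, `Y_nonneg`). -/
theorem E_sup (i : Cp) (B : Divisor k Fb) {a A c C : ℕ} (ha : a ≤ A) (hc : c ≤ C) :
    (S.E i A c - B) ⊔ (S.E i a C - B) = S.E i A C - B := by
  ext P
  rw [Finsupp.sup_apply, Finsupp.sub_apply, Finsupp.sub_apply, Finsupp.sub_apply, End_E_apply,
    End_E_apply, End_E_apply]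
  have hX : 0 ≤ S.X i P := S.X_nonneg i P
  have hY : 0 ≤ S.Y i P := S.Y_nonneg i P
  have ha' : (a : ℤ) * S.X i P ≤ (A : ℤ) * S.X i P :=
    mul_le_mul_of_nonneg_right (by exact_mod_cast ha) hX
  have hc' : (c : ℤ) * S.Y i P ≤ (C : ℤ) * S.Y i P :=
    mul_le_mul_of_nonneg_right (by exact_mod_cast hc) hY
  rcases S.XY_disj i P with h | h
  · rw [h] at ha' ⊢
    simp only [mul_zero, zero_add]
    exact sup_eq_right.mpr (by omega)
  · rw [h] at hc' ⊢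
    simp only [mul_zero, add_zero]
    exact sup_eq_left.mpr (by omega)

/-- LEAF RC-E1. -/
theorem E_inf (i : Cp) (B : Divisor k Fb) {a A c C : ℕ} (ha : a ≤ A) (hc : c ≤ C) :
    (S.E i A c - B) ⊓ (S.E i a C - B) = S.E i a c - B := by
  ext P
  rw [Finsupp.inf_apply, Finsupp.sub_apply, Finsupp.sub_apply, Finsupp.sub_apply, End_E_apply,
    End_E_apply, End_E_apply]
  have hX : 0 ≤ S.X i P := S.X_nonneg i P
  have hY : 0 ≤ S.Y i P := S.Y_nonneg i P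
  have ha' : (a : ℤ) * S.X i P ≤ (A : ℤ) * S.X i P :=
    mul_le_mul_of_nonneg_right (by exact_mod_cast ha) hX
  have hc' : (c : ℤ) * S.Y i P ≤ (C : ℤ) * S.Y i P :=
    mul_le_mul_of_nonneg_right (by exact_mod_cast hc) hY
  rcases S.XY_disj i P with h | h
  · rw [h] at ha' ⊢
    simp only [mul_zero, zero_add]
    exact inf_eq_left.mpr (by omega)
  · rw [h] at hc' ⊢
    simp only [mul_zero, add_zero]
    exact inf_eq_right.mpr (by omega)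

/-- LEAF RC-E1. -/
theorem degree_E (i : Cp) (a c : ℕ) : Divisor.degree (S.E i a c) = ((a : ℤ) + c) * S.d i := by
  rw [Poles.E, map_add, map_zsmul, map_zsmul, S.deg_X, S.deg_Y, smul_eq_mul, smul_eq_mul]
  ring

variable [IsFF k Fb] [IsAlgClosed k]

/-- LEAF RC-E1. (`exists_h1_eq_zero`, `degree_E`, `d_pos`: `(a + c) d_i - deg B ≥ (a + c) - deg B`.) -/
theorem exists_h1_E_eq_zero (i : Cp) (B : Divisor k Fb) :
    ∃ a₂ : ℕ, ∀ a c : ℕ, a₂ ≤ a + c → h1 (S.E i a c - B) = 0 := by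
  obtain ⟨c₀, hc₀⟩ := exists_h1_eq_zero (K := k) (F := Fb)
  refine ⟨(c₀ + Divisor.degree B).toNat, fun a c hac => hc₀ _ ?_⟩
  rw [map_sub, degree_E]
  have hd : 1 ≤ S.d i := S.d_pos i
  have h1 : ((a : ℤ) + c) * 1 ≤ ((a : ℤ) + c) * S.d i :=
    mul_le_mul_of_nonneg_left hd (by positivity)
  have h2 : c₀ + Divisor.degree B ≤ (a : ℤ) + c := by
    have := Int.self_le_toNat (c₀ + Divisor.degree B)
    have h3 : (((c₀ + Divisor.degree B).toNat : ℕ) : ℤ) ≤ ((a + c : ℕ) : ℤ) := by exact_mod_cast hac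
    push_cast at h3
    omega
  omega

/-- (L0') -/
theorem L_E_sup (i : Cp) (B : Divisor k Fb) {a A c C : ℕ} (ha : a ≤ A) (hc : c ≤ C)
    (h : h1 (S.E i a c - B) = 0) :
    riemannRochSpace (S.E i A c - B) ⊔ riemannRochSpace (S.E i a C - B)
      = riemannRochSpace (S.E i A C - B) := by
  rw [L_sup_eq (by rw [S.E_inf i B ha hc]; exact h), S.E_sup i B ha hc]

end Poles

/-- **All the pieces are full Riemann-Roch spaces** (output of the count). -/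
structure Full [HasPrincipalDivisors k Fb] {T : Tri K0 F0 k Fb} {S : Poles T} {n : ℕ} (κ : Kum S n)
    (a₁ : ℕ) : Prop where
  oo : ∀ a c : ℕ, a₁ ≤ a + c → κ.imOO a c = riemannRochSpace (S.E Cp.oo a c)
  zr : ∀ a c : ℕ, a₁ ≤ a + c → κ.imZR a c = riemannRochSpace (S.E Cp.zr a c - S.DD)
  mid : ∀ a c i : ℕ, a₁ ≤ a + c → i < T.e →
    κ.imMID a c i = riemannRochSpace (S.E Cp.mid a c - S.Bd i)

namespace Tri

variable (T : Tri K0 F0 k Fb)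

theorem img_mono (i : Cp) (t : F0) {N N' : Submodule T.A F0} (h : N ≤ N') :
    T.img i t N ≤ T.img i t N' := by
  rintro u ⟨y, hy, h1, h2⟩
  exact ⟨y, h hy, h1, h2⟩

/-- The radical of the ring of integral functions. -/
def Rad (z : F0) : Prop := T.Int z ∧ ∀ i, T.red i z = 0

variable {T}

/-- LEAF RC-E3. -/
theorem Rad.add {y z : F0} (hy : T.Rad y) (hz : T.Rad z) : T.Rad (y + z) := by
  refine ⟨hy.1.add hz.1, fun i => ?_⟩
  have h1 : (T.R i).red y = 0 := hy.2 i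
  have h2 : (T.R i).red z = 0 := hz.2 i
  change (T.R i).red (y + z) = 0
  rw [(T.R i).red_add (hy.1 i) (hz.1 i), h1, h2, add_zero]

/-- LEAF RC-E3. -/
theorem Rad.mul_left {y z : F0} (hy : T.Int y) (hz : T.Rad z) : T.Rad (y * z) := by
  refine ⟨hy.mul hz.1, fun i => ?_⟩
  have h2 : (T.R i).red z = 0 := hz.2 i
  change (T.R i).red (y * z) = 0
  rw [(T.R i).red_mul (hy i) (hz.1 i), h2, mul_zero]

/-- LEAF RC-E3. -/
theorem rad_q : T.Rad (T.q : F0) := ⟨fun i => T.q_mem i, fun i => T.red_q i⟩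

/-- LEAF RC-E3. `z ∈ rad ⟹ z ^ q / q ∈ rad`.
At `oo`, `zr`: `z / q ∈ O` (`ker_oo`, `ker_zr`), `z ^ q / q = (z / q) * z ^ e`, `e ≥ 1` (`he`, `q_prime.two_le`), reduction
`red (z / q) * 0`.  At `mid`: `z / b ∈ O` (`ker_mid`), `z ^ q / q = (z / b) ^ e * (b ^ e / q) * z` (`he`), where
`b ^ e / q ∈ O` by `b_pow` (`mem_of_red_ne_zero`). -/
theorem Rad.pow_q_div {z : F0} (hz : T.Rad z) : T.Rad (z ^ T.q / (T.q : F0)) := by
  have key : ∀ (i : Cp) (w z' : F0), w ∈ (T.R i).O → z' ∈ (T.R i).O → T.red i z' = 0 →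
      w * z' ∈ (T.R i).O ∧ T.red i (w * z') = 0 := by
    intro i w z' hw hz' h0
    refine ⟨(T.R i).O.mul_mem _ _ hw hz', ?_⟩
    have h0' : (T.R i).red z' = 0 := h0
    change (T.R i).red (w * z') = 0
    rw [(T.R i).red_mul hw hz', h0', mul_zero]
  have he1 : T.e ≠ 0 := by
    have h1 := T.q_prime.two_le
    have h2 := T.he
    omega
  have hq : (T.q : F0) ≠ 0 := T.q_ne'
  have hb : T.b ≠ 0 := T.b_ne
  have hpe : ∀ i, T.red i (z ^ T.e) = 0 := fun i => by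
    rw [T.red_pow (hz.1 i), hz.2 i, zero_pow he1]
  have hpow : z ^ T.q = z ^ T.e * z := by rw [← T.he, pow_succ]
  have all : ∀ i, z ^ T.q / (T.q : F0) ∈ (T.R i).O ∧ T.red i (z ^ T.q / (T.q : F0)) = 0 := by
    intro i
    cases i with
    | oo =>
      have h1 : z ^ T.q / (T.q : F0) = (z / (T.q : F0)) * z ^ T.e := by
        rw [hpow]; field_simp
      rw [h1]
      exact key _ _ _ (T.ker_oo z (hz.1 _) (hz.2 _)) ((T.R _).O.pow_mem (hz.1 _) _) (hpe _)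
    | zr =>
      have h1 : z ^ T.q / (T.q : F0) = (z / (T.q : F0)) * z ^ T.e := by
        rw [hpow]; field_simp
      rw [h1]
      exact key _ _ _ (T.ker_zr z (hz.1 _) (hz.2 _)) ((T.R _).O.pow_mem (hz.1 _) _) (hpe _)
    | mid =>
      have h1 : z ^ T.q / (T.q : F0) = ((z / T.b) ^ T.e * (T.b ^ T.e / (T.q : F0))) * z := by
        rw [hpow, div_pow]; field_simp
      rw [h1]
      exact key _ _ _ ((T.R _).O.mul_mem _ _ ((T.R _).O.pow_mem (T.ker_mid z (hz.1 _) (hz.2 _)) _)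
        ((T.R _).mem_of_red_ne_zero T.b_pow)) (hz.1 _) (hz.2 _)
  exact ⟨fun i => (all i).1, fun i => (all i).2⟩

/-- LEAF RC-E3. One step.  PROOF. Work in the subring `{z | T.Int z}` of `F0` (or apply
`exists_add_pow_prime_eq T.q_prime` to elements of that subring): `(v + w) ^ q = v ^ q + w ^ q + q * v * w * ρ` with
`ρ` integral.  With `w = q ^ s * z`: `w ^ q = q ^ (s + 1) * (q ^ (s * q - s) * (z ^ q / q))` (`s ≤ s * q`) and
`q * v * w * ρ = q ^ (s + 1) * (v * ρ * z)`; `Rad.pow_q_div`, `Rad.mul_left`, `Rad.add`. -/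
theorem exists_pow_q_sub {u v z : F0} (hu : T.Int u) (hv : T.Int v) (hz : T.Rad z) (s : ℕ)
    (h : u - v = (T.q : F0) ^ s * z) :
    ∃ z' : F0, T.Rad z' ∧ u ^ T.q - v ^ T.q = (T.q : F0) ^ (s + 1) * z' := by
  let Rg : Subring F0 := ⨅ i, (T.R i).O.toSubring
  have hmem : ∀ x, x ∈ Rg ↔ T.Int x := fun x => by
    simp only [Rg, Subring.mem_iInf]
    rfl
  have hqI : T.Int (T.q : F0) := fun i => T.q_mem i
  have hq : (T.q : F0) ≠ 0 := T.q_ne'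
  have hwI : T.Int ((T.q : F0) ^ s * z) := (hqI.pow s).mul hz.1
  obtain ⟨ρ, hρ⟩ := exists_add_pow_prime_eq T.q_prime (⟨v, (hmem v).mpr hv⟩ : Rg)
    ⟨(T.q : F0) ^ s * z, (hmem _).mpr hwI⟩
  have hρ' : (v + (T.q : F0) ^ s * z) ^ T.q
      = v ^ T.q + ((T.q : F0) ^ s * z) ^ T.q + (T.q : F0) * v * ((T.q : F0) ^ s * z) * (ρ : F0) := by
    have h1 := congrArg (Subtype.val) hρ
    simpa using h1
  have hρI : T.Int (ρ : F0) := (hmem _).mp ρ.2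
  have hu' : u = v + (T.q : F0) ^ s * z := by rw [← h]; ring
  have hle : s ≤ s * T.q := Nat.le_mul_of_pos_right s T.q_prime.pos
  have hpw : (T.q : F0) ^ (s * T.q) = (T.q : F0) ^ s * (T.q : F0) ^ (s * T.q - s) := by
    rw [← pow_add]
    congr 1
    omega
  refine ⟨(T.q : F0) ^ (s * T.q - s) * (z ^ T.q / (T.q : F0)) + (v * (ρ : F0)) * z,
    Rad.add (Rad.mul_left (hqI.pow _) (Rad.pow_q_div hz)) (Rad.mul_left (hv.mul hρI) hz), ?_⟩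
  rw [hu', hρ', mul_pow, ← pow_mul, hpw]
  field_simp
  ring

/-- (L3) (induction on `r` with `exists_pow_q_sub`; `pow_succ`, `pow_mul`). -/
theorem exists_pow_pow_sub {u v : F0} (hu : T.Int u) (hv : T.Int v) (h : T.Rad (u - v)) (r : ℕ) :
    ∃ z : F0, T.Rad z ∧ u ^ (T.q ^ r) - v ^ (T.q ^ r) = (T.q : F0) ^ r * z := by
  induction r with
  | zero => exact ⟨u - v, h, by simp⟩
  | succ r ih =>
    obtain ⟨z, hz, he⟩ := ih
    obtain ⟨z', hz', he'⟩ := exists_pow_q_sub (hu.pow (T.q ^ r)) (hv.pow (T.q ^ r)) hz r he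
    exact ⟨z', hz', by rw [pow_succ, pow_mul, pow_mul]; exact he'⟩

end Tri

namespace Kum

variable {T : Tri K0 F0 k Fb} {S : Poles T} {n : ℕ} (κ : Kum S n)

/-- LEAF RC-E2. (`mem_Mf`, `L_mono`, `Nat.mul_le_mul_left`.) -/
theorem Mf_mono {a a' c c' : ℕ} (ha : a ≤ a') (hc : c ≤ c') : κ.Mf a c ≤ κ.Mf a' c' := by
  intro y hy
  rw [κ.mem_Mf] at hy ⊢
  exact S.L_mono (Nat.mul_le_mul_left n ha) (Nat.mul_le_mul_left n hc) hy

/-- LEAF RC-E2. (`mem_Mf`, `L_inf`, `Nat.mul_min_mul_left`-type rewriting.) -/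
theorem Mf_inf (a a' c c' : ℕ) : κ.Mf a c ⊓ κ.Mf a' c' = κ.Mf (min a a') (min c c') := by
  ext y
  rw [Submodule.mem_inf, κ.mem_Mf, κ.mem_Mf, κ.mem_Mf, ← Submodule.mem_inf, S.L_inf,
    Nat.mul_min_mul_left, Nat.mul_min_mul_left]

theorem Lam_mono {a a' c c' : ℕ} (ha : a ≤ a') (hc : c ≤ c') : κ.Lam a c ≤ κ.Lam a' c' :=
  fun _ hy => ⟨κ.Mf_mono ha hc hy.1, hy.2⟩

theorem Lam1_mono {a a' c c' : ℕ} (ha : a ≤ a') (hc : c ≤ c') : κ.Lam1 a c ≤ κ.Lam1 a' c' :=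
  fun _ hy => ⟨κ.Lam_mono ha hc hy.1, hy.2⟩

theorem Lam2_mono {a a' c c' : ℕ} (ha : a ≤ a') (hc : c ≤ c') (i : ℕ) :
    κ.Lam2 a c i ≤ κ.Lam2 a' c' i :=
  fun _ hy => ⟨κ.Lam_mono ha hc hy.1, hy.2⟩

theorem Lam1_le (a c : ℕ) : κ.Lam1 a c ≤ κ.Lam a c := fun _ hy => hy.1

theorem Lam2_le (a c i : ℕ) : κ.Lam2 a c i ≤ κ.Lam a c := fun _ hy => hy.1

/-- LEAF RC-E2. `z ∈ L a c ⟹ z ^ N ∈ L (N a) (N c)` (induction, `L_mul`, `one_mem`). -/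
theorem L_pow {a c : ℕ} {z : F0} (hz : z ∈ S.L a c) (N : ℕ) : z ^ N ∈ S.L (N * a) (N * c) := by
  induction N with
  | zero =>
    rw [pow_zero, zero_mul, zero_mul]
    exact S.one_mem
  | succ N ih =>
    rw [pow_succ, Nat.succ_mul, Nat.succ_mul]
    exact S.L_mul ih hz

/-- LEAF RC-E2. `y ∈ Λ(a, c)`, `N = n t + 1` ⟹ `y ^ N f ^ t ∈ Λ(N a, N c)`:
`(y ^ N f ^ t) ^ n f = (y ^ n f) ^ N`; `L_pow`; integrality: `Int.pow`, `Int.mul`, `int_f`. -/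
theorem pow_mul_mem_Lam {a c : ℕ} {y : F0} (hy : y ∈ κ.Lam a c) {N t : ℕ} (hN : N = n * t + 1) :
    y ^ N * κ.f ^ t ∈ κ.Lam (N * a) (N * c) := by
  refine ⟨?_, (hy.2.pow N).mul (κ.int_f.pow t)⟩
  rw [κ.mem_Mf]
  have h1 : (y ^ N * κ.f ^ t) ^ n * κ.f = (y ^ n * κ.f) ^ N := by
    subst hN
    ring
  rw [h1, Nat.mul_left_comm n N a, Nat.mul_left_comm n N c]
  exact L_pow ((κ.mem_Mf a c y).mp hy.1) N

omit κ in
theorem End_pow_mul_eq_smul (r : ℕ) (z : F0) : (T.q : F0) ^ r * z = ((T.q : K0) ^ r) • z := by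
  rw [Algebra.smul_def, map_pow, map_natCast]

/-- LEAF RC-E2. `q ^ r z ∈ Mf`, `z` integral ⟹ `z ∈ Λ` (`Mf` is a `K0`-subspace, `q ≠ 0`). -/
theorem mem_Lam_of_pow_mul {a c r : ℕ} {z : F0} (hz : T.Int z)
    (h : (T.q : F0) ^ r * z ∈ κ.Mf a c) : z ∈ κ.Lam a c := by
  refine ⟨?_, hz⟩
  rw [End_pow_mul_eq_smul] at h
  exact (Submodule.smul_mem_iff _ (pow_ne_zero r T.q_ne)).mp h

/-- LEAF RC-E2. `q ^ r Λ ⊆ Λ`. -/
theorem pow_mul_mem_Lam' {a c : ℕ} {z : F0} (hz : z ∈ κ.Lam a c) (r : ℕ) :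
    (T.q : F0) ^ r * z ∈ κ.Lam a c := by
  refine ⟨?_, Tri.Int.mul (Tri.Int.pow (fun i => T.q_mem i) r) hz.2⟩
  rw [End_pow_mul_eq_smul]
  exact Submodule.smul_mem _ _ hz.1

variable [IsFF k Fb] [IsAlgClosed k]

/-- LEAF RC-E4 (L1), one step.  PROOF. Let `a₂ ≥ a₁` be such that `h¹(E i a c - B) = 0` for `a + c ≥ a₂` and
`(i, B) ∈ {(oo, 0), (zr, DD), (mid, Bd j), j < e}` (`Poles.exists_h1_E_eq_zero`; a finite maximum, e.g.
`Finset.sup` over `Finset.range T.e`).  Apply `Lam_le_of_img_le A C N` to `N = Λ(A, c) ⊔ Λ(a, C)`.  First hypothesis: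
`imOO A C = L(E oo A C) = L(E oo A c) ⊔ L(E oo a C) = imOO A c ⊔ imOO a C` (`hF.oo` three times; use `B = 0`,
`sub_zero`; `Poles.L_E_sup`), and `imOO A c = img oo 1 (Λ(A, c)) ≤ img oo 1 (N ⊓ Λ(A, C))` by `Tri.img_mono`,
`le_sup_left`, `Lam_mono`.  The same for `imZR` (`Lam1_mono`, `Lam1_le`) and `imMID` (`Lam2_mono`, `Lam2_le`). -/
theorem exists_Lam_le_sup {a₁ : ℕ} (hF : Full κ a₁) :
    ∃ a₂ : ℕ, ∀ a A c C : ℕ, a₂ ≤ a + c → a ≤ A → c ≤ C →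
      κ.Lam A C ≤ κ.Lam A c ⊔ κ.Lam a C := by
  obtain ⟨b1, hb1⟩ := S.exists_h1_E_eq_zero Cp.oo 0
  obtain ⟨b2, hb2⟩ := S.exists_h1_E_eq_zero Cp.zr S.DD
  choose b3 hb3 using fun j => S.exists_h1_E_eq_zero Cp.mid (S.Bd j)
  refine ⟨a₁ + b1 + b2 + ∑ j ∈ Finset.range T.e, b3 j, fun a A c C hac ha hc => ?_⟩
  have hb3le : ∀ j < T.e, b3 j ≤ ∑ j ∈ Finset.range T.e, b3 j := fun j hj =>
    Finset.single_le_sum (f := b3) (fun _ _ => Nat.zero_le _) (Finset.mem_range.mpr hj)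
  apply κ.Lam_le_of_img_le A C (κ.Lam A c ⊔ κ.Lam a C)
  · have h := S.L_E_sup Cp.oo 0 ha hc (hb1 a c (by omega))
    rw [sub_zero, sub_zero, sub_zero] at h
    rw [hF.oo A C (by omega), ← h, ← hF.oo A c (by omega), ← hF.oo a C (by omega)]
    exact sup_le
      (T.img_mono _ _ (le_inf le_sup_left (κ.Lam_mono le_rfl hc)))
      (T.img_mono _ _ (le_inf le_sup_right (κ.Lam_mono ha le_rfl)))
  · have h := S.L_E_sup Cp.zr S.DD ha hc (hb2 a c (by omega))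
    rw [hF.zr A C (by omega), ← h, ← hF.zr A c (by omega), ← hF.zr a C (by omega)]
    exact sup_le
      (T.img_mono _ _ (le_inf ((κ.Lam1_le A c).trans le_sup_left) (κ.Lam1_mono le_rfl hc)))
      (T.img_mono _ _ (le_inf ((κ.Lam1_le a C).trans le_sup_right) (κ.Lam1_mono ha le_rfl)))
  · intro i hi
    have h3 := hb3le i hi
    have h := S.L_E_sup Cp.mid (S.Bd i) ha hc (hb3 i a c (by omega))
    rw [hF.mid A C i (by omega) hi, ← h, ← hF.mid A c i (by omega) hi,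
      ← hF.mid a C i (by omega) hi]
    exact sup_le
      (T.img_mono _ _ (le_inf ((κ.Lam2_le A c i).trans le_sup_left) (κ.Lam2_mono le_rfl hc i)))
      (T.img_mono _ _ (le_inf ((κ.Lam2_le a C i).trans le_sup_right) (κ.Lam2_mono ha le_rfl i)))

/-- (L1) -/
theorem exists_Lam_le_sup₃ {a₁ : ℕ} (hF : Full κ a₁) :
    ∃ a₂ : ℕ, ∀ A : ℕ, a₂ ≤ A → κ.Lam A A ≤ κ.Lam A 0 ⊔ κ.Lam 0 A ⊔ κ.Lam a₂ a₂ := by
  obtain ⟨a₂, h⟩ := κ.exists_Lam_le_sup hF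
  refine ⟨a₂, fun A hA => ?_⟩
  have h1 := h a₂ A 0 A (by omega) hA (Nat.zero_le _)
  have h2 := h 0 a₂ a₂ A (by omega) (Nat.zero_le _) hA
  refine h1.trans (sup_le (le_sup_of_le_left le_sup_left) (h2.trans (sup_le le_sup_right ?_)))
  exact le_sup_of_le_left le_sup_right

omit [IsFF k Fb] [IsAlgClosed k] in
/-- abstract form of RC-E5. -/
theorem torsion_bound_aux {R Md : Type*} [CommRing R] [IsNoetherianRing R] [AddCommGroup Md]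
    [Module R Md] (L : Submodule R Md) (hL : L.FG) (W : ℕ → Submodule R Md) (hW : Monotone W)
    (π : R) :
    ∃ c₁ A₁ : ℕ, ∀ z ∈ L, (∃ r A : ℕ, π ^ r • z ∈ W A) → π ^ c₁ • z ∈ W A₁ := by
  classical
  let Z' : Submodule R Md :=
    { carrier := {z | z ∈ L ∧ ∃ r A : ℕ, π ^ r • z ∈ W A}
      zero_mem' := ⟨L.zero_mem, 0, 0, by simp⟩
      add_mem' := by
        rintro y z ⟨hy, r, A, h⟩ ⟨hz, r', A', h'⟩
        refine ⟨L.add_mem hy hz, r + r', max A A', ?_⟩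
        rw [smul_add]
        refine (W _).add_mem ?_ ?_
        · rw [pow_add, mul_comm, mul_smul]
          exact (W _).smul_mem _ (hW (le_max_left _ _) h)
        · rw [pow_add, mul_smul]
          exact (W _).smul_mem _ (hW (le_max_right _ _) h')
      smul_mem' := by
        rintro a z ⟨hz, r, A, h⟩
        exact ⟨L.smul_mem a hz, r, A, by rw [smul_comm]; exact (W A).smul_mem a h⟩ }
  have hZ : Z'.FG := by
    have h1 : IsNoetherian R L := isNoetherian_of_fg_of_noetherian L hL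
    exact isNoetherian_submodule.1 h1 Z' (fun z hz => hz.1)
  obtain ⟨s, hs⟩ := hZ
  have h1 : ∀ g : Md, ∃ r A : ℕ, g ∈ s → π ^ r • g ∈ W A := by
    intro g
    by_cases hg : g ∈ s
    · have h2 : g ∈ Z' := by
        rw [← hs]
        exact Submodule.subset_span hg
      obtain ⟨-, r, A, h⟩ := h2
      exact ⟨r, A, fun _ => h⟩
    · exact ⟨0, 0, fun h => absurd h hg⟩
  choose r A h using h1
  refine ⟨s.sup r, s.sup A, fun z hz hz' => ?_⟩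
  have h2 : z ∈ Z' := ⟨hz, hz'⟩
  rw [← hs] at h2
  have h3 : Submodule.span R (s : Set Md) ≤
      Submodule.comap (LinearMap.lsmul R Md (π ^ s.sup r)) (W (s.sup A)) := by
    rw [Submodule.span_le]
    intro g hg
    have hg' : g ∈ s := hg
    show π ^ s.sup r • g ∈ W (s.sup A)
    have h4 : r g ≤ s.sup r := Finset.le_sup hg'
    have h5 : A g ≤ s.sup A := Finset.le_sup hg'
    obtain ⟨d, hd⟩ := Nat.exists_eq_add_of_le h4
    rw [hd, pow_add, mul_comm, mul_smul]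
    exact (W _).smul_mem _ (hW h5 (h g hg'))
  exact h3 h2

omit [IsFF k Fb] [IsAlgClosed k] in
/-- LEAF RC-E5 (L2).  PROOF. `Z' := {z ∈ Λ(a₂, a₂) | ∃ r A, q ^ r z ∈ Λ(A, 0) ⊔ Λ(0, A)}` is an `A`-submodule
(for the sum: take the maxima of the `r`'s and of the `A`'s; `Lam_mono`, `pow_mul_mem_Lam'`-type closure of
`Λ(A, 0) ⊔ Λ(0, A)` under multiplication by `q`, which is the scalar `⟨q, T.q_mem_A⟩ : T.A`).  `Λ(a₂, a₂)` is a finitely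
generated module over the noetherian ring `T.A` (`Lam_fg`, `T.noeth`), so `Z'` is finitely generated
(`isNoetherian_of_fg_of_noetherian`, `IsNoetherian.noetherian`); take the maxima over a finite generating set
(`Submodule.span_induction` for the conclusion). -/
theorem exists_torsion_bound (a₂ : ℕ) :
    ∃ c₁ A₁ : ℕ, ∀ z ∈ κ.Lam a₂ a₂,
      (∃ r A : ℕ, (T.q : F0) ^ r * z ∈ κ.Lam A 0 ⊔ κ.Lam 0 A) →
        (T.q : F0) ^ c₁ * z ∈ κ.Lam A₁ 0 ⊔ κ.Lam 0 A₁ := by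
  have : IsNoetherianRing T.A := T.noeth
  have e : ∀ (r : ℕ) (z : F0), (⟨(T.q : K0), T.q_mem_A⟩ : T.A) ^ r • z = (T.q : F0) ^ r * z := by
    intro r z
    rw [T.smul_eq]
    congr 1
    simp
  obtain ⟨c₁, A₁, h⟩ := torsion_bound_aux (κ.Lam a₂ a₂) (κ.Lam_fg a₂ a₂)
    (fun A => κ.Lam A 0 ⊔ κ.Lam 0 A)
    (fun A A' hA => sup_le_sup (κ.Lam_mono hA le_rfl) (κ.Lam_mono le_rfl hA))
    (⟨(T.q : K0), T.q_mem_A⟩ : T.A)
  refine ⟨c₁, A₁, fun z hz ⟨r, A, hr⟩ => ?_⟩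
  rw [← e]
  exact h z hz ⟨r, A, by rw [e]; exact hr⟩

include κ in
omit [IsFF k Fb] [IsAlgClosed k] in
/-- LEAF RC-E6. There are arbitrarily large `r` with `n ∣ q ^ r - 1`: `n` is prime to `q` because `(n : k) ≠ 0` and
`(q : k) = 0` (`T.redA_q`: `redA` is the ring hom `resA` on `A`, `map_natCast`); `r = φ(n) * r₀`,
`Nat.ModEq.pow_totient`. -/
theorem exists_pow_eq (r₀ : ℕ) : ∃ r t : ℕ, r₀ ≤ r ∧ T.q ^ r = n * t + 1 := by
  have hqk : ((T.q : ℕ) : k) = 0 := by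
    have h1 : ((T.q : ℕ) : K0) ∈ (T.R Cp.oo).A := natCast_mem _ _
    have h2 := T.redA_q
    rw [(T.R Cp.oo).redA_of_mem h1] at h2
    have h3 : (⟨((T.q : ℕ) : K0), h1⟩ : (T.R Cp.oo).A) = ((T.q : ℕ) : (T.R Cp.oo).A) :=
      Subtype.ext (by simp)
    rw [h3, map_natCast] at h2
    exact h2
  have hcop : Nat.Coprime T.q n := by
    rcases Nat.coprime_or_dvd_of_prime T.q_prime n with h | ⟨m, hm⟩
    · exact h
    · exfalso
      apply κ.n_ne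
      rw [hm, Nat.cast_mul, hqk, zero_mul]
  have h1 : T.q ^ (Nat.totient n * r₀) ≡ 1 [MOD n] := by
    rw [pow_mul]
    simpa using (Nat.ModEq.pow_totient hcop).pow r₀
  have h2 : 1 ≤ T.q ^ (Nat.totient n * r₀) := Nat.one_le_pow _ _ T.q_prime.pos
  obtain ⟨t, ht⟩ := (Nat.modEq_iff_dvd' h2).1 h1.symm
  refine ⟨Nat.totient n * r₀, t, Nat.le_mul_of_pos_left _ (Nat.totient_pos.2 κ.n_pos), ?_⟩
  omega

omit [IsFF k Fb] [IsAlgClosed k] in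
theorem End_red_sub (R : RedData K0 F0 k Fb) {u v : F0} (hu : u ∈ R.O) (hv : v ∈ R.O) :
    R.red (u - v) = R.red u - R.red v := by
  rw [R.red_of_mem hu, R.red_of_mem hv, R.red_of_mem (R.O.sub_mem hu hv), ← map_sub]
  rfl

/-- LEAF RC-E7 (L4) **assembly**.  PROOF. `a₂` from `exists_Lam_le_sup₃`, `(c₁, A₁)` from `exists_torsion_bound a₂`,
`(r, t)` from `exists_pow_eq (c₁ + 1)`.  Replace `a` by `a' = a + a₂ + 1` (`Lam_mono`), `A := q ^ r * a' ≥ a₂`.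
`Yᵢ := yᵢ ^ (q ^ r) * f ^ t`, `Y₁ ∈ Λ(A, 0)`, `Y₂ ∈ Λ(0, A)` (`pow_mul_mem_Lam`, `mul_zero`).
`y₁ - y₂ ∈ rad` (`hred`, `red_sub`), so `y₁ ^ (q ^ r) - y₂ ^ (q ^ r) = q ^ r z'` (`Tri.exists_pow_pow_sub`); `z := z' f ^ t` is
integral and `q ^ r z = Y₁ - Y₂ ∈ Mf A A`, so `z ∈ Λ(A, A)` (`mem_Lam_of_pow_mul`); `z = z₁ + z₂ + z₃`
(`Submodule.mem_sup`).  `q ^ r z₃ = (Y₁ - q ^ r z₁) + (- Y₂ - q ^ r z₂) ∈ Λ(A, 0) ⊔ Λ(0, A)`, hence
`q ^ c₁ z₃ = u₁ + u₂`, `u₁ ∈ Λ(A₁, 0)`, `u₂ ∈ Λ(0, A₁)`.  Put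
`y := Y₁ - q ^ r z₁ - q ^ (r - c₁) u₁ = Y₂ + q ^ r z₂ + q ^ (r - c₁) u₂`.  It lies in
`Mf (max A A₁) 0 ⊓ Mf 0 (max A A₁) = Mf 0 0` (`Mf_inf`), and `red_oo y = red_oo Y₁ = 1` because `r ≥ 1`, `r - c₁ ≥ 1`
(`T.red_q`, `red_mul`, `red_pow`, `κ.red_f`, `hoo`); so `y ≠ 0`. -/
theorem exists_ne_zero_mem_Mf_zero {a₁ : ℕ} (hF : Full κ a₁) {a : ℕ} {y₁ y₂ : F0}
    (h₁ : y₁ ∈ κ.Lam a 0) (h₂ : y₂ ∈ κ.Lam 0 a) (hoo : T.red Cp.oo y₁ = 1)
    (hred : ∀ i, T.red i y₁ = T.red i y₂) : ∃ y : F0, y ≠ 0 ∧ y ∈ κ.Mf 0 0 := by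
  obtain ⟨a₂, hL1⟩ := κ.exists_Lam_le_sup₃ hF
  obtain ⟨c₁, A₁, hT⟩ := κ.exists_torsion_bound a₂
  obtain ⟨r, t, hr, hrt⟩ := κ.exists_pow_eq (c₁ + 1)
  have hqpos : 0 < T.q ^ r := pow_pos T.q_prime.pos r
  obtain ⟨A, hAdef⟩ : ∃ A, A = T.q ^ r * (a + a₂ + 1) := ⟨_, rfl⟩
  have hA : a₂ ≤ A := by
    rw [hAdef]
    calc a₂ ≤ 1 * (a + a₂ + 1) := by omega
      _ ≤ T.q ^ r * (a + a₂ + 1) := Nat.mul_le_mul_right _ hqpos
  have h₁' : y₁ ∈ κ.Lam (a + a₂ + 1) 0 := κ.Lam_mono (by omega) le_rfl h₁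
  have h₂' : y₂ ∈ κ.Lam 0 (a + a₂ + 1) := κ.Lam_mono le_rfl (by omega) h₂
  have hY₁ : y₁ ^ (T.q ^ r) * κ.f ^ t ∈ κ.Lam A 0 := by
    have := κ.pow_mul_mem_Lam h₁' hrt
    rwa [mul_zero, ← hAdef] at this
  have hY₂ : y₂ ^ (T.q ^ r) * κ.f ^ t ∈ κ.Lam 0 A := by
    have := κ.pow_mul_mem_Lam h₂' hrt
    rwa [mul_zero, ← hAdef] at this
  have hrad : T.Rad (y₁ - y₂) :=
    ⟨h₁.2.sub h₂.2, fun i => by
      rw [Tri.red, End_red_sub _ (h₁.2 i) (h₂.2 i)]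
      exact sub_eq_zero.mpr (hred i)⟩
  obtain ⟨z', hz', hz'e⟩ := Tri.exists_pow_pow_sub h₁.2 h₂.2 hrad r
  have hzint : T.Int (z' * κ.f ^ t) := hz'.1.mul (κ.int_f.pow t)
  have hzeq : (T.q : F0) ^ r * (z' * κ.f ^ t) =
      y₁ ^ (T.q ^ r) * κ.f ^ t - y₂ ^ (T.q ^ r) * κ.f ^ t := by
    rw [← mul_assoc, ← hz'e, sub_mul]
  have hzL : z' * κ.f ^ t ∈ κ.Lam A A := by
    refine κ.mem_Lam_of_pow_mul (r := r) hzint ?_
    rw [hzeq]
    exact Submodule.sub_mem _ (κ.Mf_mono le_rfl (Nat.zero_le _) hY₁.1)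
      (κ.Mf_mono (Nat.zero_le _) le_rfl hY₂.1)
  obtain ⟨z12, hz12, z₃, hz₃, hzsum⟩ := Submodule.mem_sup.mp (hL1 A hA hzL)
  obtain ⟨z₁, hz₁, z₂, hz₂, hz12sum⟩ := Submodule.mem_sup.mp hz12
  have hq3 : (T.q : F0) ^ r * z₃ ∈ κ.Lam A 0 ⊔ κ.Lam 0 A := by
    have : (T.q : F0) ^ r * z₃ = (y₁ ^ (T.q ^ r) * κ.f ^ t - (T.q : F0) ^ r * z₁) +
        (-(y₂ ^ (T.q ^ r) * κ.f ^ t) - (T.q : F0) ^ r * z₂) := by
      have e1 : (T.q : F0) ^ r * (z₁ + z₂ + z₃) =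
          y₁ ^ (T.q ^ r) * κ.f ^ t - y₂ ^ (T.q ^ r) * κ.f ^ t := by
        rw [hz12sum, hzsum, hzeq]
      linear_combination e1
    rw [this]
    exact Submodule.add_mem_sup (Submodule.sub_mem _ hY₁ (κ.pow_mul_mem_Lam' hz₁ r))
      (Submodule.sub_mem _ (Submodule.neg_mem _ hY₂) (κ.pow_mul_mem_Lam' hz₂ r))
  obtain ⟨u₁, hu₁, u₂, hu₂, husum⟩ := Submodule.mem_sup.mp (hT z₃ hz₃ ⟨r, A, hq3⟩)
  obtain ⟨s, hs⟩ : ∃ s, r = c₁ + (s + 1) := ⟨r - c₁ - 1, by omega⟩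
  obtain ⟨r', hr'⟩ : ∃ r', r = r' + 1 := ⟨r - 1, by omega⟩
  obtain ⟨B, hBdef⟩ : ∃ B, B = max A A₁ := ⟨_, rfl⟩
  have hAB : A ≤ B := hBdef ▸ le_max_left _ _
  have hA₁B : A₁ ≤ B := hBdef ▸ le_max_right _ _
  have hy1 : y₁ ^ (T.q ^ r) * κ.f ^ t - (T.q : F0) ^ r * z₁ - (T.q : F0) ^ (s + 1) * u₁ ∈
      κ.Lam B 0 :=
    Submodule.sub_mem _ (Submodule.sub_mem _ (κ.Lam_mono hAB le_rfl hY₁)
      (κ.Lam_mono hAB le_rfl (κ.pow_mul_mem_Lam' hz₁ r)))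
      (κ.Lam_mono hA₁B le_rfl (κ.pow_mul_mem_Lam' hu₁ (s + 1)))
  have hy2 : y₂ ^ (T.q ^ r) * κ.f ^ t + (T.q : F0) ^ r * z₂ + (T.q : F0) ^ (s + 1) * u₂ ∈
      κ.Lam 0 B :=
    Submodule.add_mem _ (Submodule.add_mem _ (κ.Lam_mono le_rfl hAB hY₂)
      (κ.Lam_mono le_rfl hAB (κ.pow_mul_mem_Lam' hz₂ r)))
      (κ.Lam_mono le_rfl hA₁B (κ.pow_mul_mem_Lam' hu₂ (s + 1)))
  have hyeq : y₁ ^ (T.q ^ r) * κ.f ^ t - (T.q : F0) ^ r * z₁ - (T.q : F0) ^ (s + 1) * u₁ =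
      y₂ ^ (T.q ^ r) * κ.f ^ t + (T.q : F0) ^ r * z₂ + (T.q : F0) ^ (s + 1) * u₂ := by
    have e1 : (T.q : F0) ^ r * (z₁ + z₂ + z₃) =
        y₁ ^ (T.q ^ r) * κ.f ^ t - y₂ ^ (T.q ^ r) * κ.f ^ t := by
      rw [hz12sum, hzsum, hzeq]
    have e2 : (T.q : F0) ^ r * z₃ = (T.q : F0) ^ (s + 1) * (u₁ + u₂) := by
      rw [husum, ← mul_assoc, ← pow_add, add_comm (s + 1) c₁, ← hs]
    linear_combination (-1 : F0) * e1 + e2
  refine ⟨y₁ ^ (T.q ^ r) * κ.f ^ t - (T.q : F0) ^ r * z₁ - (T.q : F0) ^ (s + 1) * u₁, ?_, ?_⟩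
  · intro h0
    -- reduction along `oo`
    have hw : T.Int ((T.q : F0) ^ r' * z₁ + (T.q : F0) ^ s * u₁) :=
      (Tri.Int.mul (Tri.Int.pow (fun i => T.q_mem i) r') hz₁.2).add
        (Tri.Int.mul (Tri.Int.pow (fun i => T.q_mem i) s) hu₁.2)
    have e3 : y₁ ^ (T.q ^ r) * κ.f ^ t - (T.q : F0) ^ r * z₁ - (T.q : F0) ^ (s + 1) * u₁ =
        y₁ ^ (T.q ^ r) * κ.f ^ t -
          (T.q : F0) * ((T.q : F0) ^ r' * z₁ + (T.q : F0) ^ s * u₁) := by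
      rw [hr']; ring
    have e4 : T.red Cp.oo (y₁ ^ (T.q ^ r) * κ.f ^ t -
        (T.q : F0) * ((T.q : F0) ^ r' * z₁ + (T.q : F0) ^ s * u₁)) = 1 := by
      rw [Tri.red, End_red_sub _ (hY₁.2 Cp.oo) ((T.R Cp.oo).O.mul_mem _ _ (T.q_mem Cp.oo) (hw Cp.oo)),
        (T.R Cp.oo).red_mul (T.q_mem Cp.oo) (hw Cp.oo),
        (T.R Cp.oo).red_mul ((T.R Cp.oo).O.pow_mem (h₁.2 Cp.oo) _)
          ((T.R Cp.oo).O.pow_mem (κ.int_f Cp.oo) _)]
      have f1 : (T.R Cp.oo).red (T.q : F0) = 0 := T.red_q Cp.oo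
      have f2 : (T.R Cp.oo).red (y₁ ^ (T.q ^ r)) = 1 := by
        have := T.red_pow (h₁.2 Cp.oo) (T.q ^ r)
        rw [hoo, one_pow] at this
        exact this
      have f3 : (T.R Cp.oo).red (κ.f ^ t) = 1 := by
        have := T.red_pow (κ.int_f Cp.oo) t
        rw [κ.red_f, one_pow] at this
        exact this
      rw [f1, f2, f3, zero_mul, mul_one, sub_zero]
    rw [← e3, h0, Tri.red, (T.R Cp.oo).red_of_mem (T.R Cp.oo).O.zero_mem] at e4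
    have : (T.R Cp.oo).res (⟨0, (T.R Cp.oo).O.zero_mem⟩ : (T.R Cp.oo).O) = 0 := map_zero _
    rw [this] at e4
    exact zero_ne_one e4
  · have hmem : y₁ ^ (T.q ^ r) * κ.f ^ t - (T.q : F0) ^ r * z₁ - (T.q : F0) ^ (s + 1) * u₁ ∈
        κ.Mf B 0 ⊓ κ.Mf 0 B := ⟨hy1.1, by rw [hyeq]; exact hy2.1⟩
    rw [κ.Mf_inf, Nat.min_zero, Nat.zero_min] at hmem
    exact hmem

/-- **Output of step (5)**: `f` is a constant times an `n`-th power. -/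
theorem exists_eq_mul_pow {a₁ : ℕ} (hF : Full κ a₁) {a : ℕ} {y₁ y₂ : F0}
    (h₁ : y₁ ∈ κ.Lam a 0) (h₂ : y₂ ∈ κ.Lam 0 a) (hoo : T.red Cp.oo y₁ = 1)
    (hred : ∀ i, T.red i y₁ = T.red i y₂) :
    ∃ (w : F0) (c : K0), w ≠ 0 ∧ κ.f = algebraMap K0 F0 c * w ^ n := by
  obtain ⟨y, hy0, hy⟩ := κ.exists_ne_zero_mem_Mf_zero hF h₁ h₂ hoo hred
  rw [κ.mem_Mf, mul_zero] at hy
  obtain ⟨c, hc⟩ := S.L_zero _ hy
  refine ⟨y⁻¹, c, inv_ne_zero hy0, ?_⟩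
  rw [← hc, inv_pow]
  field_simp

end Kum

end Fermat.Agent.S36.RC
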