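import Fermat.Agent.S36.RC.Bound
import Fermat.Agent.S36.RC.End

/-!
# S36/RC: the dimension count: all the graded pieces are full Riemann-Roch spaces
-/

set_option autoImplicit false

noncomputable section

namespace Fermat.Agent.S36.RC

open AlgebraicCurve Fermat.Agent.Lib.RR Fermat.Agent.GAL.RED

variable {K0 F0 k Fb : Type*} [Field K0] [Field F0] [Algebra K0 F0]
  [Field k] [Field Fb] [Algebra k Fb] [IsAlgClosed k] [IsFF k Fb]

namespace Poles

variable {T : Tri K0 F0 k Fb} (S : Poles T)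

/-- LEAF RC-C1. Sum `le_DD_iff` (with `x = DD P`) over the support; all places have degree one
(`GAL.FF.deg_eq_one_of_isAlgClosed`). -/
theorem degree_DD : Divisor.degree S.m ≤ (S.M : ℤ) * Divisor.degree S.DD := by
  have h : S.m ≤ (S.M : ℤ) • S.DD := by
    intro P
    rw [Finsupp.smul_apply, smul_eq_mul]
    exact (S.le_DD_iff P (S.DD P)).1 le_rfl
  have h1 := degree_mono h
  rwa [map_zsmul, smul_eq_mul] at h1

/-- LEAF RC-C1. Sum `le_Bd_iff` (with `x = Bd i P`) over a common support; `degree_divOf`. -/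
theorem degree_Bd (i : ℕ) :
    2 * ((T.e : ℤ) - i) * Divisor.degree S.m ≤ (T.e : ℤ) * S.M * Divisor.degree (S.Bd i) := by
  have h : (2 * ((T.e : ℤ) - i)) • S.m - ((i : ℤ) * S.M) • divOf (K := k) T.G
      ≤ ((T.e : ℤ) * S.M) • S.Bd i := by
    intro P
    rw [Finsupp.sub_apply, Finsupp.smul_apply, Finsupp.smul_apply, Finsupp.smul_apply, smul_eq_mul,
      smul_eq_mul, smul_eq_mul, divOf_apply]
    exact (S.le_Bd_iff i P (S.Bd i P)).1 le_rfl
  have h1 := degree_mono h
  rwa [map_sub, map_zsmul, map_zsmul, map_zsmul, degree_divOf, smul_zero, sub_zero, smul_eq_mul,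
    smul_eq_mul] at h1

/-- all the divisors of the count are non special. -/
def Big (a c : ℕ) : Prop :=
  2 * (genusFF k Fb : ℤ) - 2 < Divisor.degree (S.E Cp.oo a c) ∧
  2 * (genusFF k Fb : ℤ) - 2 < Divisor.degree (S.E Cp.zr a c - S.DD) ∧
  ∀ i < T.e, 2 * (genusFF k Fb : ℤ) - 2 < Divisor.degree (S.E Cp.mid a c - S.Bd i)

/-- LEAF RC-C2. `degree_E`, `d_pos`. -/
theorem Big.mono {a c a' c' : ℕ} (h : S.Big a c) (ha : a ≤ a') (hc : c ≤ c') : S.Big a' c' := by
  have key : ∀ i, Divisor.degree (S.E i a c) ≤ Divisor.degree (S.E i a' c') := by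
    intro i
    rw [S.degree_E, S.degree_E]
    exact mul_le_mul_of_nonneg_right (by exact_mod_cast Nat.add_le_add ha hc) (S.d_pos i).le
  obtain ⟨h1, h2, h3⟩ := h
  refine ⟨lt_of_lt_of_le h1 (key _), ?_, fun i hi => ?_⟩
  · rw [map_sub] at h2 ⊢
    have := key Cp.zr
    linarith
  · have h4 := h3 i hi
    rw [map_sub] at h4 ⊢
    have := key Cp.mid
    linarith

/-- LEAF RC-C2. `degree_E`, `d_pos`; finitely many conditions. -/
theorem exists_big : ∃ N0 : ℕ, ∀ a c : ℕ, N0 ≤ a + c → S.Big a c := by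
  set B : ℤ := 2 * (genusFF k Fb : ℤ) - 2 + |Divisor.degree S.DD| +
    ∑ i ∈ Finset.range T.e, |Divisor.degree (S.Bd i)| with hB
  refine ⟨B.toNat + 1, fun a c hac => ?_⟩
  have h0 : B < (a : ℤ) + c := by
    have := Int.self_le_toNat B
    have h' : ((B.toNat + 1 : ℕ) : ℤ) ≤ ((a + c : ℕ) : ℤ) := by exact_mod_cast hac
    push_cast at h'
    linarith
  have hpos : 0 ≤ (a : ℤ) + c := by positivity
  have key : ∀ i, (a : ℤ) + c ≤ Divisor.degree (S.E i a c) := by
    intro i
    rw [S.degree_E]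
    have := S.d_pos i
    nlinarith
  have hs : 0 ≤ ∑ i ∈ Finset.range T.e, |Divisor.degree (S.Bd i)| :=
    Finset.sum_nonneg fun _ _ => abs_nonneg _
  refine ⟨?_, ?_, fun i hi => ?_⟩
  · have := key Cp.oo
    have := abs_nonneg (Divisor.degree S.DD)
    linarith
  · rw [map_sub]
    have := key Cp.zr
    have := le_abs_self (Divisor.degree S.DD)
    linarith
  · rw [map_sub]
    have := key Cp.mid
    have h1 : |Divisor.degree (S.Bd i)| ≤ ∑ i ∈ Finset.range T.e, |Divisor.degree (S.Bd i)| :=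
      Finset.single_le_sum (f := fun i => |Divisor.degree (S.Bd i)|) (fun _ _ => abs_nonneg _)
        (Finset.mem_range.2 hi)
    have := le_abs_self (Divisor.degree (S.Bd i))
    have := abs_nonneg (Divisor.degree S.DD)
    linarith

theorem Count_sum_two_mul_sub (E : ℤ) (n : ℕ) :
    ∑ i ∈ Finset.range n, 2 * (E - i) = 2 * n * E - n * (n - 1) := by
  induction n with
  | zero => simp
  | succ n ih =>
    rw [Finset.sum_range_succ, ih]
    push_cast
    ring

/-- LEAF RC-C3 (numerics). `ell_eq_of_lt_degree'`, `degree_E`, `degree_DD`, `degree_Bd`,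
`Σ_{i<e} 2 (e - i) = e (e + 1)`, `genus_le`. -/
theorem sum_ell_le {a c : ℕ} (h : S.Big a c) :
    (ell (S.E Cp.oo a c) : ℤ) + ell (S.E Cp.zr a c - S.DD) +
      ∑ i ∈ Finset.range T.e, (ell (S.E Cp.mid a c - S.Bd i) : ℤ) ≤
    ((a : ℤ) + c) * S.nF + 1 - S.g := by
  obtain ⟨h1, h2, h3⟩ := h
  have he : (0 : ℤ) < T.e := by
    have h4 := T.q_prime.two_le
    have h5 := T.he
    have : 0 < T.e := by omega
    exact_mod_cast this
  have hM : (0 : ℤ) < S.M := by exact_mod_cast S.M_pos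
  rw [ell_eq_of_lt_degree' h1, ell_eq_of_lt_degree' h2,
    Finset.sum_congr rfl (fun i hi => ell_eq_of_lt_degree' (h3 i (Finset.mem_range.1 hi)))]
  simp only [map_sub, degree_E]
  have hsum : ∑ i ∈ Finset.range T.e,
      (((a : ℤ) + c) * S.d Cp.mid - Divisor.degree (S.Bd i) + 1 - (genusFF k Fb : ℤ))
      = T.e * (((a : ℤ) + c) * S.d Cp.mid + 1 - (genusFF k Fb : ℤ))
        - ∑ i ∈ Finset.range T.e, Divisor.degree (S.Bd i) := by
    rw [Finset.sum_congr rfl (fun i _ => show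
      ((a : ℤ) + c) * S.d Cp.mid - Divisor.degree (S.Bd i) + 1 - (genusFF k Fb : ℤ)
        = (((a : ℤ) + c) * S.d Cp.mid + 1 - (genusFF k Fb : ℤ)) - Divisor.degree (S.Bd i) by ring),
      Finset.sum_sub_distrib, Finset.sum_const, Finset.card_range, nsmul_eq_mul]
  rw [hsum]
  generalize hB : ∑ i ∈ Finset.range T.e, Divisor.degree (S.Bd i) = B
  have hB1 : (T.e : ℤ) * (((T.e : ℤ) + 1) * Divisor.degree S.m) ≤ (T.e : ℤ) * (S.M * B) := by
    have h4 := Finset.sum_le_sum (s := Finset.range T.e) (fun i _ => S.degree_Bd i)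
    rw [← Finset.sum_mul, Count_sum_two_mul_sub, ← Finset.mul_sum, hB] at h4
    linarith
  have hB2 : ((T.e : ℤ) + 1) * Divisor.degree S.m ≤ S.M * B := le_of_mul_le_mul_left hB1 he
  have hD := S.degree_DD
  have hg := S.genus_le
  have key : S.g - 1 ≤ ((T.e : ℤ) + 2) * ((genusFF k Fb : ℤ) - 1) + Divisor.degree S.DD + B := by
    apply le_of_mul_le_mul_left _ hM
    linarith
  unfold Poles.nF
  linarith

end Poles

namespace Kum

variable {T : Tri K0 F0 k Fb} {S : Poles T} {n : ℕ} (κ : Kum S n)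

/-- the range where the count works. -/
def Good (a c : ℕ) : Prop := κ.a0 ≤ a + c ∧ S.Big a c

variable {κ} in
theorem Good.mono {a c a' c' : ℕ} (h : κ.Good a c) (ha : a ≤ a') (hc : c ≤ c') : κ.Good a' c' :=
  ⟨by have := h.1; omega, h.2.mono S ha hc⟩

theorem exists_good : ∃ N0 : ℕ, ∀ a c : ℕ, N0 ≤ a + c → κ.Good a c := by
  obtain ⟨N0, h⟩ := S.exists_big
  exact ⟨max N0 κ.a0, fun a c hac =>
    ⟨le_trans (le_max_right _ _) hac, h a c (le_trans (le_max_left _ _) hac)⟩⟩

/-- LEAF RC-C4 (**the count**). `finrank_Mf ≤ finrank_Mf_le ≤ Σ ell ≤ sum_ell_le`, with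
`imOO_le`, `imZR_le`, `imMID_le` (`Submodule.finrank_mono`); so all the inequalities are equalities and
`Submodule.eq_of_le_of_finrank_eq`. -/
theorem count {a c : ℕ} (h : κ.Good a c) :
    κ.imOO a c = riemannRochSpace (S.E Cp.oo a c) ∧
    κ.imZR a c = riemannRochSpace (S.E Cp.zr a c - S.DD) ∧
    ∀ i < T.e, κ.imMID a c i = riemannRochSpace (S.E Cp.mid a c - S.Bd i) := by
  have l1 := κ.imOO_le a c
  have l2 := κ.imZR_le a c
  have l3 : ∀ i < T.e, κ.imMID a c i ≤ riemannRochSpace (S.E Cp.mid a c - S.Bd i) :=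
    fun i hi => κ.imMID_le a c i hi.le
  have f1 : Module.Finite k (κ.imOO a c) := Submodule.finiteDimensional_of_le l1
  have f2 : Module.Finite k (κ.imZR a c) := Submodule.finiteDimensional_of_le l2
  have f3 : ∀ i < T.e, Module.Finite k (κ.imMID a c i) :=
    fun i hi => Submodule.finiteDimensional_of_le (l3 i hi)
  have d1 : Module.finrank k (κ.imOO a c) ≤ ell (S.E Cp.oo a c) := Submodule.finrank_mono l1
  have d2 : Module.finrank k (κ.imZR a c) ≤ ell (S.E Cp.zr a c - S.DD) := Submodule.finrank_mono l2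
  have d3 : ∀ i ∈ Finset.range T.e,
      Module.finrank k (κ.imMID a c i) ≤ ell (S.E Cp.mid a c - S.Bd i) :=
    fun i hi => Submodule.finrank_mono (l3 i (Finset.mem_range.1 hi))
  have h1 := κ.finrank_Mf a c h.1
  have h2 := κ.finrank_Mf_le a c f1 f2 f3
  have h3 := S.sum_ell_le h.2
  have h4 : ell (S.E Cp.oo a c) + ell (S.E Cp.zr a c - S.DD) +
      ∑ i ∈ Finset.range T.e, ell (S.E Cp.mid a c - S.Bd i) ≤
      Module.finrank k (κ.imOO a c) + Module.finrank k (κ.imZR a c) +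
      ∑ i ∈ Finset.range T.e, Module.finrank k (κ.imMID a c i) := by
    have h5 : ((ell (S.E Cp.oo a c) + ell (S.E Cp.zr a c - S.DD) +
      ∑ i ∈ Finset.range T.e, ell (S.E Cp.mid a c - S.Bd i) : ℕ) : ℤ) ≤
        (Module.finrank K0 (κ.Mf a c) : ℤ) := by
      push_cast
      linarith
    exact le_trans (by exact_mod_cast h5) h2
  have d3s := Finset.sum_le_sum d3
  have e1 : Module.finrank k (κ.imOO a c) = ell (S.E Cp.oo a c) := by omega
  have e2 : Module.finrank k (κ.imZR a c) = ell (S.E Cp.zr a c - S.DD) := by omega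
  have e3s : ∑ i ∈ Finset.range T.e, Module.finrank k (κ.imMID a c i) =
      ∑ i ∈ Finset.range T.e, ell (S.E Cp.mid a c - S.Bd i) := by omega
  have e3 := (Finset.sum_eq_sum_iff_of_le d3).1 e3s
  exact ⟨Submodule.eq_of_le_of_finrank_eq l1 e1, Submodule.eq_of_le_of_finrank_eq l2 e2,
    fun i hi => Submodule.eq_of_le_of_finrank_eq (l3 i hi) (e3 i (Finset.mem_range.2 hi))⟩

/-- the interface of `End.lean`. -/
theorem exists_full : ∃ a₁ : ℕ, Full κ a₁ := by
  obtain ⟨N0, h⟩ := κ.exists_good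
  exact ⟨N0, ⟨fun a c hac => (κ.count (h a c hac)).1, fun a c hac => (κ.count (h a c hac)).2.1,
    fun a c i hac hi => (κ.count (h a c hac)).2.2 i hi⟩⟩

end Kum

end Fermat.Agent.S36.RC
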