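import Fermat.Agent.GAL.RED.Defs
import Fermat.Agent.Lib.PlaceEval

/-!
# S36, route RC (report 269): abstract setting

`K0` a discretely valued field (valuation ring `A`, uniformiser the prime number `q`, residue field
`k` algebraically closed), `F0 / K0` a function field, with THREE valuation rings `O oo`, `O mid`,
`O zr` of `F0` over `A`, all three with residue field the same function field `Fb / k`
(`C_oo + e C_mid + C_0` is the special fibre, `e = q - 1`).

* uniformisers: `q` for `oo`, `zr`; `b` for `mid`, `b ^ e / q` a unit of `O mid`;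
* `L a c` : the functions of `F0` with poles bounded by `a X_oo + c X_c`;
* `X i`, `Y i` : the reductions of `X_oo`, `X_c` on the component `i`;
* `int` : integral functions reduce to functions with bounded poles;
* `van_zr`, `van_mid` : a function vanishing to order `α` along `C_oo` (and `γ` along `C_0`)
  reduces on the other components to a function vanishing to order `(α + γ) m / M` along the
  "supersingular divisor" `m / M`.

Everything else (the components really meet there, the model is regular, ...) is a CONSEQUENCE of a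
dimension count, see `Count.lean`.
-/

set_option autoImplicit false

noncomputable section

namespace Fermat.Agent.S36.RC

open AlgebraicCurve Fermat.Agent.Lib.RR Fermat.Agent.GAL.RED

/-- The three components of the special fibre. -/
inductive Cp
  | oo
  | mid
  | zr
  deriving DecidableEq

/-- Three reductions of a function field over a discretely valued field. -/
structure Tri (K0 F0 k Fb : Type*) [Field K0] [Field F0] [Algebra K0 F0]
    [Field k] [Field Fb] [Algebra k Fb] where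
  /-- residue characteristic = uniformiser -/
  q : ℕ
  /-- multiplicity of the middle component -/
  e : ℕ
  q_prime : q.Prime
  he : e + 1 = q
  /-- the three reductions -/
  R : Cp → RedData K0 F0 k Fb
  hA : ∀ i, (R i).A = (R Cp.oo).A
  hredA : ∀ i a, (R i).redA a = (R Cp.oo).redA a
  noeth : IsNoetherianRing (R Cp.oo).A
  q_ne : (q : K0) ≠ 0
  redA_q : (R Cp.oo).redA (q : K0) = 0
  ker_A : ∀ a ∈ (R Cp.oo).A, (R Cp.oo).redA a = 0 → a / (q : K0) ∈ (R Cp.oo).A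
  /-- uniformiser of the middle component -/
  b : F0
  ker_oo : ∀ z ∈ (R Cp.oo).O, (R Cp.oo).red z = 0 → z / (q : F0) ∈ (R Cp.oo).O
  ker_zr : ∀ z ∈ (R Cp.zr).O, (R Cp.zr).red z = 0 → z / (q : F0) ∈ (R Cp.zr).O
  ker_mid : ∀ z ∈ (R Cp.mid).O, (R Cp.mid).red z = 0 → z / b ∈ (R Cp.mid).O
  b_oo : (R Cp.oo).red b ≠ 0
  b_zr : (R Cp.zr).red b ≠ 0
  b_mem : b ∈ (R Cp.mid).O
  b_mid : (R Cp.mid).red b = 0
  b_pow : (R Cp.mid).red (b ^ e / (q : F0)) ≠ 0
  scale : ∀ i (z : F0), ∃ N : ℕ, (q : F0) ^ N * z ∈ (R i).O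

variable {K0 F0 k Fb : Type*} [Field K0] [Field F0] [Algebra K0 F0]
  [Field k] [Field Fb] [Algebra k Fb]

namespace Tri

variable (T : Tri K0 F0 k Fb)

/-- the valuation ring of the base. -/
abbrev A : ValuationSubring K0 := (T.R Cp.oo).A

/-- the reduction along the component `i` (`0` outside the valuation ring). -/
abbrev red (i : Cp) (z : F0) : Fb := (T.R i).red z

/-- integral along the three components. -/
def Int (z : F0) : Prop := ∀ i, z ∈ (T.R i).O

/-- the function `G = red_mid (b ^ e / q)`; only `deg div G = 0` is ever used. -/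
def G : Fb := T.red Cp.mid (T.b ^ T.e / (T.q : F0))

end Tri

/-- Pole spaces, their reductions, the vanishing estimates and the numerics. -/
structure Poles (T : Tri K0 F0 k Fb) where
  /-- `L a c = L(a X_oo + c X_c)` -/
  L : ℕ → ℕ → Submodule K0 F0
  L_mono : ∀ {a a' c c' : ℕ}, a ≤ a' → c ≤ c' → L a c ≤ L a' c'
  one_mem : (1 : F0) ∈ L 0 0
  L_mul : ∀ {a a' c c' : ℕ} {y z : F0}, y ∈ L a c → z ∈ L a' c' → y * z ∈ L (a + a') (c + c')
  L_inf : ∀ a a' c c' : ℕ, L a c ⊓ L a' c' = L (min a a') (min c c')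
  L_zero : ∀ z ∈ L 0 0, ∃ a : K0, z = algebraMap K0 F0 a
  L_root : ∀ (n a c : ℕ) (z : F0), 0 < n → z ^ n ∈ L (n * a) (n * c) → z ∈ L a c
  /-- reduction of `X_oo` on the components -/
  X : Cp → Divisor k Fb
  /-- reduction of `X_c` on the components -/
  Y : Cp → Divisor k Fb
  X_nonneg : ∀ i, 0 ≤ X i
  Y_nonneg : ∀ i, 0 ≤ Y i
  XY_disj : ∀ i P, X i P = 0 ∨ Y i P = 0
  X_mid : X Cp.mid = X Cp.oo
  /-- degrees of the components over the base line -/
  d : Cp → ℤ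
  d_pos : ∀ i, 0 < d i
  deg_X : ∀ i, Divisor.degree (X i) = d i
  deg_Y : ∀ i, Divisor.degree (Y i) = d i
  /-- integrality -/
  int : ∀ (a c : ℕ) (z : F0), z ∈ L a c → T.Int z → ∀ i,
    T.red i z ∈ riemannRochSpace ((a : ℤ) • X i + (c : ℤ) • Y i)
  /-- the supersingular divisor is `m / M` -/
  m : Divisor k Fb
  M : ℕ
  M_pos : 0 < M
  m_nonneg : 0 ≤ m
  m_X : ∀ i P, m P = 0 ∨ X i P = 0
  m_Y : ∀ i P, m P = 0 ∨ Y i P = 0
  van_zr : ∀ (a c α : ℕ) (z : F0), z ∈ L a c → T.Int z → z / (T.q : F0) ^ α ∈ (T.R Cp.oo).O →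
    T.red Cp.zr z ^ M ∈ riemannRochSpace
      ((M : ℤ) • ((a : ℤ) • X Cp.zr + (c : ℤ) • Y Cp.zr) - (α : ℤ) • m)
  van_mid : ∀ (a c α γ : ℕ) (z : F0), z ∈ L a c → T.Int z →
    z / (T.q : F0) ^ α ∈ (T.R Cp.oo).O → z / (T.q : F0) ^ γ ∈ (T.R Cp.zr).O →
    T.red Cp.mid z ^ M ∈ riemannRochSpace
      ((M : ℤ) • ((a : ℤ) • X Cp.mid + (c : ℤ) • Y Cp.mid) - ((α : ℤ) + γ) • m)
  /-- genus of the generic fibre; `g - 1 ≤ (q + 1) (g' - 1 + deg m / M)` -/
  g : ℤ
  genus_le : (M : ℤ) * (g - 1) ≤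
    ((T.e : ℤ) + 2) * ((M : ℤ) * ((genusFF k Fb : ℤ) - 1) + Divisor.degree m)

namespace Poles

variable {T : Tri K0 F0 k Fb} (S : Poles T)

/-- degree of the generic fibre over the base line. -/
def nF : ℤ := S.d Cp.oo + (T.e : ℤ) * S.d Cp.mid + S.d Cp.zr

/-- `E i a c = a X_i + c Y_i`. -/
def E (i : Cp) (a c : ℕ) : Divisor k Fb := (a : ℤ) • S.X i + (c : ℤ) • S.Y i

/-- the supersingular divisor `⌈m / M⌉` (a posteriori `= m / M`). -/
def DD : Divisor k Fb := S.m.mapRange (fun x : ℤ => -((-x) / (S.M : ℤ))) (by simp)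

/-- the correction divisor of the piece `(mid, i)`:
`Bd i = ⌈(2 (e - i) m - i M div G) / (e M)⌉`. -/
def Bd [HasPrincipalDivisors k Fb] (i : ℕ) : Divisor k Fb :=
  Finsupp.zipWith
    (fun x y : ℤ => -(((i : ℤ) * S.M * y - 2 * ((T.e : ℤ) - i) * x) / ((T.e : ℤ) * S.M)))
    (by simp) S.m (divOf (K := k) T.G)

end Poles

/-- A Kummer datum: `f` with `div f = n D`, reducing to `1` on the three components;
`Mf a c = L(a X_oo + c X_c + D)`. -/
structure Kum {T : Tri K0 F0 k Fb} (S : Poles T) (n : ℕ) where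
  f : F0
  f_ne : f ≠ 0
  red_f : ∀ i, T.red i f = 1
  Mf : ℕ → ℕ → Submodule K0 F0
  mem_Mf : ∀ (a c : ℕ) (y : F0), y ∈ Mf a c ↔ y ^ n * f ∈ S.L (n * a) (n * c)
  n_pos : 0 < n
  n_ne : (n : k) ≠ 0
  /-- Riemann's inequality on the generic fibre -/
  a0 : ℕ
  finrank_Mf : ∀ a c : ℕ, a0 ≤ a + c →
    ((a : ℤ) + c) * S.nF + 1 - S.g ≤ (Module.finrank K0 (Mf a c) : ℤ)
  /-- the unit ball is bounded -/
  bdd : ∀ a c : ℕ, ∃ B : Finset F0, ∀ y ∈ Mf a c, T.Int y →
    y ∈ Submodule.span T.A (B : Set F0)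

namespace Kum

variable {T : Tri K0 F0 k Fb} {S : Poles T} {n : ℕ} (κ : Kum S n)

/-- the lattice `Λ(a, c)`: the unit ball of `Mf a c`. -/
def Lam (a c : ℕ) : Submodule T.A F0 where
  carrier := {y | y ∈ κ.Mf a c ∧ T.Int y}
  zero_mem' := ⟨Submodule.zero_mem _, fun i => (T.R i).O.zero_mem⟩
  add_mem' := fun {y z} hy hz =>
    ⟨Submodule.add_mem _ hy.1 hz.1, fun i => (T.R i).O.add_mem _ _ (hy.2 i) (hz.2 i)⟩
  smul_mem' := fun a y hy => by
    refine ⟨?_, fun i => ?_⟩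
    · have : a • y = (a : K0) • y := rfl
      rw [this]
      exact Submodule.smul_mem _ _ hy.1
    · have : a • y = algebraMap K0 F0 (a : K0) * y := by
        rw [← Algebra.smul_def]; rfl
      rw [this]
      exact (T.R i).O.mul_mem _ _ ((T.R i).algebraMap_mem _ (by rw [T.hA i]; exact a.2)) (hy.2 i)

theorem mem_Lam {a c : ℕ} {y : F0} : y ∈ κ.Lam a c ↔ y ∈ κ.Mf a c ∧ T.Int y := Iff.rfl

end Kum

/-- Old functions: `Φ` is the `q²`-Frobenius `u(t) ↦ u(t ^ (q²))` of `Fb` (only a map here).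
`oldA` : the pull back of a function of level `M'` by `t ↦ t`, `oldB` : by `t ↦ t ^ (q²)`. -/
structure Old {T : Tri K0 F0 k Fb} (S : Poles T) where
  Φ : Fb → Fb
  oldA : ∀ (a : ℕ) (u : Fb), u ∈ riemannRochSpace ((a : ℤ) • S.X Cp.oo) →
    ∃ (a' : ℕ) (U : F0), U ∈ S.L a' 0 ∧ T.Int U ∧
      T.red Cp.oo U = u ∧ T.red Cp.mid U = u ∧ T.red Cp.zr U = Φ u
  oldB : ∀ (a : ℕ) (u : Fb), u ∈ riemannRochSpace ((a : ℤ) • S.X Cp.oo) →
    ∃ (a' : ℕ) (U : F0), U ∈ S.L a' 0 ∧ T.Int U ∧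
      T.red Cp.oo U = Φ u ∧ T.red Cp.mid U = u

/-- Norm elements: for a section `y` of `O(D)` with poles at the cusps only,
`Y_A = π_A^* (N_A y · g_A)`, `Y_B = π_B^* (N_B y · g_B)` where `N_A f = c_A g_A ^ (-n)`,
`N_B f = c_B g_B ^ (-n)` (this is where `π_{A*} x = 0 = π_{B*} x` is used). -/
structure Norms {T : Tri K0 F0 k Fb} {S : Poles T} {n : ℕ} (κ : Kum S n) : Prop where
  normA : ∀ (a : ℕ) (y : F0), y ∈ κ.Lam a 0 →
    ∃ (a' : ℕ) (Y : F0) (c c' : k), c ≠ 0 ∧ c' ≠ 0 ∧ Y ∈ S.L a' 0 ∧ T.Int Y ∧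
      T.red Cp.oo Y = c • (T.red Cp.oo y * T.red Cp.mid y ^ T.e) ∧
      T.red Cp.zr Y = c' • T.red Cp.zr y ^ T.q
  normB : ∀ (a : ℕ) (y : F0), y ∈ κ.Lam a 0 →
    ∃ (a' : ℕ) (Y : F0) (c c' : k), c ≠ 0 ∧ c' ≠ 0 ∧ Y ∈ S.L a' 0 ∧ T.Int Y ∧
      T.red Cp.oo Y = c • T.red Cp.oo y ^ T.q ∧
      T.red Cp.zr Y = c' • (T.red Cp.zr y * T.red Cp.mid y ^ T.e)

end Fermat.Agent.S36.RC
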