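import Fermat.Agent.S36.RC.Chain
import Fermat.Agent.GAL.RED.Basic

/-!
# S36/RC, step (2) of report 269, part 1: integer valuations, idempotents, joint surjectivity

`T : Tri K0 F0 k Fb`.  The three valuation rings are discrete, with uniformisers `q, b, q`.
* `T.val i z : ℤ` : the normalised valuation (`val oo q = val zr q = 1`, `val mid b = 1`, `val mid q = e`);
* `Psi T` : a function `ψ` with valuations `(0, 0, M0)`, `M0 > 0`  (the modular unit `Ψ_0`);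
* `IsIdem T i ε` : `ε ≡ 1 mod q` at `i`, `ε ≡ 0 mod q` at the two other components;
* `exists_red_eq` : **joint surjectivity** of the three reductions on the integral functions;
* `exists_val_eq` : every triple of integers is the triple of valuations of a function.
-/

set_option autoImplicit false

noncomputable section

namespace Fermat.Agent.S36.RC

open AlgebraicCurve Fermat.Agent.Lib.RR Fermat.Agent.GAL.RED

variable {K0 F0 k Fb : Type*} [Field K0] [Field F0] [Algebra K0 F0]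
  [Field k] [Field Fb] [Algebra k Fb]

namespace Tri

variable (T : Tri K0 F0 k Fb)

/-- the uniformiser of the component `i`. -/
def unif : Cp → F0
  | Cp.oo => (T.q : F0)
  | Cp.mid => T.b
  | Cp.zr => (T.q : F0)

/-- LEAF RC-V1. (`cases i`; `T.q_ne'`, `T.b_ne`.) -/
theorem unif_ne (i : Cp) : T.unif i ≠ 0 := by
  cases i
  · exact T.q_ne'
  · exact T.b_ne
  · exact T.q_ne'

/-- LEAF RC-V1. (`T.q_mem`, `T.b_mem`.) -/
theorem unif_mem (i : Cp) : T.unif i ∈ (T.R i).O := by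
  cases i
  · exact T.q_mem _
  · exact T.b_mem
  · exact T.q_mem _

/-- LEAF RC-V1. (`T.red_q`, `T.b_mid`.) -/
theorem red_unif (i : Cp) : T.red i (T.unif i) = 0 := by
  cases i
  · exact T.red_q _
  · exact T.b_mid
  · exact T.red_q _

/-- LEAF RC-V1. (`ker_oo`, `ker_mid`, `ker_zr`.) -/
theorem ker (i : Cp) {z : F0} (hz : z ∈ (T.R i).O) (h : T.red i z = 0) :
    z / T.unif i ∈ (T.R i).O := by
  cases i
  · exact T.ker_oo z hz h
  · exact T.ker_mid z hz h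
  · exact T.ker_zr z hz h

/-- LEAF RC-V1. `unif i ^ N * z` is integral at `i` for some `N` (`T.scale`; at `mid`:
`b ^ (e N) z = (b ^ e / q) ^ N (q ^ N z)`, `b ^ e / q ∈ O` by `T.b_pow`). -/
theorem exists_unif_pow_mul_mem (i : Cp) (z : F0) : ∃ N : ℕ, T.unif i ^ N * z ∈ (T.R i).O := by
  cases i
  · exact T.scale _ z
  · obtain ⟨N, hN⟩ := T.scale Cp.mid z
    refine ⟨T.e * N, ?_⟩
    have h1 : T.b ^ T.e / (T.q : F0) ∈ (T.R Cp.mid).O := (T.R Cp.mid).mem_of_red_ne_zero T.b_pow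
    have h2 : T.unif Cp.mid ^ (T.e * N) * z = (T.b ^ T.e / (T.q : F0)) ^ N * ((T.q : F0) ^ N * z) := by
      have := T.q_ne'
      rw [unif, pow_mul, div_pow]
      field_simp
    rw [h2]
    exact (T.R Cp.mid).O.mul_mem _ _ ((T.R Cp.mid).O.pow_mem h1 N) hN
  · exact T.scale _ z

/-- a power of the uniformiser is integral iff the exponent is `≥ 0`. -/
theorem Idem_zpow_mem_iff (i : Cp) (x : ℤ) : T.unif i ^ x ∈ (T.R i).O ↔ 0 ≤ x := by
  have hu := T.unif_ne i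
  constructor
  · intro h
    by_contra hx
    obtain ⟨n, hn⟩ : ∃ n : ℕ, x = -((n : ℤ) + 1) := ⟨(-x - 1).toNat, by omega⟩
    have h1 : (T.unif i)⁻¹ ∈ (T.R i).O := by
      have h2 : (T.unif i)⁻¹ = T.unif i ^ x * T.unif i ^ n := by
        rw [hn, zpow_neg, zpow_add_one₀ hu, zpow_natCast]
        field_simp
      rw [h2]
      exact (T.R i).O.mul_mem _ _ h ((T.R i).O.pow_mem (T.unif_mem i) n)
    exact ((T.R i).red_ne_zero_iff.2 ⟨hu, T.unif_mem i, h1⟩) (T.red_unif i)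
  · intro h
    obtain ⟨n, rfl⟩ := Int.eq_ofNat_of_zero_le h
    rw [zpow_natCast]
    exact (T.R i).O.pow_mem (T.unif_mem i) n

/-- a power of the uniformiser is a unit iff the exponent is `0`. -/
theorem Idem_red_zpow_ne_zero_iff (i : Cp) (x : ℤ) : T.red i (T.unif i ^ x) ≠ 0 ↔ x = 0 := by
  rw [(T.R i).red_ne_zero_iff, ← zpow_neg, Idem_zpow_mem_iff, Idem_zpow_mem_iff]
  constructor
  · rintro ⟨-, h1, h2⟩
    omega
  · rintro rfl
    exact ⟨by simp, le_refl _, by simp⟩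

/-- LEAF RC-V2. Existence of the valuation.  PROOF. The set `X = {x : ℤ | z / u ^ x ∈ O}` (`u = unif i`) contains `-N`
(`exists_unif_pow_mul_mem i z`) and is bounded above by `N'`, where `u ^ N' z⁻¹ ∈ O`: if `x > N'` and `z / u ^ x ∈ O`, then
`(u ^ (x - N'))⁻¹ = (z / u ^ x) (u ^ N' z⁻¹) ∈ O`, so `u` would be a unit, contradicting `red_unif`
(`RedData.red_ne_zero_iff`, or `red (u * u⁻¹) = 1`).  `Int.exists_greatest_of_bdd`; for the greatest `x`, `red (z / u ^ x) ≠ 0`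
by `T.ker` (`z / u ^ x / u = z / u ^ (x + 1)`, `zpow_add_one₀`). -/
theorem exists_val (i : Cp) {z : F0} (hz : z ≠ 0) : ∃ x : ℤ, T.red i (z / T.unif i ^ x) ≠ 0 := by
  have hu := T.unif_ne i
  obtain ⟨N, hN⟩ := T.exists_unif_pow_mul_mem i z
  obtain ⟨N', hN'⟩ := T.exists_unif_pow_mul_mem i z⁻¹
  obtain ⟨x, hx, hmax⟩ := Int.exists_greatest_of_bdd (P := fun x : ℤ => z / T.unif i ^ x ∈ (T.R i).O)
    ⟨N', fun x hx => by
      have h1 : T.unif i ^ ((N' : ℤ) - x) ∈ (T.R i).O := by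
        have h2 : T.unif i ^ ((N' : ℤ) - x) = (z / T.unif i ^ x) * (T.unif i ^ N' * z⁻¹) := by
          rw [zpow_sub₀ hu, zpow_natCast]
          field_simp
        rw [h2]
        exact (T.R i).O.mul_mem _ _ hx hN'
      rw [Idem_zpow_mem_iff] at h1
      omega⟩
    ⟨-(N : ℤ), by
      show z / T.unif i ^ (-(N : ℤ)) ∈ (T.R i).O
      rw [zpow_neg, zpow_natCast, div_inv_eq_mul, mul_comm]
      exact hN⟩
  refine ⟨x, fun h0 => ?_⟩
  have h1 := T.ker i hx h0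
  rw [div_div, ← zpow_add_one₀ hu] at h1
  have := hmax _ h1
  omega

open Classical in
/-- The normalised valuation (`0` at `0`). -/
def val (i : Cp) (z : F0) : ℤ := if h : z ≠ 0 then (T.exists_val i h).choose else 0

theorem red_div_val (i : Cp) {z : F0} (hz : z ≠ 0) : T.red i (z / T.unif i ^ T.val i z) ≠ 0 := by
  rw [val, dif_pos hz]
  exact (T.exists_val i hz).choose_spec

/-- LEAF RC-V2. Uniqueness: if `z / u ^ x` and `z / u ^ y` are units then so is `u ^ (y - x)`, hence `x = y`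
(`red_unif`, `RedData.red_zpow`/`red_pow`: a positive power of `u` has reduction `0`). -/
theorem val_eq_iff (i : Cp) {z : F0} (hz : z ≠ 0) (x : ℤ) :
    T.val i z = x ↔ T.red i (z / T.unif i ^ x) ≠ 0 := by
  have hu := T.unif_ne i
  constructor
  · rintro rfl
    exact T.red_div_val i hz
  · intro h
    have h1 := T.red_div_val i hz
    have h2 : T.red i (z / T.unif i ^ T.val i z)⁻¹ ≠ 0 := by
      rw [Tri.red, (T.R i).red_inv]
      exact inv_ne_zero h1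
    have h3 := (T.R i).red_mul_ne_zero h h2
    have h4 : z / T.unif i ^ x * (z / T.unif i ^ T.val i z)⁻¹ = T.unif i ^ (T.val i z - x) := by
      rw [zpow_sub₀ hu]
      field_simp
    rw [h4] at h3
    have := (T.Idem_red_zpow_ne_zero_iff i _).1 h3
    omega

/-- LEAF RC-V3. (`val_eq_iff`, `RedData.red_mul_ne_zero`, `zpow_add₀`.) -/
theorem val_mul (i : Cp) {y z : F0} (hy : y ≠ 0) (hz : z ≠ 0) :
    T.val i (y * z) = T.val i y + T.val i z := by
  have hu := T.unif_ne i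
  rw [T.val_eq_iff i (mul_ne_zero hy hz)]
  have h1 : y * z / T.unif i ^ (T.val i y + T.val i z) =
      (y / T.unif i ^ T.val i y) * (z / T.unif i ^ T.val i z) := by
    rw [zpow_add₀ hu]
    field_simp
  rw [h1]
  exact (T.R i).red_mul_ne_zero (T.red_div_val i hy) (T.red_div_val i hz)

/-- LEAF RC-V3. -/
theorem val_one (i : Cp) : T.val i 1 = 0 := by
  rw [T.val_eq_iff i one_ne_zero, zpow_zero, div_one, Tri.red, (T.R i).red_one]
  exact one_ne_zero

/-- LEAF RC-V3. -/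
theorem val_inv (i : Cp) {z : F0} (hz : z ≠ 0) : T.val i z⁻¹ = - T.val i z := by
  have h1 := T.val_mul i hz (inv_ne_zero hz)
  rw [mul_inv_cancel₀ hz, val_one] at h1
  omega

/-- LEAF RC-V3. -/
theorem val_div (i : Cp) {y z : F0} (hy : y ≠ 0) (hz : z ≠ 0) :
    T.val i (y / z) = T.val i y - T.val i z := by
  rw [div_eq_mul_inv, T.val_mul i hy (inv_ne_zero hz), T.val_inv i hz]
  ring

/-- LEAF RC-V3. -/
theorem val_pow (i : Cp) {z : F0} (hz : z ≠ 0) (m : ℕ) : T.val i (z ^ m) = m * T.val i z := by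
  induction m with
  | zero => simp [val_one]
  | succ m ih =>
    rw [pow_succ, T.val_mul i (pow_ne_zero m hz) hz, ih]
    push_cast
    ring

/-- LEAF RC-V3. -/
theorem val_zpow (i : Cp) {z : F0} (hz : z ≠ 0) (m : ℤ) : T.val i (z ^ m) = m * T.val i z := by
  obtain ⟨n, rfl | rfl⟩ := m.eq_nat_or_neg
  · rw [zpow_natCast, T.val_pow i hz]
  · rw [zpow_neg, zpow_natCast, T.val_inv i (pow_ne_zero n hz), T.val_pow i hz]
    ring

/-- LEAF RC-V3. -/
theorem val_eq_zero_iff (i : Cp) {z : F0} (hz : z ≠ 0) : T.val i z = 0 ↔ T.red i z ≠ 0 := by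
  rw [T.val_eq_iff i hz, zpow_zero, div_one]

/-- LEAF RC-V3. (`z = (z / u ^ x) * u ^ x`.) -/
theorem val_nonneg_iff (i : Cp) {z : F0} (hz : z ≠ 0) : 0 ≤ T.val i z ↔ z ∈ (T.R i).O := by
  have hu := T.unif_ne i
  have h1 := T.red_div_val i hz
  rw [← T.Idem_zpow_mem_iff i]
  constructor
  · intro h
    have h2 : z = (z / T.unif i ^ T.val i z) * T.unif i ^ T.val i z := by
      field_simp
    rw [h2]
    exact (T.R i).O.mul_mem _ _ ((T.R i).mem_of_red_ne_zero h1) h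
  · intro h
    have h2 : T.unif i ^ T.val i z = z * (z / T.unif i ^ T.val i z)⁻¹ := by
      field_simp
    rw [h2]
    exact (T.R i).O.mul_mem _ _ h ((T.R i).inv_mem_of_red_ne_zero h1)

/-- LEAF RC-V3. -/
theorem val_pos_iff (i : Cp) {z : F0} (hz : z ≠ 0) :
    0 < T.val i z ↔ z ∈ (T.R i).O ∧ T.red i z = 0 := by
  have h0 := T.val_eq_zero_iff i hz
  rw [← T.val_nonneg_iff i hz]
  constructor
  · intro h
    refine ⟨h.le, ?_⟩
    by_contra h1
    have := h0.2 h1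
    omega
  · rintro ⟨h1, h2⟩
    have h3 : T.val i z ≠ 0 := fun h => h0.1 h h2
    omega

/-- LEAF RC-V4. -/
theorem val_unif (i : Cp) : T.val i (T.unif i) = 1 := by
  rw [T.val_eq_iff i (T.unif_ne i), zpow_one, div_self (T.unif_ne i), Tri.red, RedData.red_one]
  exact one_ne_zero

/-- LEAF RC-V4. (`oo`, `zr`: `val_unif`; `mid`: `T.b_pow`, `q = b ^ e / (b ^ e / q)`.) -/
theorem val_q (i : Cp) : T.val i (T.q : F0) = if i = Cp.mid then (T.e : ℤ) else 1 := by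
  cases i
  · exact T.val_unif Cp.oo
  · rw [if_pos rfl, T.val_eq_iff Cp.mid T.q_ne']
    have h1 : (T.q : F0) / T.unif Cp.mid ^ (T.e : ℤ) = (T.b ^ T.e / (T.q : F0))⁻¹ := by
      rw [zpow_natCast, inv_div]
      rfl
    rw [h1, Tri.red, RedData.red_inv]
    exact inv_ne_zero T.b_pow
  · exact T.val_unif Cp.zr

/-- LEAF RC-V4. (`T.b_oo`, `T.b_zr`, `val_unif`.) -/
theorem val_b (i : Cp) : T.val i T.b = if i = Cp.mid then 1 else 0 := by
  cases i
  · exact (T.val_eq_zero_iff Cp.oo T.b_ne).2 T.b_oo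
  · exact T.val_unif Cp.mid
  · exact (T.val_eq_zero_iff Cp.zr T.b_ne).2 T.b_zr

/-- LEAF RC-V4. Constants: `c = q ^ x * unit of A`.  PROOF. `x := T.val oo (algebraMap c)`; `c / q ^ x` is a constant with
`red_oo ≠ 0`, so (`RedData.red_algebraMap'`) `redA (c / q ^ x) ≠ 0`; by `T.hA`, `T.hredA` the same constant has
`red_i ≠ 0` for all `i`; so `val i c = x * val i q` (`val_mul`, `val_zpow`, `val_q`). -/
theorem exists_val_const {c : K0} (hc : c ≠ 0) : ∃ x : ℤ, (T.R Cp.oo).redA (c / (T.q : K0) ^ x) ≠ 0 ∧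
    ∀ i, T.val i (algebraMap K0 F0 c) = x * T.val i (T.q : F0) := by
  have hc' : algebraMap K0 F0 c ≠ 0 := (map_ne_zero _).2 hc
  refine ⟨T.val Cp.oo (algebraMap K0 F0 c), ?_⟩
  set x := T.val Cp.oo (algebraMap K0 F0 c) with hx
  have h1 : T.red Cp.oo (algebraMap K0 F0 c / (T.q : F0) ^ x) ≠ 0 := T.red_div_val Cp.oo hc'
  have h2 : algebraMap K0 F0 c / (T.q : F0) ^ x = algebraMap K0 F0 (c / (T.q : K0) ^ x) := by
    rw [map_div₀, map_zpow₀, map_natCast]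
  have h3 : (T.R Cp.oo).redA (c / (T.q : K0) ^ x) ≠ 0 := by
    intro h0
    rw [h2, Tri.red, RedData.red_algebraMap', h0, map_zero] at h1
    exact h1 rfl
  refine ⟨h3, fun i => ?_⟩
  have h4 : T.red i (algebraMap K0 F0 (c / (T.q : K0) ^ x)) ≠ 0 := by
    rw [Tri.red, RedData.red_algebraMap', T.hredA i]
    exact (map_ne_zero _).2 h3
  have ha0 : algebraMap K0 F0 (c / (T.q : K0) ^ x) ≠ 0 := RedData.ne_zero_of_red_ne_zero _ h4
  have h5 : algebraMap K0 F0 c = algebraMap K0 F0 (c / (T.q : K0) ^ x) * (T.q : F0) ^ x := by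
    rw [← h2, div_mul_cancel₀ _ (zpow_ne_zero _ T.q_ne')]
  rw [h5, T.val_mul i ha0 (zpow_ne_zero _ T.q_ne'), (T.val_eq_zero_iff i ha0).2 h4, zero_add,
    T.val_zpow i T.q_ne']

/-- LEAF RC-V5. `val i z > 0 ⟹ red_i (1 + z)⁻¹ = 1`. -/
theorem red_inv_one_add (i : Cp) {z : F0} (hz : z ∈ (T.R i).O) (h : T.red i z = 0) :
    T.red i (1 + z)⁻¹ = 1 := by
  rw [Tri.red] at h ⊢
  rw [(T.R i).red_inv, (T.R i).red_add (T.R i).O.one_mem hz, (T.R i).red_one, h, add_zero, inv_one]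

/-- LEAF RC-V5. `val j z < 0 ⟹ val j (1 + z)⁻¹ = - val j z` and `1 + z ≠ 0`:
`(1 + z)⁻¹ = z⁻¹ * (1 + z⁻¹)⁻¹`, `red_inv_one_add` for `z⁻¹`. -/
theorem val_inv_one_add (j : Cp) {z : F0} (hz : z ≠ 0) (h : T.val j z < 0) :
    1 + z ≠ 0 ∧ T.val j (1 + z)⁻¹ = - T.val j z := by
  have hz' : z⁻¹ ≠ 0 := inv_ne_zero hz
  have h1 : 0 < T.val j z⁻¹ := by
    rw [T.val_inv j hz]
    omega
  obtain ⟨h2, h3⟩ := (T.val_pos_iff j hz').1 h1
  have h4 := T.red_inv_one_add j h2 h3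
  have h5 : T.red j (1 + z⁻¹)⁻¹ ≠ 0 := by
    rw [h4]
    exact one_ne_zero
  have h6 : (1 + z⁻¹)⁻¹ ≠ 0 := (T.R j).ne_zero_of_red_ne_zero h5
  have h7 : 1 + z⁻¹ ≠ 0 := fun h0 => h6 (by rw [h0, inv_zero])
  have h8 : 1 + z = z * (1 + z⁻¹) := by
    field_simp
    ring
  refine ⟨by rw [h8]; exact mul_ne_zero hz h7, ?_⟩
  rw [h8, mul_inv, T.val_mul j hz' h6, T.val_inv j hz, (T.val_eq_zero_iff j h6).2 h5, add_zero]

/-- LEAF RC-V5. `val i z > 0 ⟹ val i (1 - (1 + z)⁻¹) = val i z`: `1 - (1 + z)⁻¹ = z * (1 + z)⁻¹`. -/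
theorem val_one_sub_inv_one_add (i : Cp) {z : F0} (hz : z ≠ 0) (h : 0 < T.val i z) :
    1 - (1 + z)⁻¹ ≠ 0 ∧ T.val i (1 - (1 + z)⁻¹) = T.val i z := by
  obtain ⟨h2, h3⟩ := (T.val_pos_iff i hz).1 h
  have h4 := T.red_inv_one_add i h2 h3
  have h5 : T.red i (1 + z)⁻¹ ≠ 0 := by
    rw [h4]
    exact one_ne_zero
  have h6 : (1 + z)⁻¹ ≠ 0 := (T.R i).ne_zero_of_red_ne_zero h5
  have h7 : 1 + z ≠ 0 := fun h0 => h6 (by rw [h0, inv_zero])
  have h8 : 1 - (1 + z)⁻¹ = z * (1 + z)⁻¹ := by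
    field_simp
    ring
  refine ⟨by rw [h8]; exact mul_ne_zero hz h6, ?_⟩
  rw [h8, T.val_mul i hz h6, (T.val_eq_zero_iff i h6).2 h5, add_zero]

/-- LEAF RC-V5. `z / q` is integral at `j` iff `z = 0` or `val j q ≤ val j z`. -/
theorem div_q_mem_iff (j : Cp) {z : F0} (hz : z ≠ 0) :
    z / (T.q : F0) ∈ (T.R j).O ↔ T.val j (T.q : F0) ≤ T.val j z := by
  rw [← T.val_nonneg_iff j (div_ne_zero hz T.q_ne'), T.val_div j hz T.q_ne', sub_nonneg]

end Tri

/-- A function with valuations `(0, 0, M0)`. -/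
structure Psi (T : Tri K0 F0 k Fb) where
  ψ : F0
  M0 : ℕ
  M0_pos : 0 < M0
  oo : T.red Cp.oo ψ ≠ 0
  mid : T.red Cp.mid ψ ≠ 0
  zr : T.red Cp.zr (ψ / (T.q : F0) ^ M0) ≠ 0

/-- `ε` is congruent to the idempotent of the component `i`. -/
structure IsIdem (T : Tri K0 F0 k Fb) (i : Cp) (ε : F0) : Prop where
  red_self : T.red i ε = 1
  one_sub : (1 - ε) / (T.q : F0) ∈ (T.R i).O
  small : ∀ j, j ≠ i → ε / (T.q : F0) ∈ (T.R j).O

namespace IsIdem

variable {T : Tri K0 F0 k Fb} {i : Cp} {ε : F0}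

/-- LEAF RC-V6. (`ε = q * (ε / q)`.) -/
theorem mem (h : IsIdem T i ε) : T.Int ε := by
  intro j
  by_cases hj : j = i
  · subst hj
    exact (T.R j).mem_of_red_ne_zero (by
      rw [show (T.R j).red ε = 1 from h.red_self]
      exact one_ne_zero)
  · have h1 : ε = (T.q : F0) * (ε / (T.q : F0)) := by
      rw [mul_div_cancel₀ _ T.q_ne']
    rw [h1]
    exact (T.R j).O.mul_mem _ _ (T.q_mem j) (h.small j hj)

/-- LEAF RC-V6. -/
theorem red_other (h : IsIdem T i ε) {j : Cp} (hj : j ≠ i) : T.red j ε = 0 := by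
  have h1 : ε = (T.q : F0) * (ε / (T.q : F0)) := by
    rw [mul_div_cancel₀ _ T.q_ne']
  rw [h1, Tri.red, (T.R j).red_mul (T.q_mem j) (h.small j hj),
    show (T.R j).red (T.q : F0) = 0 from T.red_q j, zero_mul]

/-- LEAF RC-V6. `ε_oo = 1 - ε_zr - ε_mid`.  At `oo`: `(1 - ε_oo) / q = ε_zr / q + ε_mid / q`, hence also `red_oo ε_oo = 1`;
at `mid`: `ε_oo / q = (1 - ε_mid) / q - ε_zr / q`; at `zr`: `ε_oo / q = (1 - ε_zr) / q - ε_mid / q`. -/
theorem oo_of {ε₁ ε₂ : F0} (h₁ : IsIdem T Cp.zr ε₁) (h₂ : IsIdem T Cp.mid ε₂) :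
    IsIdem T Cp.oo (1 - ε₁ - ε₂) := by
  refine ⟨?_, ?_, ?_⟩
  · have a1 : T.red Cp.oo ε₁ = 0 := h₁.red_other (by decide)
    have a2 : T.red Cp.oo ε₂ = 0 := h₂.red_other (by decide)
    rw [Tri.red] at a1 a2 ⊢
    rw [(T.R Cp.oo).red_sub ((T.R Cp.oo).O.sub_mem (T.R Cp.oo).O.one_mem (h₁.mem _)) (h₂.mem _),
      (T.R Cp.oo).red_sub (T.R Cp.oo).O.one_mem (h₁.mem _), (T.R Cp.oo).red_one, a1, a2, sub_zero,
      sub_zero]
  · have e : (1 - (1 - ε₁ - ε₂)) / (T.q : F0) = ε₁ / (T.q : F0) + ε₂ / (T.q : F0) := by ring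
    rw [e]
    exact (T.R Cp.oo).O.add_mem _ _ (h₁.small _ (by decide)) (h₂.small _ (by decide))
  · intro j hj
    cases j
    · exact absurd rfl hj
    · have e : (1 - ε₁ - ε₂) / (T.q : F0) = (1 - ε₂) / (T.q : F0) - ε₁ / (T.q : F0) := by ring
      rw [e]
      exact (T.R Cp.mid).O.sub_mem h₂.one_sub (h₁.small _ (by decide))
    · have e : (1 - ε₁ - ε₂) / (T.q : F0) = (1 - ε₁) / (T.q : F0) - ε₂ / (T.q : F0) := by ring
      rw [e]
      exact (T.R Cp.zr).O.sub_mem h₁.one_sub (h₂.small _ (by decide))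

end IsIdem

/-- general criterion: `z` with `val i z ≥ val i q > 0`... -/
private theorem isIdem_of_val (T : Tri K0 F0 k Fb) (i : Cp) {z : F0} (hz : z ≠ 0)
    (hi : T.val i (T.q : F0) ≤ T.val i z)
    (hj : ∀ j, j ≠ i → T.val j z ≤ - T.val j (T.q : F0))
    (hq : ∀ j, 0 < T.val j (T.q : F0)) : IsIdem T i (1 + z)⁻¹ := by
  have hpos : 0 < T.val i z := lt_of_lt_of_le (hq i) hi
  obtain ⟨hm, hr⟩ := (T.val_pos_iff i hz).1 hpos
  obtain ⟨h1, h2⟩ := T.val_one_sub_inv_one_add i hz hpos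
  refine ⟨T.red_inv_one_add i hm hr, (T.div_q_mem_iff i h1).2 (by rw [h2]; exact hi), ?_⟩
  intro j hji
  have hneg : T.val j z < 0 := by
    have := hj j hji
    have := hq j
    omega
  obtain ⟨h3, h4⟩ := T.val_inv_one_add j hz hneg
  refine (T.div_q_mem_iff j (inv_ne_zero h3)).2 ?_
  rw [h4]
  have := hj j hji
  omega

/-- LEAF RC-V7. `ε = (1 + b ^ (2 e) / q)⁻¹`: `z = b ^ (2 e) / q` has valuations `(-1, e, -1)`, `e ≥ 1` (`T.he`,
`T.q_prime.two_le`); `red_inv_one_add`, `val_one_sub_inv_one_add` + `div_q_mem_iff` at `mid` (`val mid q = e`),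
`val_inv_one_add` + `div_q_mem_iff` at `oo`, `zr`. -/
theorem exists_isIdem_mid (T : Tri K0 F0 k Fb) : ∃ ε, IsIdem T Cp.mid ε := by
  have he : 1 ≤ T.e := by
    have := T.he
    have := T.q_prime.two_le
    omega
  have hb := T.b_ne
  have hq := T.q_ne'
  have hz : T.b ^ (2 * T.e) / (T.q : F0) ≠ 0 := div_ne_zero (pow_ne_zero _ hb) hq
  have hv : ∀ j, T.val j (T.b ^ (2 * T.e) / (T.q : F0)) =
      ((2 * T.e : ℕ) : ℤ) * T.val j T.b - T.val j (T.q : F0) := by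
    intro j
    rw [T.val_div j (pow_ne_zero _ hb) hq, T.val_pow j hb]
  refine ⟨_, isIdem_of_val T Cp.mid hz ?_ ?_ ?_⟩
  · rw [hv, T.val_b, T.val_q]
    simp only [if_true]
    push_cast
    omega
  · intro j hj
    rw [hv, T.val_b, T.val_q]
    simp only [if_neg hj]
    omega
  · intro j
    rw [T.val_q]
    split_ifs
    · exact_mod_cast he
    · exact one_pos

namespace Psi

variable {T : Tri K0 F0 k Fb} (Ψ : Psi T)

include Ψ

/-- LEAF RC-V7. `ε = (1 + ψ ^ 2 / q ^ M0)⁻¹`: `z = ψ ^ 2 / q ^ M0` has valuations `(- M0, - e M0, M0)`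
(`val_eq_iff`/`val_eq_zero_iff` for `ψ`, `val_q`, `val_pow`, `val_div`); `red_inv_one_add`, `val_one_sub_inv_one_add` + `div_q_mem_iff` at
`zr`, `val_inv_one_add` + `div_q_mem_iff` at `oo`, `mid` (`M0 ≥ 1`, `e M0 ≥ e`). -/
theorem exists_isIdem_zr : ∃ ε, IsIdem T Cp.zr ε := by
  have he : 1 ≤ T.e := by
    have := T.he
    have := T.q_prime.two_le
    omega
  have hq := T.q_ne'
  have hM := Ψ.M0_pos
  have hψ : Ψ.ψ ≠ 0 := by
    intro h
    apply Ψ.oo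
    rw [h]
    exact (T.R Cp.oo).red_zero
  have hoo : T.val Cp.oo Ψ.ψ = 0 := (T.val_eq_zero_iff Cp.oo hψ).2 Ψ.oo
  have hmid : T.val Cp.mid Ψ.ψ = 0 := (T.val_eq_zero_iff Cp.mid hψ).2 Ψ.mid
  have hzr : T.val Cp.zr Ψ.ψ = Ψ.M0 := by
    rw [T.val_eq_iff Cp.zr hψ, zpow_natCast]
    exact Ψ.zr
  have hz : Ψ.ψ ^ 2 / (T.q : F0) ^ Ψ.M0 ≠ 0 := div_ne_zero (pow_ne_zero _ hψ) (pow_ne_zero _ hq)
  have hv : ∀ j, T.val j (Ψ.ψ ^ 2 / (T.q : F0) ^ Ψ.M0) =
      ((2 : ℕ) : ℤ) * T.val j Ψ.ψ - (Ψ.M0 : ℤ) * T.val j (T.q : F0) := by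
    intro j
    rw [T.val_div j (pow_ne_zero _ hψ) (pow_ne_zero _ hq), T.val_pow j hψ, T.val_pow j hq]
  refine ⟨_, isIdem_of_val T Cp.zr hz ?_ ?_ ?_⟩
  · rw [hv, hzr, T.val_q]
    simp only [reduceCtorEq, if_false]
    push_cast
    omega
  · intro j hj
    rw [hv]
    have hqj : 0 < T.val j (T.q : F0) := by
      rw [T.val_q]
      split_ifs
      · exact_mod_cast he
      · exact one_pos
    have h0 : T.val j Ψ.ψ = 0 := by
      cases j
      · exact hoo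
      · exact hmid
      · exact absurd rfl hj
    rw [h0]
    have hM' : (1 : ℤ) ≤ Ψ.M0 := by exact_mod_cast hM
    nlinarith
  · intro j
    rw [T.val_q]
    split_ifs
    · exact_mod_cast he
    · exact one_pos

theorem exists_isIdem (i : Cp) : ∃ ε, IsIdem T i ε := by
  obtain ⟨ε₁, h₁⟩ := Ψ.exists_isIdem_zr
  obtain ⟨ε₂, h₂⟩ := exists_isIdem_mid T
  cases i
  · exact ⟨_, h₁.oo_of h₂⟩
  · exact ⟨_, h₂⟩
  · exact ⟨_, h₁⟩

/-- LEAF RC-V8. One component.  PROOF. `z₀ ∈ O_i` with `red_i z₀ = u` (`RedData.exists_lift`), `N` with `q ^ N z₀ ∈ O_j` for the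
two `j ≠ i` (`T.scale`, maximum; multiplying by further powers of `q` keeps integrality), `ε` from `exists_isIdem i`,
`z := z₀ ε ^ (N + 1)`.  At `i`: `red = u * 1`.  At `j ≠ i`: `z = (q ^ N z₀) (ε / q) ^ N ε`, integral, reduction
`... * red_j ε = 0` (`IsIdem.red_other`). -/
theorem exists_red_single (i : Cp) (u : Fb) :
    ∃ z : F0, T.Int z ∧ T.red i z = u ∧ ∀ j, j ≠ i → T.red j z = 0 := by
  obtain ⟨z₀, hz₀, hu⟩ := (T.R i).exists_lift u
  obtain ⟨ε, hε⟩ := Ψ.exists_isIdem i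
  have hN : ∃ N : ℕ, ∀ j, (T.q : F0) ^ N * z₀ ∈ (T.R j).O := by
    obtain ⟨N1, h1⟩ := T.scale Cp.oo z₀
    obtain ⟨N2, h2⟩ := T.scale Cp.mid z₀
    obtain ⟨N3, h3⟩ := T.scale Cp.zr z₀
    have key : ∀ (j : Cp) (N N' : ℕ), N ≤ N' → (T.q : F0) ^ N * z₀ ∈ (T.R j).O →
        (T.q : F0) ^ N' * z₀ ∈ (T.R j).O := by
      intro j N N' hle h
      obtain ⟨d, rfl⟩ := Nat.exists_eq_add_of_le hle
      rw [pow_add, mul_comm ((T.q : F0) ^ N), mul_assoc]
      exact (T.R j).O.mul_mem _ _ (pow_mem (T.q_mem j) d) h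
    refine ⟨N1 + N2 + N3, fun j => ?_⟩
    cases j
    · exact key _ N1 _ (by omega) h1
    · exact key _ N2 _ (by omega) h2
    · exact key _ N3 _ (by omega) h3
  obtain ⟨N, hN⟩ := hN
  have hεint := hε.mem
  have hother : ∀ j, j ≠ i →
      z₀ * ε ^ (N + 1) ∈ (T.R j).O ∧ (T.R j).red (z₀ * ε ^ (N + 1)) = 0 := by
    intro j hj
    have hq := T.q_ne'
    have heq : z₀ * ε ^ (N + 1) = ((T.q : F0) ^ N * z₀) * (ε / (T.q : F0)) ^ N * ε := by
      rw [div_pow]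
      field_simp
      ring
    have h1 : ((T.q : F0) ^ N * z₀) * (ε / (T.q : F0)) ^ N ∈ (T.R j).O :=
      mul_mem (hN j) (pow_mem (hε.small j hj) N)
    rw [heq]
    refine ⟨mul_mem h1 (hεint j), ?_⟩
    rw [(T.R j).red_mul h1 (hεint j)]
    have h0 : (T.R j).red ε = 0 := hε.red_other hj
    rw [h0, mul_zero]
  refine ⟨z₀ * ε ^ (N + 1), ?_, ?_, fun j hj => (hother j hj).2⟩
  · intro j
    by_cases hj : j = i
    · subst hj
      exact mul_mem hz₀ (pow_mem (hεint j) _)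
    · exact (hother j hj).1
  · change (T.R i).red _ = u
    have h1 : (T.R i).red ε = 1 := hε.red_self
    rw [(T.R i).red_mul hz₀ (pow_mem (hεint i) _), (T.R i).red_pow, h1, one_pow, mul_one, hu]

/-- **(N1) joint surjectivity.**  LEAF RC-V8 (sum of the three elements of `exists_red_single`). -/
theorem exists_red_eq (u : Cp → Fb) : ∃ z : F0, T.Int z ∧ ∀ i, T.red i z = u i := by
  obtain ⟨z1, h1, h1', h1''⟩ := Ψ.exists_red_single Cp.oo (u Cp.oo)
  obtain ⟨z2, h2, h2', h2''⟩ := Ψ.exists_red_single Cp.mid (u Cp.mid)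
  obtain ⟨z3, h3, h3', h3''⟩ := Ψ.exists_red_single Cp.zr (u Cp.zr)
  refine ⟨z1 + z2 + z3, (h1.add h2).add h3, fun i => ?_⟩
  have hadd : T.red i (z1 + z2 + z3) = T.red i z1 + T.red i z2 + T.red i z3 := by
    change (T.R i).red _ = (T.R i).red _ + (T.R i).red _ + (T.R i).red _
    rw [(T.R i).red_add ((h1.add h2) i) (h3 i), (T.R i).red_add (h1 i) (h2 i)]
  rw [hadd]
  cases i
  · rw [h1', h2'' _ (by decide), h3'' _ (by decide), add_zero, add_zero]
  · rw [h2', h1'' _ (by decide), h3'' _ (by decide), add_zero, zero_add]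
  · rw [h3', h1'' _ (by decide), h2'' _ (by decide), add_zero, zero_add]

/-- LEAF RC-V9. Independent uniformisers.  `mid`: `b` (`val_b`).  `i = oo, zr`: `η := q ε + (1 - ε) ^ 2`, `ε` from
`exists_isIdem i`: `η / q = ε + ((1 - ε) / q) (1 - ε)` where `(1 - ε) / q ∈ O_i` (`IsIdem.one_sub`), so
`red_i (η / q) = 1`: `val i η = 1` (`val_eq_iff`); at `j ≠ i`: `red_j η = 0 + 1`, `val j η = 0`. -/
theorem exists_unif (i : Cp) : ∃ η : F0, η ≠ 0 ∧ ∀ j, T.val j η = if j = i then 1 else 0 := by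
  by_cases hi : i = Cp.mid
  · subst hi
    exact ⟨T.b, T.b_ne, T.val_b⟩
  have hu : T.unif i = (T.q : F0) := by
    cases i
    · rfl
    · exact absurd rfl hi
    · rfl
  obtain ⟨ε, hε⟩ := Ψ.exists_isIdem i
  have hint := hε.mem
  have h1ε : T.Int (1 - ε) := Tri.Int.sub Tri.Int.one hint
  have hother : ∀ j, j ≠ i → T.red j ((T.q : F0) * ε + (1 - ε) ^ 2) = 1 := by
    intro j hj
    change (T.R j).red _ = 1
    rw [(T.R j).red_add ((T.R j).O.mul_mem _ _ (T.q_mem j) (hint j)) (pow_mem (h1ε j) 2),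
      (T.R j).red_mul (T.q_mem j) (hint j), (T.R j).red_pow,
      (T.R j).red_sub (T.R j).O.one_mem (hint j), (T.R j).red_one]
    change T.red j (T.q : F0) * T.red j ε + (1 - T.red j ε) ^ 2 = 1
    rw [T.red_q, hε.red_other hj]
    ring
  have hη0 : (T.q : F0) * ε + (1 - ε) ^ 2 ≠ 0 := by
    intro h0
    have := hother Cp.mid (Ne.symm hi)
    rw [h0] at this
    exact zero_ne_one ((T.R Cp.mid).red_zero.symm.trans this)
  refine ⟨(T.q : F0) * ε + (1 - ε) ^ 2, hη0, fun j => ?_⟩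
  split_ifs with hj
  · subst hj
    rw [T.val_eq_iff j hη0, hu, zpow_one]
    have e : ((T.q : F0) * ε + (1 - ε) ^ 2) / (T.q : F0) = ε + (1 - ε) / (T.q : F0) * (1 - ε) := by
      have := T.q_ne'
      field_simp
    rw [e]
    change (T.R j).red _ ≠ 0
    rw [(T.R j).red_add (hint j) ((T.R j).O.mul_mem _ _ hε.one_sub (h1ε j)),
      (T.R j).red_mul hε.one_sub (h1ε j), (T.R j).red_sub (T.R j).O.one_mem (hint j),
      (T.R j).red_one]
    change T.red j ε + T.red j ((1 - ε) / (T.q : F0)) * (1 - T.red j ε) ≠ 0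
    rw [hε.red_self, sub_self, mul_zero, add_zero]
    exact one_ne_zero
  · rw [T.val_eq_zero_iff j hη0, hother j hj]
    exact one_ne_zero

/-- LEAF RC-V9. (`h = η_oo ^ x_oo * η_mid ^ x_mid * η_zr ^ x_zr`, `val_mul`, `val_zpow`.) -/
theorem exists_val_eq (x : Cp → ℤ) : ∃ h : F0, h ≠ 0 ∧ ∀ j, T.val j h = x j := by
  obtain ⟨η₁, h₁, hv₁⟩ := Ψ.exists_unif Cp.oo
  obtain ⟨η₂, h₂, hv₂⟩ := Ψ.exists_unif Cp.mid
  obtain ⟨η₃, h₃, hv₃⟩ := Ψ.exists_unif Cp.zr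
  have z₁ := zpow_ne_zero (x Cp.oo) h₁
  have z₂ := zpow_ne_zero (x Cp.mid) h₂
  have z₃ := zpow_ne_zero (x Cp.zr) h₃
  refine ⟨η₁ ^ x Cp.oo * η₂ ^ x Cp.mid * η₃ ^ x Cp.zr, mul_ne_zero (mul_ne_zero z₁ z₂) z₃,
    fun j => ?_⟩
  rw [T.val_mul j (mul_ne_zero z₁ z₂) z₃, T.val_mul j z₁ z₂, T.val_zpow j h₁, T.val_zpow j h₂,
    T.val_zpow j h₃, hv₁, hv₂, hv₃]
  cases j <;> simp

end Psi

end Fermat.Agent.S36.RC
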