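import Fermat.Agent.S36.RC.Const

/-!
# S36/RC: the abstract main theorem

If `f` (with `div f = n D`) reduces to `1` on the three components and has norm elements, then
`f ^ (q² - 1)` is a constant times an `n`-th power.
-/

set_option autoImplicit false

noncomputable section

namespace Fermat.Agent.S36.RC

open AlgebraicCurve Fermat.Agent.Lib.RR Fermat.Agent.GAL.RED Fermat.Agent.Lib.PlaceEval

variable {K0 F0 k Fb : Type*} [Field K0] [Field F0] [Algebra K0 F0]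
  [Field k] [Field Fb] [Algebra k Fb] [IsAlgClosed k] [IsFF k Fb]

variable {T : Tri K0 F0 k Fb} {S : Poles T} {n : ℕ}

/-- **Route RC, abstract main theorem.** -/
theorem main (Od : Old S) (κ κ' : Kum S n) (hf : κ'.f = κ.f ^ (T.q ^ 2 - 1)) (Nm : Norms κ) :
    ∃ y : F0, y ≠ 0 ∧ y ∈ κ'.Mf 0 0 := by
  obtain ⟨N0, hN0⟩ := κ.exists_good
  obtain ⟨N1, hN1⟩ := κ'.exists_good
  -- a section of `κ` on the chart `X`
  obtain ⟨y, hy, hy1⟩ := κ.exists_section (hN0 N0 0 (by omega))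
  obtain ⟨ζ₀, ζ₁, hζ⟩ := κ.const_data Od Nm hy hy1
  -- its power is a section of `κ'`
  have hyD : y ^ (T.q ^ 2 - 1) ∈ κ'.Lam ((T.q ^ 2 - 1) * N0) ((T.q ^ 2 - 1) * 0) :=
    Kum.pow_mem_Lam hf hy
  set a := max ((T.q ^ 2 - 1) * N0) N1 with ha
  have hyD' : y ^ (T.q ^ 2 - 1) ∈ κ'.Lam a 0 :=
    κ'.Lam_mono (le_max_left _ _) (by simp) hyD
  have hInt : T.Int y := hy.2
  have hredD : ∀ i, T.red i (y ^ (T.q ^ 2 - 1)) = T.red i y ^ (T.q ^ 2 - 1) :=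
    fun i => T.red_pow (hInt i) _
  have hD1 : T.red Cp.oo (y ^ (T.q ^ 2 - 1)) = 1 := by rw [hredD, hy1, one_pow]
  have hreg : ∀ i, ∀ P ∈ S.SS, 0 ≤ P.ord (T.red i y) := fun i P hP =>
    Poles.ord_nonneg hP (κ.red_mem_E hy i)
  have hev0 : ∀ P ∈ S.SS, ev P (T.red Cp.zr (y ^ (T.q ^ 2 - 1))) = ζ₀ := fun P hP => by
    rw [hredD, ev_pow P (hreg _ P hP)]; exact (hζ P hP).1
  have hev1 : ∀ P ∈ S.SS, ev P (T.red Cp.mid (y ^ (T.q ^ 2 - 1))) = ζ₁ := fun P hP => by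
    rw [hredD, ev_pow P (hreg _ P hP)]; exact (hζ P hP).2
  have hGX : κ'.Good a 0 := hN1 a 0 (by simp [ha])
  obtain ⟨yX, hyX, hX1, hX0, hXm⟩ := κ'.exists_const_section hGX hyD' hD1 ζ₀ ζ₁ hev0 hev1
  -- the other chart
  have hGY : κ'.Good 0 a := hN1 0 a (by simp [ha])
  obtain ⟨y', hy', hy'1⟩ := κ'.exists_section hGY
  have hind := fun P (hP : P ∈ S.SS) => κ'.ev_eq_of_sections hy' hyD' hy'1 hD1 hP
  obtain ⟨yY, hyY, hY1, hY0, hYm⟩ := κ'.exists_const_section hGY hy' hy'1 ζ₀ ζ₁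
    (fun P hP => by rw [(hind P hP).1, hev0 P hP]) (fun P hP => by rw [(hind P hP).2, hev1 P hP])
  obtain ⟨a₁, hF⟩ := κ'.exists_full
  refine κ'.exists_ne_zero_mem_Mf_zero hF hyX hyY hX1 (fun i => ?_)
  cases i
  · rw [hX1, hY1]
  · rw [hXm, hYm]
  · rw [hX0, hY0]

/-- Corollary: `f ^ (q² - 1) = c g ^ n`. -/
theorem main' (Od : Old S) (κ κ' : Kum S n) (hf : κ'.f = κ.f ^ (T.q ^ 2 - 1)) (Nm : Norms κ) :
    ∃ (g : F0) (c : K0), g ≠ 0 ∧ c ≠ 0 ∧ κ.f ^ (T.q ^ 2 - 1) = algebraMap K0 F0 c * g ^ n := by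
  obtain ⟨y, hy0, hy⟩ := main Od κ κ' hf Nm
  rw [κ'.mem_Mf, Nat.mul_zero] at hy
  obtain ⟨c, hc⟩ := S.L_zero _ hy
  have hne : y ^ n * κ'.f ≠ 0 := mul_ne_zero (pow_ne_zero _ hy0) κ'.f_ne
  refine ⟨y⁻¹, c, inv_ne_zero hy0, ?_, ?_⟩
  · rintro rfl
    rw [map_zero] at hc
    exact hne hc
  · rw [← hf, ← hc, inv_pow]
    field_simp

end Fermat.Agent.S36.RC
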