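import Fermat.Agent.S36.RC.Idem

/-!
# S36/RC, step (2) of report 269, part 2: normalisation of a Kummer generator

`nA = α ∘ N_A`, `nB = β ∘ N_B : F0 →* F0` (norm to the lower level followed by the pull back).
If `nA f` and `nB f` are of the form `constant * n`-th power (`IsCP n`), then `c f ^ ((q + 1) e) h ^ n` reduces to `1` on the three
components for suitable `c ∈ K0ˣ`, `h ∈ F0ˣ`.
-/

set_option autoImplicit false

noncomputable section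

namespace Fermat.Agent.S36.RC

open AlgebraicCurve Fermat.Agent.Lib.RR Fermat.Agent.GAL.RED

variable {K0 F0 k Fb : Type*} [Field K0] [Field F0] [Algebra K0 F0]
  [Field k] [Field Fb] [Algebra k Fb]

/-- `z` is a nonzero constant times an `n`-th power. -/
def IsCP (K0 : Type*) {F0 : Type*} [Field K0] [Field F0] [Algebra K0 F0] (n : ℕ) (z : F0) : Prop :=
  ∃ (c : K0) (G : F0), c ≠ 0 ∧ G ≠ 0 ∧ z = algebraMap K0 F0 c * G ^ n

namespace IsCP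

variable {n : ℕ} {y z : F0}

theorem ne_zero (h : IsCP K0 n z) : z ≠ 0 := by
  obtain ⟨c, G, hc, hG, rfl⟩ := h
  exact mul_ne_zero ((map_ne_zero _).2 hc) (pow_ne_zero n hG)

theorem mul (hy : IsCP K0 n y) (hz : IsCP K0 n z) : IsCP K0 n (y * z) := by
  obtain ⟨c, G, hc, hG, rfl⟩ := hy
  obtain ⟨c', G', hc', hG', rfl⟩ := hz
  exact ⟨c * c', G * G', mul_ne_zero hc hc', mul_ne_zero hG hG', by rw [map_mul, mul_pow]; ring⟩

theorem pow (hz : IsCP K0 n z) (m : ℕ) : IsCP K0 n (z ^ m) := by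
  obtain ⟨c, G, hc, hG, rfl⟩ := hz
  exact ⟨c ^ m, G ^ m, pow_ne_zero m hc, pow_ne_zero m hG, by rw [map_pow, mul_pow]; ring⟩

theorem const {c : K0} (hc : c ≠ 0) (n : ℕ) : IsCP K0 n (algebraMap K0 F0 c) :=
  ⟨c, 1, hc, one_ne_zero, by simp⟩

theorem pow_self {h : F0} (hh : h ≠ 0) (n : ℕ) : IsCP K0 n (h ^ n) :=
  ⟨1, h, one_ne_zero, hh, by simp⟩

end IsCP

/-- **The contract of RC-NORM.**  `nA = α ∘ N_A`, `nB = β ∘ N_B`. -/
structure NormMaps (T : Tri K0 F0 k Fb) (S : Poles T) where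
  nA : F0 →* F0
  nB : F0 →* F0
  nA_const : ∀ a : K0, nA (algebraMap K0 F0 a) = algebraMap K0 F0 (a ^ T.q)
  nB_const : ∀ a : K0, nB (algebraMap K0 F0 a) = algebraMap K0 F0 (a ^ T.q)
  /-- valuations of norms -/
  val_nA_oo : ∀ (z : F0) (x y : ℤ), T.red Cp.oo (z / (T.q : F0) ^ x) ≠ 0 →
    T.red Cp.mid (z / T.b ^ y) ≠ 0 → T.red Cp.oo (nA z / (T.q : F0) ^ (x + y)) ≠ 0
  val_nA_zr : ∀ (z : F0) (x : ℤ), T.red Cp.zr (z / (T.q : F0) ^ x) ≠ 0 →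
    T.red Cp.zr (nA z / (T.q : F0) ^ ((T.q : ℤ) * x)) ≠ 0
  val_nB_zr : ∀ (z : F0) (x y : ℤ), T.red Cp.zr (z / (T.q : F0) ^ x) ≠ 0 →
    T.red Cp.mid (z / T.b ^ y) ≠ 0 → T.red Cp.zr (nB z / (T.q : F0) ^ (x + y)) ≠ 0
  val_nB_oo : ∀ (z : F0) (x : ℤ), T.red Cp.oo (z / (T.q : F0) ^ x) ≠ 0 →
    T.red Cp.oo (nB z / (T.q : F0) ^ ((T.q : ℤ) * x)) ≠ 0
  /-- reductions of norms -/
  red_nA_oo : ∀ z : F0, z ∈ (T.R Cp.oo).O → z ∈ (T.R Cp.mid).O →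
    T.red Cp.oo (nA z) = T.red Cp.oo z * T.red Cp.mid z ^ T.e
  red_nA_zr : ∀ z : F0, z ∈ (T.R Cp.zr).O → T.red Cp.zr (nA z) = T.red Cp.zr z ^ T.q
  red_nB_zr : ∀ z : F0, z ∈ (T.R Cp.zr).O → z ∈ (T.R Cp.mid).O →
    T.red Cp.zr (nB z) = T.red Cp.zr z * T.red Cp.mid z ^ T.e
  red_nB_oo : ∀ z : F0, z ∈ (T.R Cp.oo).O → T.red Cp.oo (nB z) = T.red Cp.oo z ^ T.q
  /-- integrality -/
  int_nA : ∀ z : F0, T.Int z → T.Int (nA z)
  int_nB : ∀ z : F0, T.Int z → T.Int (nB z)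
  /-- poles at the cusps only -/
  L_nA : ∀ (a : ℕ) (z : F0), z ∈ S.L a 0 → ∃ a' : ℕ, nA z ∈ S.L a' 0
  L_nB : ∀ (a : ℕ) (z : F0), z ∈ S.L a 0 → ∃ a' : ℕ, nB z ∈ S.L a' 0

namespace NormMaps

variable {T : Tri K0 F0 k Fb} {S : Poles T} (Nm : NormMaps T S) {n : ℕ}

theorem nA_ne_zero {z : F0} (hz : z ≠ 0) : Nm.nA z ≠ 0 := by
  intro h
  have h1 : Nm.nA (z * z⁻¹) = 1 := by rw [mul_inv_cancel₀ hz, map_one]
  rw [map_mul, h, zero_mul] at h1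
  exact zero_ne_one h1

theorem nB_ne_zero {z : F0} (hz : z ≠ 0) : Nm.nB z ≠ 0 := by
  intro h
  have h1 : Nm.nB (z * z⁻¹) = 1 := by rw [mul_inv_cancel₀ hz, map_one]
  rw [map_mul, h, zero_mul] at h1
  exact zero_ne_one h1

theorem isCP_nA {z : F0} (h : IsCP K0 n z) : IsCP K0 n (Nm.nA z) := by
  obtain ⟨c, G, hc, hG, rfl⟩ := h
  exact ⟨c ^ T.q, Nm.nA G, pow_ne_zero _ hc, Nm.nA_ne_zero hG, by
    rw [map_mul, map_pow, Nm.nA_const]⟩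

theorem isCP_nB {z : F0} (h : IsCP K0 n z) : IsCP K0 n (Nm.nB z) := by
  obtain ⟨c, G, hc, hG, rfl⟩ := h
  exact ⟨c ^ T.q, Nm.nB G, pow_ne_zero _ hc, Nm.nB_ne_zero hG, by
    rw [map_mul, map_pow, Nm.nB_const]⟩

/-- LEAF RC-N1. (`Tri.val_eq_iff`, `Tri.red_div_val`, `Nm.val_nA_oo`; `unif oo = q`, `unif mid = b` by `rfl`.) -/
theorem val_oo_nA {z : F0} (hz : z ≠ 0) :
    T.val Cp.oo (Nm.nA z) = T.val Cp.oo z + T.val Cp.mid z := by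
  sorry

/-- LEAF RC-N1. -/
theorem val_zr_nA {z : F0} (hz : z ≠ 0) : T.val Cp.zr (Nm.nA z) = T.q * T.val Cp.zr z := by
  sorry

/-- LEAF RC-N1. -/
theorem val_zr_nB {z : F0} (hz : z ≠ 0) :
    T.val Cp.zr (Nm.nB z) = T.val Cp.zr z + T.val Cp.mid z := by
  sorry

/-- LEAF RC-N1. -/
theorem val_oo_nB {z : F0} (hz : z ≠ 0) : T.val Cp.oo (Nm.nB z) = T.q * T.val Cp.oo z := by
  sorry

end NormMaps

namespace Tri

variable (T : Tri K0 F0 k Fb) {n : ℕ}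

/-- LEAF RC-N2. `val oo (c G ^ n) - val zr (c G ^ n) = n (val oo G - val zr G)` because a constant has the same valuation at `oo` and
`zr` (`exists_val_const`, `val_q`, `val_mul`, `val_pow`). -/
theorem dvd_val_sub_of_isCP {z : F0} (h : IsCP K0 n z) :
    (n : ℤ) ∣ T.val Cp.oo z - T.val Cp.zr z := by
  sorry

/-- LEAF RC-N2. If `z = c G ^ n` is a unit at `i ∈ {oo, zr}`, its reduction is an `n`-th power.
PROOF. `x` from `exists_val_const`, `t := val i G`: `x + n t = 0` (`val i q = 1`).  `z = (c / q ^ x) * (G / q ^ t) ^ n`;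
`red_i (c / q ^ x)` is the nonzero constant `redA (c / q ^ x)` (`RedData.red_algebraMap'`, `T.hredA`), which is an `n`-th power in `k`
(`IsAlgClosed.exists_pow_nat_eq`); `red_i (G / q ^ t) ≠ 0` (`red_div_val`); `RedData.red_mul`, `red_pow`. -/
theorem exists_root_of_isCP [IsAlgClosed k] (hn : 0 < n) {i : Cp} (hi : i ≠ Cp.mid) {z : F0}
    (h : IsCP K0 n z) (hz : T.red i z ≠ 0) : ∃ γ : Fb, γ ≠ 0 ∧ T.red i z = γ ^ n := by
  sorry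

/-- LEAF RC-N2. `(q : k) = 0` and `(n : k) ≠ 0` imply that `n` is prime to `q` (`T.redA_q`, `RedData.redA_natCast`,
`T.q_prime`, `Nat.Coprime`, `Nat.Prime.coprime_iff_not_dvd`). -/
theorem coprime_of_ne_zero (hn : (n : k) ≠ 0) : Nat.Coprime T.q n := by
  sorry

end Tri

/-- LEAF RC-N2. Pure field theory: `φ ^ q = γ ^ n`, `gcd (q, n) = 1`, `φ ≠ 0` ⟹ `φ` is an `n`-th power
(Bezout `a q + b n = 1` in `ℤ`: `φ = (γ ^ a * φ ^ b) ^ n`, `zpow`; `Nat.Coprime`/`Int.gcd_eq_gcd_ab`). -/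
theorem exists_root_of_pow_eq {E : Type*} [Field E] {q n : ℕ} (h : Nat.Coprime q n) {φ γ : E}
    (hφ : φ ≠ 0) (he : φ ^ q = γ ^ n) : ∃ δ : E, δ ≠ 0 ∧ φ = δ ^ n := by
  sorry

namespace NormMaps

variable {T : Tri K0 F0 k Fb} {S : Poles T} (Nm : NormMaps T S) {n : ℕ}

/-- LEAF RC-N3 **(2b)**.  PROOF. `ν_i := val i f`.  `dvd_val_sub_of_isCP` for `nA f`, `nB f` with `val_oo_nA`, ... :
`n ∣ ν_oo + ν_mid - q ν_zr`, `n ∣ q ν_oo - ν_zr - ν_mid`.  With `λ = ν_zr - ν_oo`, `μ = ν_mid - e ν_oo` (`q = e + 1`):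
`n ∣ (q + 1) λ` (sum of the two), `n ∣ μ - q λ`, so `n ∣ (q + 1) μ`.  Write `(q + 1) μ = n μ'`, `(q + 1) λ = n λ'`;
`h` from `Ψ.exists_val_eq` with valuations `(0, - μ', - λ')`, `c := q ^ (- (q + 1) ν_oo)`.  Valuations of
`c f ^ (q + 1) h ^ n` by `val_mul`, `val_pow`, `val_zpow`, `val_q` (write the constant as `algebraMap (q ^ x) = (q : F0) ^ x`, `map_zpow₀`, `map_natCast`). -/
theorem exists_unit (Ψ : Psi T) {f : F0} (hf : f ≠ 0) (hA : IsCP K0 n (Nm.nA f))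
    (hB : IsCP K0 n (Nm.nB f)) :
    ∃ (c : K0) (h : F0), c ≠ 0 ∧ h ≠ 0 ∧
      ∀ i, T.red i (algebraMap K0 F0 c * f ^ (T.q + 1) * h ^ n) ≠ 0 := by
  have hq : (T.q : ℤ) = T.e + 1 := by
    have := T.he
    omega
  obtain ⟨a, ha⟩ := T.dvd_val_sub_of_isCP hA
  obtain ⟨b, hb⟩ := T.dvd_val_sub_of_isCP hB
  rw [Nm.val_oo_nA hf, Nm.val_zr_nA hf] at ha
  rw [Nm.val_oo_nB hf, Nm.val_zr_nB hf] at hb
  obtain ⟨h, hh, hval⟩ := Ψ.exists_val_eq (fun i => match i with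
    | Cp.oo => 0
    | Cp.mid => -(a - (T.q : ℤ) * b)
    | Cp.zr => a + b)
  have hqF : (T.q : F0) ≠ 0 := T.q_ne'
  refine ⟨(T.q : K0) ^ (-((T.q : ℤ) + 1) * T.val Cp.oo f), h, zpow_ne_zero _ T.q_ne, hh,
    fun i => ?_⟩
  have hc : algebraMap K0 F0 ((T.q : K0) ^ (-((T.q : ℤ) + 1) * T.val Cp.oo f)) =
      (T.q : F0) ^ (-((T.q : ℤ) + 1) * T.val Cp.oo f) := by
    rw [map_zpow₀, map_natCast]
  have h1 : (T.q : F0) ^ (-((T.q : ℤ) + 1) * T.val Cp.oo f) ≠ 0 := zpow_ne_zero _ hqF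
  have h2 : f ^ (T.q + 1) ≠ 0 := pow_ne_zero _ hf
  have h3 : h ^ n ≠ 0 := pow_ne_zero _ hh
  rw [hc, ← T.val_eq_zero_iff i (mul_ne_zero (mul_ne_zero h1 h2) h3),
    T.val_mul i (mul_ne_zero h1 h2) h3, T.val_mul i h1 h2, T.val_zpow i hqF, T.val_pow i hf,
    T.val_pow i hh, T.val_q, hval]
  cases i
  · simp only [reduceCtorEq, if_false]
    push_cast
    ring
  · simp only [if_true]
    push_cast
    rw [hq] at ha hb ⊢
    linear_combination ((T.e : ℤ) + 2) * ha - ((T.e : ℤ) + 1) * (ha + hb)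
  · simp only [reduceCtorEq, if_false]
    push_cast
    linear_combination -(ha + hb)

/-- LEAF RC-N4 **(2c)**.  PROOF. `φ_i := red_i f ≠ 0`, `f` and `f⁻¹` are integral.  `red_nA_oo`, ... give
`red_oo (nA f) = φ_oo φ_mid ^ e`, `red_zr (nA f) = φ_zr ^ q`, `red_zr (nB f) = φ_zr φ_mid ^ e`, `red_oo (nB f) = φ_oo ^ q`, all nonzero; by
`Tri.exists_root_of_isCP` they are `n`-th powers.  `exists_root_of_pow_eq` (`Tri.coprime_of_ne_zero`): `φ_oo = δ_oo ^ n`, `φ_zr = δ_zr ^ n`; then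
`φ_mid ^ e = (γ / δ_oo) ^ n`.  Take `δ = (δ_oo ^ e, γ / δ_oo, δ_zr ^ e)`. -/
theorem exists_roots [IsAlgClosed k] (hn : (n : k) ≠ 0) {f : F0} (hf : ∀ i, T.red i f ≠ 0)
    (hA : IsCP K0 n (Nm.nA f)) (hB : IsCP K0 n (Nm.nB f)) :
    ∃ δ : Cp → Fb, ∀ i, δ i ≠ 0 ∧ T.red i f ^ T.e = δ i ^ n := by
  sorry

/-- **(N2) normalisation.** -/
theorem exists_normalised [IsAlgClosed k] (Ψ : Psi T) (hn : (n : k) ≠ 0) {f : F0} (hf : f ≠ 0)
    (hA : IsCP K0 n (Nm.nA f)) (hB : IsCP K0 n (Nm.nB f)) :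
    ∃ (c : K0) (h : F0), c ≠ 0 ∧ h ≠ 0 ∧
      ∀ i, T.red i (algebraMap K0 F0 c * f ^ ((T.q + 1) * T.e) * h ^ n) = 1 := by
  obtain ⟨c, h, hc, hh, hu⟩ := Nm.exists_unit Ψ hf hA hB
  set f₂ := algebraMap K0 F0 c * f ^ (T.q + 1) * h ^ n with hf₂
  have hA₂ : IsCP K0 n (Nm.nA f₂) := by
    rw [hf₂, map_mul, map_mul, map_pow]
    exact ((Nm.isCP_nA (IsCP.const hc n)).mul (hA.pow _)).mul (Nm.isCP_nA (IsCP.pow_self hh n))
  have hB₂ : IsCP K0 n (Nm.nB f₂) := by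
    rw [hf₂, map_mul, map_mul, map_pow]
    exact ((Nm.isCP_nB (IsCP.const hc n)).mul (hB.pow _)).mul (Nm.isCP_nB (IsCP.pow_self hh n))
  obtain ⟨δ, hδ⟩ := Nm.exists_roots hn hu hA₂ hB₂
  obtain ⟨H, hH, hHred⟩ := Ψ.exists_red_eq δ
  have hH0 : H ≠ 0 := by
    rintro rfl
    have := hHred Cp.oo
    rw [Tri.red, (T.R Cp.oo).red_zero] at this
    exact (hδ Cp.oo).1 this.symm
  refine ⟨c ^ T.e, h ^ T.e / H, pow_ne_zero _ hc, div_ne_zero (pow_ne_zero _ hh) hH0, fun i => ?_⟩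
  have e1 : algebraMap K0 F0 (c ^ T.e) * f ^ ((T.q + 1) * T.e) * (h ^ T.e / H) ^ n
      = f₂ ^ T.e / H ^ n := by
    rw [hf₂, map_pow, div_pow, mul_pow, mul_pow, ← pow_mul, ← pow_mul, ← pow_mul, mul_comm n T.e]
    ring
  have hred : T.red i (H ^ n) = δ i ^ n := by
    rw [Tri.red, (T.R i).red_pow]
    exact congrArg (· ^ n) (hHred i)
  have hne : T.red i (H ^ n) ≠ 0 := by
    rw [hred]
    exact pow_ne_zero n (hδ i).1
  have hmem : f₂ ^ T.e ∈ (T.R i).O := (T.R i).O.pow_mem ((T.R i).mem_of_red_ne_zero (hu i)) _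
  rw [e1, Tri.red, (T.R i).red_div hmem hne, (T.R i).red_pow]
  have h3 : (T.R i).red f₂ ^ T.e = δ i ^ n := (hδ i).2
  have h4 : (T.R i).red (H ^ n) = δ i ^ n := hred
  rw [h3, h4, div_self (pow_ne_zero n (hδ i).1)]

end NormMaps

end Fermat.Agent.S36.RC
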