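import Fermat.Agent.S36.RC.Defs

/-!
# S36/RC: the chain `Λ ⊃ Λ¹ ⊃ Λ²₀ ⊃ ... ⊃ Λ²ₑ = q Λ` and its graded pieces (definitions)
-/

set_option autoImplicit false

noncomputable section

namespace Fermat.Agent.S36.RC

open AlgebraicCurve Fermat.Agent.Lib.RR Fermat.Agent.GAL.RED

variable {K0 F0 k Fb : Type*} [Field K0] [Field F0] [Algebra K0 F0]
  [Field k] [Field Fb] [Algebra k Fb]

namespace Tri

variable (T : Tri K0 F0 k Fb)

theorem smul_eq (a : T.A) (y : F0) : a • y = algebraMap K0 F0 (a : K0) * y := by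
  rw [← Algebra.smul_def]; rfl

theorem algebraMap_mem (i : Cp) (a : T.A) : algebraMap K0 F0 (a : K0) ∈ (T.R i).O :=
  (T.R i).algebraMap_mem _ (by rw [T.hA i]; exact a.2)

theorem red_algebraMap (i : Cp) (a : T.A) :
    T.red i (algebraMap K0 F0 (a : K0)) = algebraMap k Fb ((T.R Cp.oo).redA (a : K0)) := by
  have h : (a : K0) ∈ (T.R i).A := by rw [T.hA i]; exact a.2
  rw [Tri.red, (T.R i).red_algebraMap h, T.hredA]

/-- The image in `Fb` of an `A`-submodule `N` of `F0` under `y ↦ red_i (y / t)`. -/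
def img (i : Cp) (t : F0) (N : Submodule T.A F0) : Submodule k Fb where
  carrier := {u | ∃ y ∈ N, y / t ∈ (T.R i).O ∧ T.red i (y / t) = u}
  zero_mem' := ⟨0, N.zero_mem, by simp [(T.R i).O.zero_mem], by
    rw [zero_div, Tri.red, (T.R i).red_of_mem (T.R i).O.zero_mem]; exact map_zero _⟩
  add_mem' := by
    rintro _ _ ⟨y, hy, hyO, rfl⟩ ⟨z, hz, hzO, rfl⟩
    refine ⟨y + z, N.add_mem hy hz, ?_, ?_⟩
    · rw [add_div]; exact (T.R i).O.add_mem _ _ hyO hzO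
    · rw [add_div]; exact (T.R i).red_add hyO hzO
  smul_mem' := by
    rintro c _ ⟨y, hy, hyO, rfl⟩
    obtain ⟨a, rfl⟩ := (T.R Cp.oo).resA_surjective c
    have e1 : (a • y) / t = algebraMap K0 F0 (a : K0) * (y / t) := by
      rw [T.smul_eq, mul_div_assoc]
    refine ⟨a • y, N.smul_mem a hy, ?_, ?_⟩
    · rw [e1]; exact (T.R i).O.mul_mem _ _ (T.algebraMap_mem i a) hyO
    · rw [e1, Tri.red, (T.R i).red_mul (T.algebraMap_mem i a) hyO]
      have := T.red_algebraMap i a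
      rw [Tri.red] at this
      rw [this, (T.R Cp.oo).redA_of_mem a.2, Algebra.smul_def]

theorem mem_img {i : Cp} {t : F0} {N : Submodule T.A F0} {u : Fb} :
    u ∈ T.img i t N ↔ ∃ y ∈ N, y / t ∈ (T.R i).O ∧ T.red i (y / t) = u := Iff.rfl

end Tri

namespace Kum

variable {T : Tri K0 F0 k Fb} {S : Poles T} {n : ℕ} (κ : Kum S n)

/-- `Λ¹ = {y ∈ Λ : w_oo y ≥ 1}`. -/
def Lam1 (a c : ℕ) : Submodule T.A F0 where
  carrier := {y | y ∈ κ.Lam a c ∧ y / (T.q : F0) ∈ (T.R Cp.oo).O}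
  zero_mem' := ⟨Submodule.zero_mem _, by simp [(T.R Cp.oo).O.zero_mem]⟩
  add_mem' := fun {y z} hy hz =>
    ⟨Submodule.add_mem _ hy.1 hz.1, by rw [add_div]; exact (T.R Cp.oo).O.add_mem _ _ hy.2 hz.2⟩
  smul_mem' := fun a y hy =>
    ⟨Submodule.smul_mem _ a hy.1, by
      rw [T.smul_eq, mul_div_assoc]
      exact (T.R Cp.oo).O.mul_mem _ _ (T.algebraMap_mem _ a) hy.2⟩

/-- `Λ²ᵢ = {y ∈ Λ : w_oo y ≥ 1, w_0 y ≥ 1, w_mid y ≥ i}`. -/
def Lam2 (a c i : ℕ) : Submodule T.A F0 where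
  carrier := {y | y ∈ κ.Lam a c ∧ y / (T.q : F0) ∈ (T.R Cp.oo).O ∧
    y / (T.q : F0) ∈ (T.R Cp.zr).O ∧ y / T.b ^ i ∈ (T.R Cp.mid).O}
  zero_mem' := ⟨Submodule.zero_mem _, by simp [(T.R Cp.oo).O.zero_mem],
    by simp [(T.R Cp.zr).O.zero_mem], by simp [(T.R Cp.mid).O.zero_mem]⟩
  add_mem' := fun {y z} hy hz =>
    ⟨Submodule.add_mem _ hy.1 hz.1,
      by rw [add_div]; exact (T.R Cp.oo).O.add_mem _ _ hy.2.1 hz.2.1,
      by rw [add_div]; exact (T.R Cp.zr).O.add_mem _ _ hy.2.2.1 hz.2.2.1,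
      by rw [add_div]; exact (T.R Cp.mid).O.add_mem _ _ hy.2.2.2 hz.2.2.2⟩
  smul_mem' := fun a y hy =>
    ⟨Submodule.smul_mem _ a hy.1,
      by rw [T.smul_eq, mul_div_assoc]
         exact (T.R Cp.oo).O.mul_mem _ _ (T.algebraMap_mem _ a) hy.2.1,
      by rw [T.smul_eq, mul_div_assoc]
         exact (T.R Cp.zr).O.mul_mem _ _ (T.algebraMap_mem _ a) hy.2.2.1,
      by rw [T.smul_eq, mul_div_assoc]
         exact (T.R Cp.mid).O.mul_mem _ _ (T.algebraMap_mem _ a) hy.2.2.2⟩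

/-- the piece `oo`. -/
def imOO (a c : ℕ) : Submodule k Fb := T.img Cp.oo 1 (κ.Lam a c)

/-- the piece `zr`. -/
def imZR (a c : ℕ) : Submodule k Fb := T.img Cp.zr 1 (κ.Lam1 a c)

/-- the piece `(mid, i)`. -/
def imMID (a c i : ℕ) : Submodule k Fb := T.img Cp.mid (T.b ^ i) (κ.Lam2 a c i)

end Kum

end Fermat.Agent.S36.RC
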