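import Fermat.Agent.S36.RC.Count

/-!
# S36/RC: sections, gluing values at the supersingular points, correction to constant reductions
-/

set_option autoImplicit false

noncomputable section

namespace Fermat.Agent.S36.RC

open AlgebraicCurve Fermat.Agent.Lib.RR Fermat.Agent.GAL.RED Fermat.Agent.Lib.PlaceEval

variable {K0 F0 k Fb : Type*} [Field K0] [Field F0] [Algebra K0 F0]
  [Field k] [Field Fb] [Algebra k Fb] [IsAlgClosed k] [IsFF k Fb]

/-- the local computation: `ord_P (u - ζ) = ord_P (u ^ n - 1)` if `u(P) = ζ`, `ζ ^ n = 1`. -/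
theorem Section_ord_sub {u : Fb} {ζ : k} {n : ℕ} (hn : (n : k) ≠ 0) (P : Place k Fb)
    (hu0 : 0 ≤ P.ord u) (hev : ev P u = ζ) (hζ : ζ ^ n = 1) (hne : u ^ n ≠ 1) :
    P.ord (u - algebraMap k Fb ζ) = P.ord (u ^ n - 1) := by
  have hmem : u ∈ P.toValuationSubring := (mem_iff P).2 hu0
  set u' : P.toValuationSubring := ⟨u, hmem⟩ with hu'
  set z' : P.toValuationSubring := algebraMap k P.toValuationSubring ζ with hz'
  set s' : P.toValuationSubring := ∑ i ∈ Finset.range n, u' ^ i * z' ^ (n - 1 - i) with hs'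
  have hn0 : n ≠ 0 := by
    rintro rfl
    simp at hn
  have hζ0 : ζ ≠ 0 := by
    rintro rfl
    rw [zero_pow hn0] at hζ
    exact zero_ne_one hζ
  have h1 : (s' : Fb) * (u - algebraMap k Fb ζ) = u ^ n - 1 := by
    have h2 := congrArg (Subtype.val) (Commute.geom_sum₂_mul (Commute.all u' z') n)
    rw [← hs'] at h2
    have h3 : ((s' * (u' - z') : P.toValuationSubring) : Fb) = (s' : Fb) * (u - algebraMap k Fb ζ) :=
      rfl
    have h4 : ((u' ^ n - z' ^ n : P.toValuationSubring) : Fb) = u ^ n - (algebraMap k Fb ζ) ^ n := rfl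
    rw [h3, h4, ← map_pow, hζ, map_one] at h2
    exact h2
  have h5 : evHom P s' = (n : k) * ζ ^ (n - 1) := by
    rw [hs', map_sum]
    have h6 : ∀ i ∈ Finset.range n, evHom P (u' ^ i * z' ^ (n - 1 - i)) = ζ ^ (n - 1) := by
      intro i hi
      rw [Finset.mem_range] at hi
      rw [map_mul, map_pow, map_pow, hz', evHom_algebraMap, hu', ← ev_of_mem P hmem, hev, ← pow_add]
      congr 1
      omega
    rw [Finset.sum_congr rfl h6, Finset.sum_const, Finset.card_range, nsmul_eq_mul]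
  have h7 : ev P (s' : Fb) ≠ 0 := by
    rw [ev_of_mem P s'.2]
    show evHom P s' ≠ 0
    rw [h5]
    exact mul_ne_zero hn (pow_ne_zero _ hζ0)
  have h8 : 0 ≤ P.ord (s' : Fb) := (mem_iff P).1 s'.2
  rw [Ne, ev_eq_zero_iff P h8, not_or] at h7
  have h9 : u ^ n - 1 ≠ 0 := sub_ne_zero.2 hne
  have h10 : u - algebraMap k Fb ζ ≠ 0 := by
    intro h
    rw [h, mul_zero] at h1
    exact h9 h1.symm
  rw [← h1, P.ord_mul h7.1 h10]
  omega

/-- LEAF RC-S0 (pure function field).  At `P` with `Δ P ≤ 0`: `ord_P (u - ζ) ≥ min (ord_P u) 0 ≥ - D P`.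
At `P` with `0 < Δ P`: `ord_P u ≥ 0`, `u(P) = ζ`; if `u ^ n = 1` then `u` is a constant
(`GAL.FF.exists_algebraMap_eq_of_isAlgebraic'`), `u = ζ`.  Otherwise `ζ ^ n = 1` (evaluate),
`u ^ n - 1 = (u - ζ) Σ_j u ^ j ζ ^ (n - 1 - j)` (`Commute.mul_geom_sum₂` / `mul_geom_sum₂`), and the value
of the sum at `P` is `n ζ ^ (n - 1) ≠ 0`, so `ord_P (u - ζ) = ord_P (u ^ n - 1)`. -/
theorem sub_const_mem {D Δ : Divisor k Fb} {u : Fb} {ζ : k} {n : ℕ} (hn : (n : k) ≠ 0)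
    (hD : 0 ≤ D) (hu : u ∈ riemannRochSpace D)
    (h : ∀ P : Place k Fb, 0 < Δ P →
      D P = 0 ∧ ev P u = ζ ∧ (u ^ n = 1 ∨ Δ P ≤ P.ord (u ^ n - 1))) :
    u - algebraMap k Fb ζ ∈ riemannRochSpace (D - Δ) := by
  have hn0 : n ≠ 0 := by
    rintro rfl
    simp at hn
  have h1 : u - algebraMap k Fb ζ ∈ riemannRochSpace D :=
    Submodule.sub_mem _ hu (L_mono hD (algebraMap_mem_L_zero ζ))
  rw [mem_riemannRochSpace_iff] at h1 hu ⊢
  intro P
  rw [Finsupp.sub_apply]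
  by_cases hΔ : 0 < Δ P
  · obtain ⟨hDP, hev, h2⟩ := h P hΔ
    have hu0 : 0 ≤ P.ord u := by
      rcases hu P with rfl | h3
      · simp
      · rw [hDP] at h3
        simpa using h3
    by_cases hone : u ^ n = 1
    · left
      obtain ⟨c, rfl⟩ : u ∈ Set.range (algebraMap k Fb) := by
        refine mem_range_of_ord_nonneg fun Q => ?_
        have h6 := ord_pow Q u n
        rw [hone, Q.ord_one] at h6
        have h7 : Q.ord u = 0 := by
          rcases mul_eq_zero.1 h6.symm with h8 | h8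
          · exact absurd (by exact_mod_cast h8) hn0
          · exact h8
        exact h7.ge
      rw [ev_algebraMap] at hev
      rw [hev, sub_self]
    · right
      have h3 := h2.resolve_left hone
      have h4 : ev P (u ^ n - 1) = 0 := ev_eq_zero_of_pos P (lt_of_lt_of_le hΔ h3)
      have h5 : 0 ≤ P.ord (u ^ n) := by
        rw [ord_pow]
        positivity
      rw [ev_sub P h5 (by simp), ev_pow P hu0, hev, ev_one, sub_eq_zero] at h4
      rw [Section_ord_sub hn P hu0 hev h4 hone, hDP]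
      omega
  · rcases h1 P with h2 | h2
    · exact Or.inl h2
    · right
      omega

namespace Poles

variable {T : Tri K0 F0 k Fb} (S : Poles T)

/-- the supersingular points. -/
def SS : Set (Place k Fb) := {P | 0 < S.m P}

variable {S}

/-- LEAF RC-S1. `m_X`, `m_Y`. -/
theorem E_eq_zero {P : Place k Fb} (hP : P ∈ S.SS) (i : Cp) (a c : ℕ) : S.E i a c P = 0 := by
  have hP' : 0 < S.m P := hP
  rw [E_apply, (S.m_X i P).resolve_left hP'.ne', (S.m_Y i P).resolve_left hP'.ne']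
  simp

/-- LEAF RC-S1. -/
theorem E_nonneg (i : Cp) (a c : ℕ) : 0 ≤ S.E i a c := by
  intro P
  rw [E_apply]
  have h1 : 0 ≤ S.X i P := S.X_nonneg i P
  have h2 : 0 ≤ S.Y i P := S.Y_nonneg i P
  show (0 : ℤ) ≤ _
  positivity

/-- LEAF RC-S1. `le_DD_iff`. -/
theorem DD_pos_iff {P : Place k Fb} : 0 < S.DD P ↔ P ∈ S.SS := by
  rw [← not_le, le_DD_iff, mul_zero, not_le]
  rfl

/-- LEAF RC-S1. `le_Bd_iff` with `i = 0`. -/
theorem Bd_zero_pos_iff {P : Place k Fb} : 0 < S.Bd 0 P ↔ P ∈ S.SS := by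
  rw [← not_le, le_Bd_iff, mul_zero, not_le]
  show _ ↔ 0 < S.m P
  have he : 0 < (T.e : ℤ) := by
    have h1 := T.q_prime.two_le
    have h2 := T.he
    have : 0 < T.e := by omega
    exact_mod_cast this
  simp only [Nat.cast_zero, sub_zero, zero_mul]
  constructor
  · intro h
    by_contra hcon
    have : S.m P ≤ 0 := not_lt.1 hcon
    nlinarith
  · intro h
    positivity

/-- LEAF RC-S1. -/
theorem ord_nonneg {P : Place k Fb} (hP : P ∈ S.SS) {i : Cp} {a c : ℕ} {u : Fb}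
    (hu : u ∈ riemannRochSpace (S.E i a c)) : 0 ≤ P.ord u := by
  rcases mem_riemannRochSpace_iff.1 hu P with rfl | h
  · simp
  · rw [E_eq_zero hP] at h
    simpa using h

/-- LEAF RC-S1. -/
theorem ev_eq_zero {P : Place k Fb} (hP : P ∈ S.SS) {i : Cp} {a c : ℕ} {u : Fb}
    (hu : u ∈ riemannRochSpace (S.E i a c - S.DD)) : ev P u = 0 := by
  rcases mem_riemannRochSpace_iff.1 hu P with rfl | h
  · simp
  · rw [Finsupp.sub_apply, E_eq_zero hP] at h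
    have h1 := DD_pos_iff.2 hP
    exact ev_eq_zero_of_pos P (by omega)

/-- LEAF RC-S2 (G1). `ker_oo`; `van_zr` with `α = 1`; `van_mid` with `α = 1`, `γ = 0`; `mem_L_sub_DD`. -/
theorem van_of_red_oo {a c : ℕ} {ρ : F0} (h : ρ ∈ S.L a c) (hI : T.Int ρ)
    (h0 : T.red Cp.oo ρ = 0) :
    T.red Cp.zr ρ ∈ riemannRochSpace (S.E Cp.zr a c - S.DD) ∧
    T.red Cp.mid ρ ∈ riemannRochSpace (S.E Cp.mid a c - S.DD) := by
  have h1 : ρ / (T.q : F0) ^ 1 ∈ (T.R Cp.oo).O := by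
    rw [pow_one]
    exact T.ker_oo ρ (hI Cp.oo) h0
  constructor
  · apply S.mem_L_sub_DD
    have h2 := S.van_zr a c 1 ρ h hI h1
    simpa [E] using h2
  · apply S.mem_L_sub_DD
    have h2 := S.van_mid a c 1 0 ρ h hI h1 (by simpa using hI Cp.zr)
    simpa [E] using h2

/-- LEAF RC-S2 (G2). `ker_oo`, `ker_zr`; `van_mid` with `α = γ = 1`; `le_Bd_iff` with `i = 0`. -/
theorem van_of_red_oo_zr {a c : ℕ} {ρ : F0} (h : ρ ∈ S.L a c) (hI : T.Int ρ)
    (h0 : T.red Cp.oo ρ = 0) (h1 : T.red Cp.zr ρ = 0) :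
    T.red Cp.mid ρ ∈ riemannRochSpace (S.E Cp.mid a c - S.Bd 0) := by
  have h2 : ρ / (T.q : F0) ^ 1 ∈ (T.R Cp.oo).O := by
    rw [pow_one]
    exact T.ker_oo ρ (hI Cp.oo) h0
  have h3 : ρ / (T.q : F0) ^ 1 ∈ (T.R Cp.zr).O := by
    rw [pow_one]
    exact T.ker_zr ρ (hI Cp.zr) h1
  have h4 := S.van_mid a c 1 1 ρ h hI h2 h3
  rw [mem_riemannRochSpace_iff] at h4 ⊢
  intro P
  by_cases hz : T.red Cp.mid ρ = 0
  · exact Or.inl hz
  right
  have h5 := (h4 P).resolve_left (pow_ne_zero _ hz)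
  rw [ord_pow] at h5
  rw [Finsupp.sub_apply]
  have h6 : S.Bd 0 P ≤ S.E Cp.mid a c P + P.ord (T.red Cp.mid ρ) := by
    rw [le_Bd_iff]
    have he : 0 < (T.e : ℤ) := by
      have h1 := T.q_prime.two_le
      have h2 := T.he
      have : 0 < T.e := by omega
      exact_mod_cast this
    simp only [Finsupp.sub_apply, Finsupp.smul_apply, Finsupp.add_apply, smul_eq_mul,
      Nat.cast_one] at h5
    rw [E_apply]
    simp only [Nat.cast_zero, sub_zero, zero_mul]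
    nlinarith
  omega

/-- LEAF RC-S3. Apply `van_of_red_oo` to `Z - Z' ∈ L (max a a') (max c c')`; `S.int`, `ord_nonneg`,
`ev_sub`, `ev_eq_zero`. -/
theorem ev_eq_of_red_oo_eq {a c a' c' : ℕ} {Z Z' : F0} (hZ : Z ∈ S.L a c) (hI : T.Int Z)
    (hZ' : Z' ∈ S.L a' c') (hI' : T.Int Z') (h : T.red Cp.oo Z = T.red Cp.oo Z')
    {P : Place k Fb} (hP : P ∈ S.SS) :
    ev P (T.red Cp.zr Z) = ev P (T.red Cp.zr Z') ∧
    ev P (T.red Cp.mid Z) = ev P (T.red Cp.mid Z') := by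
  have h1 : Z - Z' ∈ S.L (max a a') (max c c') :=
    Submodule.sub_mem _ (S.L_mono (le_max_left _ _) (le_max_left _ _) hZ)
      (S.L_mono (le_max_right _ _) (le_max_right _ _) hZ')
  have h2 : T.Int (Z - Z') := fun i => (T.R i).O.sub_mem (hI i) (hI' i)
  have hsub : ∀ i, T.red i (Z - Z') = T.red i Z - T.red i Z' := fun i =>
    Kum.End_red_sub _ (hI i) (hI' i)
  have h3 := van_of_red_oo h1 h2 (by rw [hsub, h, sub_self])
  have h4 : ∀ i, 0 ≤ P.ord (T.red i Z) := fun i => ord_nonneg hP (S.int a c Z hZ hI i)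
  have h5 : ∀ i, 0 ≤ P.ord (T.red i Z') := fun i => ord_nonneg hP (S.int a' c' Z' hZ' hI' i)
  constructor
  · have h6 := ev_eq_zero hP h3.1
    rw [hsub, ev_sub P (h4 _) (h5 _), sub_eq_zero] at h6
    exact h6
  · have h6 := ev_eq_zero hP h3.2
    rw [hsub, ev_sub P (h4 _) (h5 _), sub_eq_zero] at h6
    exact h6

end Poles

namespace Kum

variable {T : Tri K0 F0 k Fb} {S : Poles T} {n : ℕ} (κ : Kum S n)

omit [IsAlgClosed k] [IsFF k Fb] in
/-- LEAF RC-S4. -/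
theorem pow_mul_f {a c : ℕ} {y : F0} (hy : y ∈ κ.Lam a c) :
    y ^ n * κ.f ∈ S.L (n * a) (n * c) ∧ T.Int (y ^ n * κ.f) ∧
      ∀ i, T.red i (y ^ n * κ.f) = T.red i y ^ n := by
  refine ⟨(κ.mem_Mf a c y).1 hy.1, (hy.2.pow n).mul κ.int_f, fun i => ?_⟩
  rw [Tri.red, (T.R i).red_mul ((hy.2.pow n) i) (κ.int_f i), (T.R i).red_pow,
    show (T.R i).red κ.f = 1 from κ.red_f i, mul_one]

/-- LEAF RC-S4. `count`: `1 ∈ L(E_oo) = imOO`. -/
theorem exists_section {a c : ℕ} (h : κ.Good a c) : ∃ y ∈ κ.Lam a c, T.red Cp.oo y = 1 := by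
  have h1 : (1 : Fb) ∈ riemannRochSpace (S.E Cp.oo a c) := by
    have h2 := L_mono (Poles.E_nonneg (S := S) Cp.oo a c) (algebraMap_mem_L_zero (K := k) (F := Fb) 1)
    rwa [map_one] at h2
  rw [← (κ.count h).1] at h1
  obtain ⟨y, hy, -, hy1⟩ := h1
  rw [div_one] at hy1
  exact ⟨y, hy, hy1⟩

/-- LEAF RC-S5. `ev_eq_of_red_oo_eq` for `Z = y ^ n f`, `Z' = 1`. -/
theorem ev_pow_eq_one {a c : ℕ} {y : F0} (hy : y ∈ κ.Lam a c) (h1 : T.red Cp.oo y = 1)
    {P : Place k Fb} (hP : P ∈ S.SS) :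
    ev P (T.red Cp.zr y) ^ n = 1 ∧ ev P (T.red Cp.mid y) ^ n = 1 := by
  obtain ⟨hL, hI, hr⟩ := κ.pow_mul_f hy
  have hoo : T.red Cp.oo (y ^ n * κ.f) = T.red Cp.oo 1 := by
    rw [hr, h1, one_pow]
    exact ((T.R Cp.oo).red_one).symm
  obtain ⟨e1, e2⟩ := Poles.ev_eq_of_red_oo_eq hL hI S.one_mem Tri.Int.one hoo hP
  rw [hr, show T.red Cp.zr (1 : F0) = 1 from (T.R Cp.zr).red_one, ev_one,
    ev_pow P (Poles.ord_nonneg hP (κ.red_mem_E hy Cp.zr))] at e1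
  rw [hr, show T.red Cp.mid (1 : F0) = 1 from (T.R Cp.mid).red_one, ev_one,
    ev_pow P (Poles.ord_nonneg hP (κ.red_mem_E hy Cp.mid))] at e2
  exact ⟨e1, e2⟩

/-- LEAF RC-S5 (independence of the chart). `ρ = y y' ^ (n - 1) f`;
`ρ ^ n = (y ^ n f) (y' ^ n f) ^ (n - 1) ∈ L (n (a + (n - 1) a')) (n (c + (n - 1) c'))`, so
`ρ ∈ L (a + (n - 1) a') (c + (n - 1) c')` by `L_root`; `ρ` is integral, `red_oo ρ = 1`;
`ev_eq_of_red_oo_eq` for `Z = ρ`, `Z' = 1`; `ev_pow_eq_one` for `y'`. -/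
theorem ev_eq_of_sections {a c a' c' : ℕ} {y y' : F0} (hy : y ∈ κ.Lam a c)
    (hy' : y' ∈ κ.Lam a' c') (h1 : T.red Cp.oo y = 1) (h1' : T.red Cp.oo y' = 1)
    {P : Place k Fb} (hP : P ∈ S.SS) :
    ev P (T.red Cp.zr y) = ev P (T.red Cp.zr y') ∧
    ev P (T.red Cp.mid y) = ev P (T.red Cp.mid y') := by
  obtain ⟨m, rfl⟩ : ∃ m, n = m + 1 := ⟨n - 1, by have := κ.n_pos; omega⟩
  obtain ⟨hL, hI, hr⟩ := κ.pow_mul_f hy
  obtain ⟨hL', hI', hr'⟩ := κ.pow_mul_f hy'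
  set ρ : F0 := y * y' ^ m * κ.f with hρ
  have hρI : T.Int ρ := (hy.2.mul (hy'.2.pow m)).mul κ.int_f
  have hρn : ρ ^ (m + 1) = (y ^ (m + 1) * κ.f) * (y' ^ (m + 1) * κ.f) ^ m := by
    rw [hρ]
    ring
  have hρL : ρ ∈ S.L (a + m * a') (c + m * c') := by
    apply S.L_root (m + 1) _ _ _ (Nat.succ_pos m)
    rw [hρn]
    have h2 := S.L_mul hL (L_pow hL' m)
    have ea : (m + 1) * a + m * ((m + 1) * a') = (m + 1) * (a + m * a') := by ring
    have ec : (m + 1) * c + m * ((m + 1) * c') = (m + 1) * (c + m * c') := by ring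
    rwa [ea, ec] at h2
  have hρr : ∀ i, T.red i ρ = T.red i y * T.red i y' ^ m := by
    intro i
    rw [hρ, Tri.red, (T.R i).red_mul ((hy.2.mul (hy'.2.pow m)) i) (κ.int_f i),
      (T.R i).red_mul (hy.2 i) ((hy'.2.pow m) i), (T.R i).red_pow,
      show (T.R i).red κ.f = 1 from κ.red_f i, mul_one]
  have hoo : T.red Cp.oo ρ = T.red Cp.oo 1 := by
    rw [hρr, h1, h1', one_pow, one_mul]
    exact ((T.R Cp.oo).red_one).symm
  obtain ⟨e1, e2⟩ := Poles.ev_eq_of_red_oo_eq hρL hρI S.one_mem Tri.Int.one hoo hP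
  obtain ⟨f1, f2⟩ := κ.ev_pow_eq_one hy' h1' hP
  have key : ∀ i, ev P (T.red i ρ) = ev P (T.red i (1 : F0)) → ev P (T.red i y') ^ (m + 1) = 1 →
      ev P (T.red i y) = ev P (T.red i y') := by
    intro i e f
    have o1 := Poles.ord_nonneg hP (κ.red_mem_E hy i)
    have o2 := Poles.ord_nonneg hP (κ.red_mem_E hy' i)
    have o3 : 0 ≤ P.ord (T.red i y' ^ m) := by
      rw [← mem_iff] at o2 ⊢
      exact pow_mem o2 m
    rw [hρr, show T.red i (1 : F0) = 1 from (T.R i).red_one, ev_one, ev_mul P o1 o3,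
      ev_pow P o2] at e
    rw [pow_succ'] at f
    have hne : ev P (T.red i y') ^ m ≠ 0 := by
      intro h0
      rw [h0, mul_zero] at f
      exact zero_ne_one f
    exact mul_right_cancel₀ hne (e.trans f.symm)
  exact ⟨key _ e1 f1, key _ e2 f2⟩

omit [IsAlgClosed k] [IsFF k Fb] in
/-- `y / q ∈ O_i ⟹ red_i y = 0`. -/
theorem Section_red_eq_zero_of_div (i : Cp) {y : F0} (h : y / (T.q : F0) ∈ (T.R i).O) :
    T.red i y = 0 := by
  have e : y = (T.q : F0) * (y / (T.q : F0)) := by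
    rw [mul_div_cancel₀ _ T.q_ne']
  rw [e, Tri.red, (T.R i).red_mul (T.q_mem i) h]
  have : (T.R i).red (T.q : F0) = 0 := T.red_q i
  rw [this, zero_mul]

omit [IsAlgClosed k] [IsFF k Fb] in
/-- the auxiliary function `ρ = y ^ n f - 1`. -/
theorem Section_rho {a c : ℕ} {y : F0} (hy : y ∈ κ.Lam a c) :
    y ^ n * κ.f - 1 ∈ S.L (n * a) (n * c) ∧ T.Int (y ^ n * κ.f - 1) ∧
      ∀ i, T.red i (y ^ n * κ.f - 1) = T.red i y ^ n - 1 := by
  obtain ⟨h1, h2, h3⟩ := κ.pow_mul_f hy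
  refine ⟨Submodule.sub_mem _ h1 (S.L_mono (Nat.zero_le _) (Nat.zero_le _) S.one_mem),
    h2.sub Tri.Int.one, fun i => ?_⟩
  rw [Tri.red, End_red_sub _ (h2 i) (Tri.Int.one i)]
  have e1 : (T.R i).red (y ^ n * κ.f) = T.red i y ^ n := h3 i
  have e2 : (T.R i).red (1 : F0) = 1 := by
    rw [(T.R i).red_of_mem (T.R i).O.one_mem]
    exact map_one _
  rw [e1, e2]

/-- LEAF RC-S6 (first correction). `u = red_zr y`; `u - ζ₀ ∈ L(E_zr - DD)` by `sub_const_mem`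
(`D = E_zr a c`, `Δ = DD`; `u ^ n - 1 = red_zr (y ^ n f - 1)`, `van_of_red_oo`); `count` gives
`y' ∈ Λ¹` with `red_zr y' = u - ζ₀`; take `y - y'`; `red_oo y' = 0`, and `red_mid y'` vanishes on `SS`
(`red_mid_mem_of_mem_Lam1`, `ev_eq_zero`). -/
theorem exists_section_zr {a c : ℕ} (h : κ.Good a c) {y : F0} (hy : y ∈ κ.Lam a c)
    (h1 : T.red Cp.oo y = 1) (ζ₀ : k) (h0 : ∀ P ∈ S.SS, ev P (T.red Cp.zr y) = ζ₀) :
    ∃ y₁ ∈ κ.Lam a c, T.red Cp.oo y₁ = 1 ∧ T.red Cp.zr y₁ = algebraMap k Fb ζ₀ ∧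
      ∀ P ∈ S.SS, ev P (T.red Cp.mid y₁) = ev P (T.red Cp.mid y) := by
  obtain ⟨hρL, hρI, hρr⟩ := κ.Section_rho hy
  have hu : T.red Cp.zr y ∈ riemannRochSpace (S.E Cp.zr a c) := κ.red_mem_E hy Cp.zr
  have hmem : T.red Cp.zr y - algebraMap k Fb ζ₀ ∈ riemannRochSpace (S.E Cp.zr a c - S.DD) := by
    refine sub_const_mem (n := n) κ.n_ne (Poles.E_nonneg Cp.zr a c) hu fun P hP => ?_
    have hPS : P ∈ S.SS := Poles.DD_pos_iff.mp hP
    refine ⟨Poles.E_eq_zero hPS _ _ _, h0 P hPS, ?_⟩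
    have hv := (Poles.van_of_red_oo hρL hρI (by rw [hρr, h1, one_pow, sub_self])).1
    rw [hρr, mem_riemannRochSpace_iff] at hv
    rcases hv P with h | h
    · exact Or.inl (sub_eq_zero.mp h)
    · right
      rw [Finsupp.sub_apply, Poles.E_eq_zero hPS, zero_sub, neg_neg] at h
      exact h
  rw [← (κ.count h).2.1] at hmem
  obtain ⟨y', hy', -, hy'r⟩ := hmem
  rw [div_one] at hy'r
  have hy'L : y' ∈ κ.Lam a c := κ.Lam1_le a c hy'
  have hoo' : T.red Cp.oo y' = 0 := Section_red_eq_zero_of_div Cp.oo hy'.2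
  refine ⟨y - y', Submodule.sub_mem _ hy hy'L, ?_, ?_, fun P hP => ?_⟩
  · rw [Tri.red, End_red_sub _ (hy.2 _) (hy'L.2 _)]
    have e1 : (T.R Cp.oo).red y = 1 := h1
    have e2 : (T.R Cp.oo).red y' = 0 := hoo'
    rw [e1, e2, sub_zero]
  · rw [Tri.red, End_red_sub _ (hy.2 _) (hy'L.2 _)]
    have e2 : (T.R Cp.zr).red y' = T.red Cp.zr y - algebraMap k Fb ζ₀ := hy'r
    rw [e2]
    show T.red Cp.zr y - (T.red Cp.zr y - algebraMap k Fb ζ₀) = _
    rw [sub_sub_cancel]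
  · rw [Tri.red, End_red_sub _ (hy.2 _) (hy'L.2 _)]
    have o1 : 0 ≤ P.ord (T.red Cp.mid y) := Poles.ord_nonneg hP (κ.red_mem_E hy Cp.mid)
    have o2 : 0 ≤ P.ord (T.red Cp.mid y') := Poles.ord_nonneg hP (κ.red_mem_E hy'L Cp.mid)
    have e0 : ev P (T.red Cp.mid y') = 0 := Poles.ev_eq_zero hP (κ.red_mid_mem_of_mem_Lam1 hy')
    show ev P (T.red Cp.mid y - T.red Cp.mid y') = _
    rw [ev_sub P o1 o2, e0, sub_zero]

/-- LEAF RC-S7 (second correction). `u = red_mid y`; `u - ζ₁ ∈ L(E_mid - Bd 0)` by `sub_const_mem`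
(`Δ = Bd 0`; if `0 < Bd 0 P` then `P ∈ SS`, so `ζ₀ ^ n = 1` by `ev_pow_eq_one`, so `ρ = y ^ n f - 1` has
`red_oo ρ = red_zr ρ = 0`: `van_of_red_oo_zr`); `count` (`i = 0 < e`) gives `y'' ∈ Λ²₀` with
`red_mid y'' = u - ζ₁`; take `y - y''`. -/
theorem exists_section_mid {a c : ℕ} (h : κ.Good a c) {y : F0} (hy : y ∈ κ.Lam a c)
    (h1 : T.red Cp.oo y = 1) (ζ₀ ζ₁ : k) (h0 : T.red Cp.zr y = algebraMap k Fb ζ₀)
    (h2 : ∀ P ∈ S.SS, ev P (T.red Cp.mid y) = ζ₁) :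
    ∃ y₂ ∈ κ.Lam a c, T.red Cp.oo y₂ = 1 ∧ T.red Cp.zr y₂ = algebraMap k Fb ζ₀ ∧
      T.red Cp.mid y₂ = algebraMap k Fb ζ₁ := by
  obtain ⟨hρL, hρI, hρr⟩ := κ.Section_rho hy
  have he : 0 < T.e := by
    have h1 := T.he
    have h2 := T.q_prime.two_le
    omega
  have hu : T.red Cp.mid y ∈ riemannRochSpace (S.E Cp.mid a c) := κ.red_mem_E hy Cp.mid
  have hmem : T.red Cp.mid y - algebraMap k Fb ζ₁ ∈
      riemannRochSpace (S.E Cp.mid a c - S.Bd 0) := by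
    refine sub_const_mem (n := n) κ.n_ne (Poles.E_nonneg Cp.mid a c) hu fun P hP => ?_
    have hPS : P ∈ S.SS := Poles.Bd_zero_pos_iff.mp hP
    refine ⟨Poles.E_eq_zero hPS _ _ _, h2 P hPS, ?_⟩
    have hζ : ζ₀ ^ n = 1 := by
      have := (κ.ev_pow_eq_one hy h1 hPS).1
      rwa [h0, ev_algebraMap] at this
    have hv := Poles.van_of_red_oo_zr hρL hρI (by rw [hρr, h1, one_pow, sub_self])
      (by rw [hρr, h0, ← map_pow, hζ, map_one, sub_self])
    rw [hρr, mem_riemannRochSpace_iff] at hv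
    rcases hv P with h | h
    · exact Or.inl (sub_eq_zero.mp h)
    · right
      rw [Finsupp.sub_apply, Poles.E_eq_zero hPS, zero_sub, neg_neg] at h
      exact h
  rw [← (κ.count h).2.2 0 he] at hmem
  obtain ⟨y', hy', -, hy'r⟩ := hmem
  rw [pow_zero, div_one] at hy'r
  have hy'L : y' ∈ κ.Lam a c := κ.Lam2_le a c 0 hy'
  have hoo' : T.red Cp.oo y' = 0 := Section_red_eq_zero_of_div Cp.oo hy'.2.1
  have hzr' : T.red Cp.zr y' = 0 := Section_red_eq_zero_of_div Cp.zr hy'.2.2.1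
  refine ⟨y - y', Submodule.sub_mem _ hy hy'L, ?_, ?_, ?_⟩
  · rw [Tri.red, End_red_sub _ (hy.2 _) (hy'L.2 _)]
    have e1 : (T.R Cp.oo).red y = 1 := h1
    have e2 : (T.R Cp.oo).red y' = 0 := hoo'
    rw [e1, e2, sub_zero]
  · rw [Tri.red, End_red_sub _ (hy.2 _) (hy'L.2 _)]
    have e1 : (T.R Cp.zr).red y = algebraMap k Fb ζ₀ := h0
    have e2 : (T.R Cp.zr).red y' = 0 := hzr'
    rw [e1, e2, sub_zero]
  · rw [Tri.red, End_red_sub _ (hy.2 _) (hy'L.2 _)]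
    have e2 : (T.R Cp.mid).red y' = T.red Cp.mid y - algebraMap k Fb ζ₁ := hy'r
    rw [e2]
    show T.red Cp.mid y - (T.red Cp.mid y - algebraMap k Fb ζ₁) = _
    rw [sub_sub_cancel]

/-- a section with constant gluing values can be corrected to a section with constant reductions. -/
theorem exists_const_section {a c : ℕ} (h : κ.Good a c) {y : F0} (hy : y ∈ κ.Lam a c)
    (h1 : T.red Cp.oo y = 1) (ζ₀ ζ₁ : k) (h0 : ∀ P ∈ S.SS, ev P (T.red Cp.zr y) = ζ₀)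
    (h2 : ∀ P ∈ S.SS, ev P (T.red Cp.mid y) = ζ₁) :
    ∃ y₂ ∈ κ.Lam a c, T.red Cp.oo y₂ = 1 ∧ T.red Cp.zr y₂ = algebraMap k Fb ζ₀ ∧
      T.red Cp.mid y₂ = algebraMap k Fb ζ₁ := by
  obtain ⟨y₁, hy₁, h11, h10, h12⟩ := κ.exists_section_zr h hy h1 ζ₀ h0
  exact κ.exists_section_mid h hy₁ h11 ζ₀ ζ₁ h10 (fun P hP => by rw [h12 P hP, h2 P hP])

end Kum

end Fermat.Agent.S36.RC
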