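import Fermat.Agent.S36.RC.FromLvl
import Fermat.Agent.S36R.Top.Shared

/-!
# S36, route RC: the concrete contract and the top

`RCConc S` (`S : NormC.Setup A M q`) = exactly the hypotheses of `abstract_RC` for `D = S.lvl`.
`RCConc.concl` : `S36R.Top.Concl S d`, `d = (q+1)(q-1)(q-1)(q²-1)`; `theoremX_of_rcConc` : Theorem X.
-/

set_option autoImplicit false
set_option linter.unusedSectionVars false

noncomputable section

namespace Fermat.Agent.S36.RC

open AlgebraicCurve ModularCurve Fermat.Agent.S24 Fermat.Agent.GAL Fermat.Agent.Lib.RR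
  Fermat.Agent.GAL.RED Fermat.Agent.S36R Fermat.Agent.S36R.NormC

variable {A : ValuationSubring Kbar} {M q : ℕ} [NeZero M] [NeZero q]

/-- **The concrete contract of route RC.** -/
structure RCConc (S : Setup A M q) where
  /-- the residue field of `A` -/
  k : Type
  /-- the function field of the Igusa curve of level `M` -/
  Fb : Type
  [fk : Field k]
  [fFb : Field Fb]
  [alg : Algebra k Fb]
  [ac : IsAlgClosed k]
  [ff : Fermat.Agent.Lib.RR.IsFF k Fb]
  /-- the three residue maps -/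
  T : Tri (K0 A) S.F k Fb
  T_q : T.q = q
  link : Link S.lvl T
  good : S.lvl.Good (O0 A) q
  resF : ResF S.lvl
  /-- the pole spaces -/
  P : Poles T
  /-- the old functions -/
  old : Old P
  stabA : ∀ (a : ℕ) (z : S.F), z ∈ P.L a 0 → ∃ a', S.lvl.al (S.lvl.NA z) ∈ P.L a' 0
  stabB : ∀ (a : ℕ) (z : S.F), z ∈ P.L a 0 → ∃ a', S.lvl.be (S.lvl.NB z) ∈ P.L a' 0
  kum : ∀ n : ℕ, 0 < n → n.Coprime q → ∀ f : S.F, f ≠ 0 →
    (∀ Q : Place (K0 A) S.F, (n : ℤ) ∣ Q.ord f) → (∀ i, T.red i f = 1) → ∃ κ : Kum P n, κ.f = f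

attribute [instance] RCConc.fk RCConc.fFb RCConc.alg RCConc.ac RCConc.ff

/-- the exponent of route RC. -/
def dRC (q : ℕ) : ℕ := (q + 1) * (q - 1) * (q - 1) * (q ^ 2 - 1)

theorem dRC_ne_zero {q : ℕ} (hq : q.Prime) : dRC q ≠ 0 := by
  have h2 := hq.two_le
  have h4 : 4 ≤ q ^ 2 := by nlinarith
  have h1 : q - 1 ≠ 0 := by omega
  have h3 : q ^ 2 - 1 ≠ 0 := by omega
  exact mul_ne_zero (mul_ne_zero (mul_ne_zero (by omega) h1) h1) h3

theorem RCConc.concl {S : Setup A M q} (C : RCConc S) : Top.Concl S (dRC q) := by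
  intro n hn hqn f hf hord
  have h := abstract_RC (O := O0 A) (n := n) C.link (by rw [C.T_q]; exact C.good) C.resF C.old
    C.stabA C.stabB (by rw [C.T_q]; exact hqn) hn (C.kum n hn hqn) (by rw [C.T_q]; exact hf) hord
  rw [C.T_q] at h
  exact h

/-- **Theorem X** from the contract of route RC at the neat levels. -/
theorem theoremX_of_rcConc
    (H : ∀ (M q : ℕ) [NeZero M] [NeZero q], q.Prime → ¬ q ∣ M → (4 ∣ M ∨ 9 ∣ M) →
      ∀ A : ValuationSubring Kbar, A.LiesOverPrime q → ∃ S : Setup A M q, Nonempty (RCConc S)) :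
    Fermat.Agent.S36.Glue.TheoremX :=
  Top.theoremX_of_concl (fun _ q => dRC q) (fun _ _ hq => dRC_ne_zero hq)
    (fun M q _ _ hq hqM hneat A hA => by
      obtain ⟨S, ⟨C⟩⟩ := H M q hq hqM hneat A hA
      exact ⟨S, C.concl⟩)

end Fermat.Agent.S36.RC
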